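import Fermat.Agent.S55.FG.InfRes2

/-!
# S55 finite-group toolkit: inflation-restriction in degree 2, exactness in the middle

`fgI_mid : fgI_MidStatement`: if `H¹(H, A) = 0`, a 2-cocycle of `(G, A)` whose restriction to
`H = ker π` is a coboundary is cohomologous to the inflation of a 2-cocycle of `(Q, A^H)`.
The proof is by three successive normalisations of the cocycle followed by a descent.
-/

set_option linter.unusedSectionVars false
set_option linter.unusedVariables false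
set_option linter.style.longLine false

namespace Fermat.Agent.S55

open groupCohomology

section Mid

variable {G Q A B : Type*} [Group G] [Group Q] [AddCommGroup A] [AddCommGroup B]
  [DistribMulAction G A] [DistribMulAction Q B]

/-- Step A1: a cocycle whose restriction to the kernel is a coboundary can be modified by a
coboundary so that it vanishes on `H × H`. -/
theorem fgI_stepA1 (D : fgI_InfData G Q A B) (F : G × G → A)
    (hres : IsCoboundary₂ (fg_res₂ D.π.ker F)) :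
    ∃ φ : G → A, ∀ h h' : G, D.π h = 1 → D.π h' = 1 → F (h, h') - fgI_dd φ (h, h') = 0 := by
  classical
  obtain ⟨ψ, hψ⟩ := hres
  refine ⟨fun g => if h : D.π g = 1 then ψ ⟨g, MonoidHom.mem_ker.2 h⟩ else 0, ?_⟩
  intro h h' hh hh'
  have hhh' : D.π (h * h') = 1 := by rw [map_mul, hh, hh', one_mul]
  have e := hψ ⟨h, MonoidHom.mem_ker.2 hh⟩ ⟨h', MonoidHom.mem_ker.2 hh'⟩
  have e' : h • ψ ⟨h', MonoidHom.mem_ker.2 hh'⟩ - ψ ⟨h * h', MonoidHom.mem_ker.2 hhh'⟩
      + ψ ⟨h, MonoidHom.mem_ker.2 hh⟩ = F (h, h') := e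
  rw [fgI_dd_apply]
  simp only [dif_pos hh, dif_pos hh', dif_pos hhh']
  rw [e', sub_self]

/-- Step A2: a cocycle vanishing on `H × H` can be modified by a coboundary so that it vanishes
on `H × G`. -/
theorem fgI_stepA2 (D : fgI_InfData G Q A B) (F : G × G → A) (hF : IsCocycle₂ F)
    (h0 : ∀ h h' : G, D.π h = 1 → D.π h' = 1 → F (h, h') = 0) :
    ∃ φ : G → A, ∀ h g : G, D.π h = 1 → F (h, g) - fgI_dd φ (h, g) = 0 := by
  refine ⟨fun g => -F (fgI_r D g, fgI_t D g), ?_⟩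
  intro h g hh
  rw [fgI_dd_apply]
  have e1 : F (fgI_r D h, fgI_t D h) = 0 :=
    h0 _ _ (fgI_π_r D h) (by rw [fgI_π_t, hh])
  have e2 := hF h (fgI_r D g) (fgI_t D g)
  rw [fgI_r_mul_t, h0 h (fgI_r D g) hh (fgI_π_r D g), add_zero] at e2
  simp only [fgI_r_mul D hh, fgI_t_mul D hh, e1, e2, smul_neg]
  abel

/-- Step B: a cocycle vanishing on `H × G` can be modified by a coboundary so that it vanishes
on `H × G` and on `G × H`, provided `H¹(H, A) = 0`. -/
theorem fgI_stepB (D : fgI_InfData G Q A B) (h1 : fg_H1Zero D.π.ker A) (F : G × G → A)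
    (hF : IsCocycle₂ F) (h0 : ∀ h g : G, D.π h = 1 → F (h, g) = 0) :
    ∃ φ : G → A, ∀ h g : G, D.π h = 1 →
      F (h, g) - fgI_dd φ (h, g) = 0 ∧ F (g, h) - fgI_dd φ (g, h) = 0 := by
  -- (i) `F (h g, g') = h • F (g, g')`
  have hi : ∀ h g g' : G, D.π h = 1 → F (h * g, g') = h • F (g, g') := by
    intro h g g' hh
    have e := hF h g g'
    rw [h0 h g hh, h0 h (g * g') hh, add_zero, add_zero] at e
    exact e
  -- the twisted restriction is a 1-cocycle of the kernel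
  have hw : ∀ g : G, IsCocycle₁ (fun k : D.π.ker => F (g, g⁻¹ * (k : G) * g)) := by
    intro g k k'
    have hk : D.π (k : G) = 1 := MonoidHom.mem_ker.1 k.2
    have hk' : D.π (k' : G) = 1 := MonoidHom.mem_ker.1 k'.2
    have e := hF g (g⁻¹ * (k : G) * g) (g⁻¹ * (k' : G) * g)
    rw [h0 _ _ (fgI_π_conj' D hk g), smul_zero, zero_add] at e
    have e3 : g * (g⁻¹ * (k : G) * g) = (k : G) * g := by group
    have e4 : g⁻¹ * (k : G) * g * (g⁻¹ * (k' : G) * g) = g⁻¹ * ((k : G) * (k' : G)) * g := by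
      group
    rw [e3, e4, hi _ _ _ hk] at e
    show F (g, g⁻¹ * ((k * k' : D.π.ker) : G) * g)
      = (k : G) • F (g, g⁻¹ * (k' : G) * g) + F (g, g⁻¹ * (k : G) * g)
    rw [Subgroup.coe_mul, ← e]
  choose X hX using fun g => h1 _ (hw g)
  have hX' : ∀ g k : G, D.π k = 1 → k • X g - X g = F (g, g⁻¹ * k * g) :=
    fun g k hk => hX g ⟨k, MonoidHom.mem_ker.2 hk⟩
  set x1 : A := X (fgI_t D 1) with hx1
  have hπt1 : D.π (fgI_t D 1) = 1 := by rw [fgI_π_t, map_one]
  have hx1inv : ∀ k : G, D.π k = 1 → k • x1 = x1 := by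
    intro k hk
    have e := hX' (fgI_t D 1) k hk
    rw [h0 _ _ hπt1] at e
    exact sub_eq_zero.1 e
  set φ : G → A := fun g => x1 - fgI_r D g • X (fgI_t D g) with hφdef
  have hφl : ∀ h g : G, D.π h = 1 → φ (h * g) = h • φ g := by
    intro h g hh
    simp only [hφdef, fgI_r_mul D hh, fgI_t_mul D hh, smul_sub, mul_smul, hx1inv h hh]
  have hφ0 : ∀ h : G, D.π h = 1 → φ h = 0 := by
    intro h hh
    have e : fgI_t D h = fgI_t D 1 := fgI_t_eq D (by rw [hh, map_one])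
    simp only [hφdef, e]
    rw [← hx1, hx1inv _ (fgI_π_r D h), sub_self]
  have hFg : ∀ g h : G, D.π h = 1 → F (g, h) = φ g - (g * h * g⁻¹) • φ g := by
    intro g h hh
    have e1 : F (g, h) = fgI_r D g • F (fgI_t D g, h) := by
      rw [← hi _ _ _ (fgI_π_r D g), fgI_r_mul_t]
    have hk : D.π (fgI_t D g * h * (fgI_t D g)⁻¹) = 1 := fgI_π_conj D hh _
    have e2 := hX' (fgI_t D g) _ hk
    have e3 : (fgI_t D g)⁻¹ * (fgI_t D g * h * (fgI_t D g)⁻¹) * fgI_t D g = h := by group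
    rw [e3] at e2
    have e4 : g * h * g⁻¹ * fgI_r D g = fgI_r D g * (fgI_t D g * h * (fgI_t D g)⁻¹) := by
      unfold fgI_r
      group
    rw [e1, ← e2]
    simp only [hφdef, smul_sub, ← mul_smul, e4, hx1inv _ (fgI_π_conj D hh g)]
    abel
  refine ⟨φ, fun h g hh => ⟨?_, ?_⟩⟩
  · rw [fgI_dd_apply, h0 h g hh, hφl h g hh, hφ0 h hh]
    abel
  · have e2 : φ (g * h) = (g * h * g⁻¹) • φ g := by
      rw [← hφl _ _ (fgI_π_conj D hh g)]
      congr 1
      group
    rw [fgI_dd_apply, hφ0 h hh, smul_zero, hFg g h hh, e2]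
    abel

/-- Step C (descent): a cocycle vanishing on `H × G` and on `G × H` is an inflation. -/
theorem fgI_stepC (D : fgI_InfData G Q A B) (F : G × G → A) (hF : IsCocycle₂ F)
    (h0 : ∀ h g : G, D.π h = 1 → F (h, g) = 0 ∧ F (g, h) = 0) :
    ∃ f : Q × Q → B, IsCocycle₂ f ∧ ∀ g g' : G, F (g, g') = D.ι (f (D.π g, D.π g')) := by
  have hi : ∀ h g g' : G, D.π h = 1 → F (h * g, g') = h • F (g, g') := by
    intro h g g' hh
    have e := hF h g g'
    rw [(h0 h g hh).1, (h0 h (g * g') hh).1, add_zero, add_zero] at e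
    exact e
  have hii : ∀ g h g' : G, D.π h = 1 → F (g * h, g') = F (g, h * g') := by
    intro g h g' hh
    have e := hF g h g'
    rw [(h0 h g hh).2, (h0 h g' hh).1, add_zero, smul_zero, zero_add] at e
    exact e
  have hiii : ∀ g g' h : G, D.π h = 1 → F (g, g' * h) = F (g, g') := by
    intro g g' h hh
    have e := hF g g' h
    rw [(h0 h (g * g') hh).2, (h0 h g' hh).2, zero_add, smul_zero, zero_add] at e
    exact e.symm
  have hiv : ∀ g h g' : G, D.π h = 1 → F (g, h * g') = F (g, g') := by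
    intro g h g' hh
    have e : h * g' = g' * (g'⁻¹ * h * g') := by group
    rw [e]
    exact hiii g g' _ (fgI_π_conj' D hh g')
  have hv : ∀ g h g' : G, D.π h = 1 → F (g * h, g') = F (g, g') := by
    intro g h g' hh
    rw [hii g h g' hh, hiv g h g' hh]
  have hvi : ∀ h g g' : G, D.π h = 1 → F (h * g, g') = F (g, g') := by
    intro h g g' hh
    have e : h * g = g * (g⁻¹ * h * g) := by group
    rw [e]
    exact hv g _ g' (fgI_π_conj' D hh g)
  have hinv : ∀ h g g' : G, D.π h = 1 → h • F (g, g') = F (g, g') := by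
    intro h g g' hh
    rw [← hi h g g' hh, hvi h g g' hh]
  have hfac : ∀ g₁ g₂ g₁' g₂' : G, D.π g₁ = D.π g₂ → D.π g₁' = D.π g₂' →
      F (g₁, g₁') = F (g₂, g₂') := by
    intro g₁ g₂ g₁' g₂' e e'
    have a1 : g₂ = g₁ * (g₁⁻¹ * g₂) := by group
    have a2 : g₂' = g₁' * (g₁'⁻¹ * g₂') := by group
    have b1 : D.π (g₁⁻¹ * g₂) = 1 := by rw [map_mul, map_inv, e, inv_mul_cancel]
    have b2 : D.π (g₁'⁻¹ * g₂') = 1 := by rw [map_mul, map_inv, e', inv_mul_cancel]
    rw [a1, a2, hv _ _ _ b1, hiii _ _ _ b2]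
  choose β hβ using fun p : G × G => D.ι_range (F p) (fun h hh => hinv h p.1 p.2 hh)
  set s := Function.surjInv D.π_surj with hs
  have hsπ : ∀ q, D.π (s q) = q := Function.surjInv_eq D.π_surj
  have key : ∀ g g' : G, F (g, g') = D.ι (β (s (D.π g), s (D.π g'))) := by
    intro g g'
    rw [hβ]
    exact hfac _ _ _ _ (hsπ _).symm (hsπ _).symm
  refine ⟨fun p => β (s p.1, s p.2), ?_, key⟩
  intro q q' q''
  apply D.ι_inj
  have k1 := key (s q * s q') (s q'')
  have k2 := key (s q) (s q')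
  have k3 := key (s q') (s q'')
  have k4 := key (s q) (s q' * s q'')
  simp only [map_mul, hsπ] at k1 k2 k3 k4
  have e := hF (s q) (s q') (s q'')
  rw [k1, k2, k3, k4] at e
  show D.ι (β (s (q * q'), s q'') + β (s q, s q'))
    = D.ι (q • β (s q', s q'') + β (s q, s (q' * q'')))
  rw [map_add, map_add, e]
  congr 1
  conv_rhs => rw [← hsπ q, D.ι_smul]

/-- **Exactness in the middle of inflation-restriction in degree 2** when `H¹(H, A) = 0`. -/
theorem fgI_mid_aux (D : fgI_InfData G Q A B) (h1 : fg_H1Zero D.π.ker A)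
    (F : G × G → A) (hF : IsCocycle₂ F) (hres : IsCoboundary₂ (fg_res₂ D.π.ker F)) :
    ∃ f : Q × Q → B, IsCocycle₂ f ∧ IsCoboundary₂ (fun p => F p - fgI_inf₂ D f p) := by
  obtain ⟨φ₀, h₀⟩ := fgI_stepA1 D F hres
  have hF₀ : IsCocycle₂ (fun p => F p - fgI_dd φ₀ p) := fgI_isCocycle₂_sub_dd hF φ₀
  obtain ⟨φ₁, h₁⟩ := fgI_stepA2 D (fun p => F p - fgI_dd φ₀ p) hF₀ h₀
  have hF₁ : IsCocycle₂ (fun p => (F p - fgI_dd φ₀ p) - fgI_dd φ₁ p) :=
    fgI_isCocycle₂_sub_dd hF₀ φ₁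
  obtain ⟨φ₂, h₂⟩ := fgI_stepB D h1 (fun p => (F p - fgI_dd φ₀ p) - fgI_dd φ₁ p) hF₁ h₁
  have hF₂ : IsCocycle₂ (fun p => ((F p - fgI_dd φ₀ p) - fgI_dd φ₁ p) - fgI_dd φ₂ p) :=
    fgI_isCocycle₂_sub_dd hF₁ φ₂
  obtain ⟨f, hf, hfF⟩ := fgI_stepC D _ hF₂ h₂
  refine ⟨f, hf, fun g => φ₀ g + φ₁ g + φ₂ g, fun g g' => ?_⟩
  have e := hfF g g'
  simp only [fgI_dd_apply] at e
  show _ = F (g, g') - fgI_inf₂ D f (g, g')
  rw [fgI_inf₂_apply, ← e]
  simp only [smul_add]
  abel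

theorem fgI_mid : fgI_MidStatement :=
  fun _ _ _ _ _ _ _ _ _ _ D h1 F hF hres => fgI_mid_aux D h1 F hF hres

end Mid

end Fermat.Agent.S55
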