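import Fermat.Agent.S55.FG.Cyc2

set_option linter.style.haveILetI false
set_option linter.unusedSectionVars false

/-!
# S55 finite-group toolkit: restriction to a subgroup of finite index ([FG-SYL])

`P ≤ G` of finite index, `A` a `G`-module, `f` a 1- resp. 2-cocycle of `(G, A)` whose
restriction to `P` is a coboundary. Then `[G : P] • f` is a coboundary (`fgS_H1`, `fgS_H2`).
Consequences: `|G|` kills `H¹` and `H²`; a cocycle whose restrictions to Sylow subgroups are
coboundaries is a coboundary (`fgS_H1T_of_sylow`, `fgS_H2T_of_sylow`); restriction to a Sylow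
`p`-subgroup is injective on `p`-power torsion classes (`fgS_H2_of_pow`, `fgS_H1_of_pow`).
-/

namespace Fermat.Agent.S55

open groupCohomology

section Rep

variable {G : Type*} [Group G] (P : Subgroup G)

/-- A chosen representative of the left coset `g P`. -/
noncomputable def fgS_rep (g : G) : G := (g : G ⧸ P).out

theorem fgS_rep_inv_mul_mem (g : G) : (fgS_rep P g)⁻¹ * g ∈ P := by
  rw [← QuotientGroup.eq]
  exact QuotientGroup.out_eq' _

theorem fgS_rep_mul (g : G) {p : G} (hp : p ∈ P) : fgS_rep P (g * p) = fgS_rep P g := by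
  unfold fgS_rep
  rw [QuotientGroup.mk_mul_of_mem g hp]

theorem fgS_rep_mem {p : G} (hp : p ∈ P) : fgS_rep P p ∈ P := by
  have h := fgS_rep_inv_mul_mem P p
  have h2 := P.mul_mem hp (P.inv_mem h)
  rwa [mul_inv_rev, inv_inv, mul_inv_cancel_left] at h2

variable {A : Type*} [AddCommGroup A]

/-- A right-`P`-invariant function summed over `h * (representatives)`. -/
theorem fgS_sum_mul_out [Fintype (G ⧸ P)] (F : G → A)
    (hF : ∀ a p, p ∈ P → F (a * p) = F a) (h : G) :
    ∑ c : G ⧸ P, F (h * c.out) = ∑ c : G ⧸ P, F c.out := by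
  have h1 : ∀ c : G ⧸ P, F (h * c.out) = F ((h • c).out) := by
    intro c
    have hmem : ((h • c).out)⁻¹ * (h * c.out) ∈ P := by
      rw [← QuotientGroup.eq, QuotientGroup.out_eq']
      exact (MulAction.Quotient.mk_smul_out P h c).symm
    have := hF ((h • c).out) _ hmem
    rw [mul_inv_cancel_left] at this
    exact this
  rw [Finset.sum_congr rfl (fun c _ => h1 c)]
  exact Equiv.sum_comp (MulAction.toPerm h) (fun c : G ⧸ P => F c.out)

end Rep

section Main

variable {G : Type*} [Group G] {A : Type*} [AddCommGroup A] [DistribMulAction G A]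

/-- Restriction of a 1-cochain of `G` to a subgroup. -/
def fgS_res₁ (K : Subgroup G) (f : G → A) : K → A := fun k => f (k : G)

theorem fgS_res₁_isCocycle (K : Subgroup G) {f : G → A} (hf : IsCocycle₁ f) :
    IsCocycle₁ (fgS_res₁ K f) := fun g h => hf (g : G) (h : G)

theorem fgS_res₂_isCocycle (K : Subgroup G) {f : G × G → A} (hf : IsCocycle₂ f) :
    IsCocycle₂ (fg_res₂ K f) := fun g h j => hf (g : G) (h : G) (j : G)

/-- **[FG-SYL], degree 1**: if the restriction of a 1-cocycle to a subgroup `P` of finite index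
is a coboundary, then `[G : P] • f` is a coboundary. -/
theorem fgS_H1 (P : Subgroup G) [P.FiniteIndex] {f : G → A} (hf : IsCocycle₁ f)
    (hres : IsCoboundary₁ (fgS_res₁ P f)) : IsCoboundary₁ (fun g => P.index • f g) := by
  classical
  haveI : Fintype (G ⧸ P) := Fintype.ofFinite _
  obtain ⟨m, hm⟩ := hres
  have hmP : ∀ p : G, p ∈ P → p • m - m = f p := fun p hp => hm ⟨p, hp⟩
  set f' : G → A := fun g => f g - (g • m - m) with hf'
  have hc : ∀ g h, f' (g * h) = g • f' h + f' g := by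
    intro g h
    simp only [hf']
    rw [hf g h, mul_smul, smul_sub, smul_sub]
    abel
  have hP : ∀ p : G, p ∈ P → f' p = 0 := by
    intro p hp
    simp only [hf']
    rw [hmP p hp, sub_self]
  have hinv : ∀ a p, p ∈ P → f' (a * p) = f' a := by
    intro a p hp
    rw [hc, hP p hp, smul_zero, zero_add]
  set w : A := ∑ c : G ⧸ P, f' c.out with hw
  have key : ∀ g, P.index • f' g = w - g • w := by
    intro g
    have h1 : ∑ c : G ⧸ P, f' (g * c.out) = g • w + P.index • f' g := by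
      rw [Finset.sum_congr rfl (fun c _ => hc g c.out), Finset.sum_add_distrib,
        ← Finset.smul_sum, Finset.sum_const, Finset.card_univ, Subgroup.index_eq_card,
        Nat.card_eq_fintype_card]
    rw [fgS_sum_mul_out P f' hinv g] at h1
    rw [eq_sub_iff_add_eq, add_comm]
    exact h1.symm
  refine ⟨P.index • m - w, fun g => ?_⟩
  have h2 : f g = f' g + (g • m - m) := by
    simp only [hf']
    abel
  change _ = P.index • f g
  rw [h2, smul_add, key g, smul_sub, smul_sub, smul_comm g P.index m]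
  abel

/-- **[FG-SYL], degree 2**: if the restriction of a 2-cocycle to a subgroup `P` of finite index
is a coboundary, then `[G : P] • f` is a coboundary. -/
theorem fgS_H2 (P : Subgroup G) [P.FiniteIndex] {f : G × G → A} (hf : IsCocycle₂ f)
    (hres : IsCoboundary₂ (fg_res₂ P f)) : IsCoboundary₂ (fun p => P.index • f p) := by
  classical
  haveI : Fintype (G ⧸ P) := Fintype.ofFinite _
  obtain ⟨x₀, hx₀⟩ := hres
  -- Step 0: make `f` vanish on `P × P`
  set x₁ : G → A := fun g => if h : g ∈ P then x₀ ⟨g, h⟩ else 0 with hx₁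
  have hx₁P : ∀ (p : G) (hp : p ∈ P), x₁ p = x₀ ⟨p, hp⟩ := by
    intro p hp
    simp only [hx₁]
    rw [dif_pos hp]
  set f₁ : G × G → A := fun p => f p - (p.1 • x₁ p.2 - x₁ (p.1 * p.2) + x₁ p.1) with hf₁
  have hf₁c : IsCocycle₂ f₁ := fgD_isCocycle₂_sub hf (fgD_isCocycle₂_d x₁)
  have hf₁P : ∀ p q : G, p ∈ P → q ∈ P → f₁ (p, q) = 0 := by
    intro p q hp hq
    simp only [hf₁]
    rw [hx₁P p hp, hx₁P q hq, hx₁P (p * q) (P.mul_mem hp hq), sub_eq_zero]
    exact (hx₀ ⟨p, hp⟩ ⟨q, hq⟩).symm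
  -- Step 1: make it vanish on `G × P`
  set z : G → A := fun g => - f₁ (fgS_rep P g, (fgS_rep P g)⁻¹ * g) with hz
  have hzP : ∀ p : G, p ∈ P → z p = 0 := by
    intro p hp
    simp only [hz]
    rw [hf₁P _ _ (fgS_rep_mem P hp) (fgS_rep_inv_mul_mem P p), neg_zero]
  set f₂ : G × G → A := fun p => f₁ p - (p.1 • z p.2 - z (p.1 * p.2) + z p.1) with hf₂
  have hf₂c : IsCocycle₂ f₂ := fgD_isCocycle₂_sub hf₁c (fgD_isCocycle₂_d z)
  have hf₂P : ∀ (g p : G), p ∈ P → f₂ (g, p) = 0 := by
    intro g p hp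
    have h1 := hf₁c (fgS_rep P g) ((fgS_rep P g)⁻¹ * g) p
    rw [mul_inv_cancel_left, hf₁P _ _ (fgS_rep_inv_mul_mem P g) hp, smul_zero, zero_add,
      mul_assoc] at h1
    simp only [hf₂, hz]
    rw [fgS_rep_mul P g hp, hf₁P _ _ (fgS_rep_mem P hp) (fgS_rep_inv_mul_mem P p), neg_zero,
      smul_zero, ← h1]
    abel
  have hinv : ∀ g a p, p ∈ P → f₂ (g, a * p) = f₂ (g, a) := by
    intro g a p hp
    have h1 := hf₂c g a p
    rw [hf₂P _ _ hp, hf₂P _ _ hp, smul_zero, zero_add, zero_add] at h1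
    exact h1.symm
  -- Step 2: sum over the cosets
  set y : G → A := fun g => ∑ c : G ⧸ P, f₂ (g, c.out) with hy
  have key : ∀ g h, P.index • f₂ (g, h) = g • y h - y (g * h) + y g := by
    intro g h
    have h1 : ∑ c : G ⧸ P, (f₂ (g * h, c.out) + f₂ (g, h)) =
        ∑ c : G ⧸ P, (g • f₂ (h, c.out) + f₂ (g, h * c.out)) :=
      Finset.sum_congr rfl (fun c _ => hf₂c g h c.out)
    rw [Finset.sum_add_distrib, Finset.sum_add_distrib, ← Finset.smul_sum, Finset.sum_const,
      Finset.card_univ, fgS_sum_mul_out P (fun a => f₂ (g, a)) (hinv g) h,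
      ← Nat.card_eq_fintype_card, ← Subgroup.index_eq_card] at h1
    have h2 := eq_sub_of_add_eq' h1
    simp only [hy]
    rw [h2]
    abel
  refine ⟨fun g => y g + P.index • z g + P.index • x₁ g, fun g h => ?_⟩
  have h3 : f (g, h) = f₂ (g, h) + (g • z h - z (g * h) + z g) +
      (g • x₁ h - x₁ (g * h) + x₁ g) := by
    simp only [hf₂, hf₁]
    abel
  change _ = P.index • f (g, h)
  rw [h3, smul_add P.index, smul_add P.index, key g h]
  simp only [smul_add, smul_sub, smul_comm g P.index]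
  abel

end Main

section Coboundaries

variable (G : Type*) [Group G] (A : Type*) [AddCommGroup A] [DistribMulAction G A]

/-- The group of 1-coboundaries. -/
def fgS_B1 : AddSubgroup (G → A) where
  carrier := {f | IsCoboundary₁ f}
  zero_mem' := ⟨0, fun g => by simp⟩
  add_mem' := by
    rintro f f' ⟨x, hx⟩ ⟨x', hx'⟩
    refine ⟨x + x', fun g => ?_⟩
    rw [Pi.add_apply, ← hx, ← hx', smul_add]
    abel
  neg_mem' := by
    rintro f ⟨x, hx⟩
    refine ⟨-x, fun g => ?_⟩
    rw [Pi.neg_apply, ← hx, smul_neg]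
    abel

/-- The group of 2-coboundaries. -/
def fgS_B2 : AddSubgroup (G × G → A) where
  carrier := {f | IsCoboundary₂ f}
  zero_mem' := fgD_isCoboundary₂_zero
  add_mem' := fun hf hf' => fgD_isCoboundary₂_add hf hf'
  neg_mem' := fun hf => fgD_isCoboundary₂_neg hf

variable {G A}

theorem fgS_mem_B1 {f : G → A} : f ∈ fgS_B1 G A ↔ IsCoboundary₁ f := Iff.rfl

theorem fgS_mem_B2 {f : G × G → A} : f ∈ fgS_B2 G A ↔ IsCoboundary₂ f := Iff.rfl

theorem fgS_nsmul_mem_B1 {f : G → A} (n : ℕ) :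
    n • f ∈ fgS_B1 G A ↔ IsCoboundary₁ (fun g => n • f g) := Iff.rfl

theorem fgS_nsmul_mem_B2 {f : G × G → A} (n : ℕ) :
    n • f ∈ fgS_B2 G A ↔ IsCoboundary₂ (fun p => n • f p) := Iff.rfl

end Coboundaries

section Coprime

variable {M : Type*} [AddCommGroup M]

/-- If `m • a ∈ S` and `n • a ∈ S` with `m`, `n` coprime, then `a ∈ S`. -/
theorem fgS_mem_of_coprime (S : AddSubgroup M) (a : M) {m n : ℕ} (h : Nat.Coprime m n)
    (hm : m • a ∈ S) (hn : n • a ∈ S) : a ∈ S := by
  have h1 : (1 : ℤ) = (m : ℤ) * Nat.gcdA m n + (n : ℤ) * Nat.gcdB m n := by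
    rw [← Nat.gcd_eq_gcd_ab, h.gcd_eq_one, Nat.cast_one]
  have h2 : a = Nat.gcdA m n • (m • a) + Nat.gcdB m n • (n • a) := by
    conv_lhs => rw [← one_zsmul a, h1, add_zsmul, mul_comm (m : ℤ), mul_comm (n : ℤ), mul_zsmul,
      mul_zsmul, natCast_zsmul, natCast_zsmul]
  rw [h2]
  exact S.add_mem (S.zsmul_mem hm _) (S.zsmul_mem hn _)

end Coprime

section Corollaries

variable {G : Type*} [Group G] {A : Type*} [AddCommGroup A] [DistribMulAction G A]

/-- A 1-cocycle vanishes at `1`. -/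
theorem fgS_cocycle₁_one {f : G → A} (hf : IsCocycle₁ f) : f 1 = 0 := by
  have := hf 1 1
  rw [mul_one, one_smul] at this
  exact left_eq_add.mp this

/-- `|G|` kills `H¹(G, A)`. -/
theorem fgS_card_smul_H1 [Finite G] {f : G → A} (hf : IsCocycle₁ f) :
    IsCoboundary₁ (fun g => Nat.card G • f g) := by
  have h := fgS_H1 (⊥ : Subgroup G) hf ⟨0, fun p => by
    have hp : (p : G) = 1 := Subgroup.mem_bot.1 p.2
    change p • (0 : A) - 0 = f (p : G)
    rw [hp, fgS_cocycle₁_one hf, smul_zero, sub_zero]⟩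
  rwa [Subgroup.index_bot] at h

/-- `|G|` kills `H²(G, A)`. -/
theorem fgS_card_smul_H2 [Finite G] {f : G × G → A} (hf : IsCocycle₂ f) :
    IsCoboundary₂ (fun p => Nat.card G • f p) := by
  have h := fgS_H2 (⊥ : Subgroup G) hf ⟨fun _ => f (1, 1), fun p q => by
    have hp : (p : G) = 1 := Subgroup.mem_bot.1 p.2
    have hq : (q : G) = 1 := Subgroup.mem_bot.1 q.2
    change p • f (1, 1) - f (1, 1) + f (1, 1) = f ((p : G), (q : G))
    rw [hp, hq, Subgroup.smul_def, hp, one_smul]
    abel⟩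
  rwa [Subgroup.index_bot] at h

/-- If `n • f` is a coboundary, `n` is prime to `[G : P]` and `f|_P` is a coboundary, then the
1-cocycle `f` is a coboundary. -/
theorem fgS_H1_of_coprime (P : Subgroup G) {f : G → A} (hf : IsCocycle₁ f) {n : ℕ}
    (hcop : Nat.Coprime n P.index) (hn : IsCoboundary₁ (fun g => n • f g))
    (hres : IsCoboundary₁ (fgS_res₁ P f)) : IsCoboundary₁ f := by
  by_cases h0 : P.index = 0
  · rw [h0, Nat.coprime_zero_right] at hcop
    rw [hcop] at hn
    simpa using hn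
  · haveI : P.FiniteIndex := ⟨h0⟩
    exact fgS_mem_of_coprime (fgS_B1 G A) f hcop hn (fgS_H1 P hf hres)

/-- If `n • f` is a coboundary, `n` is prime to `[G : P]` and `f|_P` is a coboundary, then the
2-cocycle `f` is a coboundary. -/
theorem fgS_H2_of_coprime (P : Subgroup G) {f : G × G → A} (hf : IsCocycle₂ f) {n : ℕ}
    (hcop : Nat.Coprime n P.index) (hn : IsCoboundary₂ (fun p => n • f p))
    (hres : IsCoboundary₂ (fg_res₂ P f)) : IsCoboundary₂ f := by
  by_cases h0 : P.index = 0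
  · rw [h0, Nat.coprime_zero_right] at hcop
    rw [hcop] at hn
    simpa using hn
  · haveI : P.FiniteIndex := ⟨h0⟩
    exact fgS_mem_of_coprime (fgS_B2 G A) f hcop hn (fgS_H2 P hf hres)

/-- Restriction to a subgroup of index prime to `p` is injective on `p`-power torsion classes
(degree 1). -/
theorem fgS_H1_of_pow {p : ℕ} (hp : p.Prime) (P : Subgroup G) (hP : ¬ p ∣ P.index)
    {f : G → A} (hf : IsCocycle₁ f) (k : ℕ) (hk : IsCoboundary₁ (fun g => p ^ k • f g))
    (hres : IsCoboundary₁ (fgS_res₁ P f)) : IsCoboundary₁ f :=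
  fgS_H1_of_coprime P hf (Nat.Coprime.pow_left k ((Nat.Prime.coprime_iff_not_dvd hp).2 hP)) hk hres

/-- Restriction to a subgroup of index prime to `p` is injective on `p`-power torsion classes
(degree 2). -/
theorem fgS_H2_of_pow {p : ℕ} (hp : p.Prime) (P : Subgroup G) (hP : ¬ p ∣ P.index)
    {f : G × G → A} (hf : IsCocycle₂ f) (k : ℕ) (hk : IsCoboundary₂ (fun q => p ^ k • f q))
    (hres : IsCoboundary₂ (fg_res₂ P f)) : IsCoboundary₂ f :=
  fgS_H2_of_coprime P hf (Nat.Coprime.pow_left k ((Nat.Prime.coprime_iff_not_dvd hp).2 hP)) hk hres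

/-- For a module killed by `n`: a 1-cocycle whose restriction to a subgroup of index prime to
`n` is a coboundary is a coboundary. -/
theorem fgS_H1_of_torsion (P : Subgroup G) {f : G → A} (hf : IsCocycle₁ f) {n : ℕ}
    (hA : ∀ a : A, n • a = 0) (hcop : Nat.Coprime n P.index)
    (hres : IsCoboundary₁ (fgS_res₁ P f)) : IsCoboundary₁ f :=
  fgS_H1_of_coprime P hf hcop ⟨0, fun g => by simp [hA]⟩ hres

/-- For a module killed by `n`: a 2-cocycle whose restriction to a subgroup of index prime to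
`n` is a coboundary is a coboundary. -/
theorem fgS_H2_of_torsion (P : Subgroup G) {f : G × G → A} (hf : IsCocycle₂ f) {n : ℕ}
    (hA : ∀ a : A, n • a = 0) (hcop : Nat.Coprime n P.index)
    (hres : IsCoboundary₂ (fg_res₂ P f)) : IsCoboundary₂ f :=
  fgS_H2_of_coprime P hf hcop ⟨fun _ => 0, fun g h => by simp [hA]⟩ hres

/-- A 1-cocycle which for every prime `p` restricts to a coboundary on some subgroup of index
prime to `p` is a coboundary. -/
theorem fgS_H1_of_index {f : G → A} (hf : IsCocycle₁ f)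
    (h : ∀ p : ℕ, p.Prime → ∃ P : Subgroup G, ¬ p ∣ P.index ∧ IsCoboundary₁ (fgS_res₁ P f)) :
    IsCoboundary₁ f := by
  obtain ⟨P₂, hP₂, hres₂⟩ := h 2 Nat.prime_two
  have h0 : P₂.index ≠ 0 := fun h0 => hP₂ (by rw [h0]; exact dvd_zero 2)
  haveI : P₂.FiniteIndex := ⟨h0⟩
  refine fgF_mem_of_coprime_multiples (fgS_B1 G A) f P₂.index h0 (fgS_H1 P₂ hf hres₂) ?_
  intro p hp
  obtain ⟨P, hP, hres⟩ := h p hp
  have h0' : P.index ≠ 0 := fun h0 => hP (by rw [h0]; exact dvd_zero p)
  haveI : P.FiniteIndex := ⟨h0'⟩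
  exact ⟨P.index, hP, fgS_H1 P hf hres⟩

/-- A 2-cocycle which for every prime `p` restricts to a coboundary on some subgroup of index
prime to `p` is a coboundary. -/
theorem fgS_H2_of_index {f : G × G → A} (hf : IsCocycle₂ f)
    (h : ∀ p : ℕ, p.Prime → ∃ P : Subgroup G, ¬ p ∣ P.index ∧ IsCoboundary₂ (fg_res₂ P f)) :
    IsCoboundary₂ f := by
  obtain ⟨P₂, hP₂, hres₂⟩ := h 2 Nat.prime_two
  have h0 : P₂.index ≠ 0 := fun h0 => hP₂ (by rw [h0]; exact dvd_zero 2)
  haveI : P₂.FiniteIndex := ⟨h0⟩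
  refine fgF_mem_of_coprime_multiples (fgS_B2 G A) f P₂.index h0 (fgS_H2 P₂ hf hres₂) ?_
  intro p hp
  obtain ⟨P, hP, hres⟩ := h p hp
  have h0' : P.index ≠ 0 := fun h0 => hP (by rw [h0]; exact dvd_zero p)
  haveI : P.FiniteIndex := ⟨h0'⟩
  exact ⟨P.index, hP, fgS_H2 P hf hres⟩

/-- `H¹(G, A) = 0` if `H¹(P, A) = 0` for all Sylow subgroups `P` of the finite group `G`. -/
theorem fgS_H1T_of_sylow [Finite G]
    (h : ∀ (p : ℕ) [Fact p.Prime] (P : Sylow p G), fgF_H1T P A) : fgF_H1T G A := by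
  intro f hf
  refine fgS_H1_of_index hf (fun p hp => ?_)
  haveI : Fact p.Prime := ⟨hp⟩
  obtain ⟨P⟩ := (inferInstance : Nonempty (Sylow p G))
  exact ⟨P, P.not_dvd_index, h p P _ (fgS_res₁_isCocycle (P : Subgroup G) hf)⟩

/-- `H²(G, A) = 0` if `H²(P, A) = 0` for all Sylow subgroups `P` of the finite group `G`. -/
theorem fgS_H2T_of_sylow [Finite G]
    (h : ∀ (p : ℕ) [Fact p.Prime] (P : Sylow p G), fgF_H2T P A) : fgF_H2T G A := by
  intro f hf
  refine fgS_H2_of_index hf (fun p hp => ?_)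
  haveI : Fact p.Prime := ⟨hp⟩
  obtain ⟨P⟩ := (inferInstance : Nonempty (Sylow p G))
  exact ⟨P, P.not_dvd_index, h p P _ (fgS_res₂_isCocycle (P : Subgroup G) hf)⟩

end Corollaries

end Fermat.Agent.S55
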