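import Fermat.Agent.S55.FG.H2Card
import Fermat.Agent.S55.FG.Syl

/-!
# S55 finite-group toolkit: the abstract class formation criterion

If `H¹(K, A) = 0` and `#H²(K, A) ≤ #K` for all subgroups `K` of the finite group `G` ("second
inequality"), and `a` is a 2-cocycle of `G` whose class has order divisible by `#G`, then the pair
`(A, a)` satisfies the hypotheses `fg_TateHyp a` of Tate's theorem: for every subgroup `K` the
group `H²(K, A)` is cyclic of order `#K`, generated by the class of `a|_K`.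

* `fgT_H2Le G A n`      : elementwise form of `#H²(G, A) ≤ n` (a finite set of representatives)
* `fgT_card_le_of_H2Le`, `fgT_H2Le_of_card_le`
* `fgT_ord_res`         : the order of `a|_K` is divisible by `#K`
* `fgT_tateHyp`, `fgT_tateHyp_of_dvd`, `fgT_tateHyp_of_H2Le`
-/

set_option linter.style.haveILetI false
set_option linter.unusedSectionVars false
set_option linter.unusedVariables false
set_option linter.style.longLine false

namespace Fermat.Agent.S55

open groupCohomology

section Le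

variable (G : Type*) [Group G] (A : Type*) [AddCommGroup A] [DistribMulAction G A]

/-- Elementwise form of `#H²(G, A) ≤ n`: there is a set of at most `n` cochains such that every
2-cocycle is cohomologous to one of them. -/
def fgT_H2Le (n : ℕ) : Prop :=
  ∃ Z : Finset (G × G → A), Z.card ≤ n ∧
    ∀ f : G × G → A, IsCocycle₂ f → ∃ z ∈ Z, IsCoboundary₂ (fun x => f x - z x)

variable {G A}

theorem fgT_card_le_of_H2Le {n : ℕ} (h : fgT_H2Le G A n) :
    Finite (fg_H2 G A) ∧ Nat.card (fg_H2 G A) ≤ n := by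
  classical
  obtain ⟨Z, hZ, hrep⟩ := h
  let φ : Z → fg_H2 G A := fun z =>
    if hz : IsCocycle₂ (z : G × G → A) then fg_H2mk G A ⟨z, hz⟩ else 0
  have hφ : Function.Surjective φ := by
    intro x
    obtain ⟨f, rfl⟩ := fg_H2mk_surjective x
    obtain ⟨z, hzZ, hz⟩ := hrep f f.2
    have hzc : IsCocycle₂ z := by
      have h1 : IsCocycle₂ (fun x => (f : G × G → A) x - z x) :=
        fgD_isCocycle₂_of_isCoboundary₂ hz
      have h2 := fgD_isCocycle₂_sub f.2 h1
      have e : (fun p => (f : G × G → A) p - ((f : G × G → A) p - z p)) = z := by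
        funext p
        abel
      rw [e] at h2
      exact h2
    refine ⟨⟨z, hzZ⟩, ?_⟩
    show (if hz' : IsCocycle₂ z then fg_H2mk G A ⟨z, hz'⟩ else 0) = _
    rw [dif_pos hzc]
    symm
    rw [← sub_eq_zero, ← map_sub, fg_H2mk_eq_zero_iff]
    exact hz
  haveI : Finite (fg_H2 G A) := Finite.of_surjective φ hφ
  refine ⟨inferInstance, ?_⟩
  calc Nat.card (fg_H2 G A) ≤ Nat.card Z := Nat.card_le_card_of_surjective φ hφ
    _ = Z.card := by rw [Nat.card_eq_fintype_card, Fintype.card_coe]
    _ ≤ n := hZ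

theorem fgT_H2Le_of_card_le {n : ℕ} [Finite (fg_H2 G A)] (h : Nat.card (fg_H2 G A) ≤ n) :
    fgT_H2Le G A n := by
  classical
  haveI : Fintype (fg_H2 G A) := Fintype.ofFinite _
  let s : fg_H2 G A → (G × G → A) := fun x => ((Function.surjInv fg_H2mk_surjective x :
    fg_Z2 G A) : G × G → A)
  refine ⟨Finset.univ.image s, ?_, fun f hf => ?_⟩
  · refine le_trans Finset.card_image_le ?_
    rw [Finset.card_univ, ← Nat.card_eq_fintype_card]
    exact h
  · refine ⟨s (fg_H2mk G A ⟨f, hf⟩), Finset.mem_image_of_mem s (Finset.mem_univ _), ?_⟩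
    have e := Function.surjInv_eq fg_H2mk_surjective (fg_H2mk G A ⟨f, hf⟩)
    have e2 : fg_H2mk G A (⟨f, hf⟩ - Function.surjInv fg_H2mk_surjective
        (fg_H2mk G A ⟨f, hf⟩)) = 0 := by
      rw [map_sub, e, sub_self]
    exact (fg_H2mk_eq_zero_iff _).1 e2

end Le

section Cyclic

/-- A finite abelian group of order at most `N` containing an element whose order is divisible
by `N` is generated by that element. -/
theorem fgT_gen_of_order {X : Type*} [AddCommGroup X] [Finite X] (x : X) (N : ℕ)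
    (hcard : Nat.card X ≤ N) (hord : ∀ m : ℤ, m • x = 0 → (N : ℤ) ∣ m) (y : X) :
    ∃ m : ℤ, y = m • x := by
  have hd : (N : ℤ) ∣ (addOrderOf x : ℤ) := by
    apply hord
    rw [natCast_zsmul, addOrderOf_nsmul_eq_zero]
  have hpos : 0 < addOrderOf x := addOrderOf_pos x
  have hle : N ≤ addOrderOf x := Nat.le_of_dvd hpos (Int.natCast_dvd_natCast.1 hd)
  have hz : Nat.card (AddSubgroup.zmultiples x) = addOrderOf x := Nat.card_zmultiples x
  have htop : AddSubgroup.zmultiples x = ⊤ := by
    apply AddSubgroup.eq_top_of_le_card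
    rw [hz]
    exact le_trans hcard hle
  have hy : y ∈ AddSubgroup.zmultiples x := by
    rw [htop]
    exact AddSubgroup.mem_top y
  obtain ⟨m, hm⟩ := AddSubgroup.mem_zmultiples_iff.1 hy
  exact ⟨m, hm.symm⟩

end Cyclic

section Main

variable {G : Type*} [Group G] [Finite G] {A : Type*} [AddCommGroup A] [DistribMulAction G A]

/-- If the class of `a` has order divisible by `#G`, then the class of `a|_K` has order divisible
by `#K` (because `cor ∘ res = [G : K]`, in the form of `fgS_H2`). -/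
theorem fgT_ord_res {a : G × G → A} (ha : IsCocycle₂ a)
    (hord : ∀ m : ℤ, IsCoboundary₂ (fun x => m • a x) → (Nat.card G : ℤ) ∣ m)
    (K : Subgroup G) (m : ℤ) (hm : IsCoboundary₂ (fun p : K × K => m • fg_res₂ K a p)) :
    (Nat.card K : ℤ) ∣ m := by
  have hma : IsCocycle₂ (fun x => m • a x) := by
    have := (fg_Z2 G A).zsmul_mem (fg_mem_Z2.2 ha) m
    exact this
  have h1 : IsCoboundary₂ (fun p => K.index • (fun x => m • a x) p) := fgS_H2 K hma hm
  have h2 : IsCoboundary₂ (fun x => ((K.index : ℤ) * m) • a x) := by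
    have e : (fun x => ((K.index : ℤ) * m) • a x) = fun p => K.index • (fun x => m • a x) p := by
      funext p
      rw [mul_smul, natCast_zsmul]
    rw [e]
    exact h1
  have h3 := hord _ h2
  have hcard : (Nat.card G : ℤ) = (Nat.card K : ℤ) * (K.index : ℤ) := by
    rw [← Nat.cast_mul, K.card_mul_index]
  rw [hcard, mul_comm (Nat.card K : ℤ)] at h3
  have hidx : (K.index : ℤ) ≠ 0 := by
    exact_mod_cast K.index_ne_zero_of_finite
  exact (mul_dvd_mul_iff_left hidx).1 h3

/-- **Abstract class formation criterion**: second inequality for all subgroups and one class of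
order `#G` give the hypotheses of Tate's theorem. -/
theorem fgT_tateHyp (a : G × G → A) (h1 : ∀ K : Subgroup G, fg_H1Zero K A)
    (h2 : ∀ K : Subgroup G, Finite (fg_H2 K A) ∧ Nat.card (fg_H2 K A) ≤ Nat.card K)
    (ha : IsCocycle₂ a)
    (hord : ∀ m : ℤ, IsCoboundary₂ (fun x => m • a x) → (Nat.card G : ℤ) ∣ m) :
    fg_TateHyp a := by
  refine ⟨ha, fun K => ⟨h1 K, ?_, fun m hm => fgT_ord_res ha hord K m hm⟩⟩
  intro f hf
  haveI : Finite (fg_H2 K A) := (h2 K).1
  have hresc : IsCocycle₂ (fg_res₂ K a) := fgS_res₂_isCocycle K ha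
  obtain ⟨m, hm⟩ := fgT_gen_of_order (fg_H2mk K A ⟨fg_res₂ K a, hresc⟩) (Nat.card K) (h2 K).2
    (fun m hm => by
      apply fgT_ord_res ha hord K m
      rw [← map_zsmul, fg_H2mk_eq_zero_iff] at hm
      exact hm) (fg_H2mk K A ⟨f, hf⟩)
  refine ⟨m, ?_⟩
  rw [← map_zsmul, ← sub_eq_zero, ← map_sub, fg_H2mk_eq_zero_iff] at hm
  exact hm

/-- The criterion with divisibility `#H²(K, A) ∣ #K`. -/
theorem fgT_tateHyp_of_dvd (a : G × G → A) (h1 : ∀ K : Subgroup G, fg_H1Zero K A)
    (h2 : ∀ K : Subgroup G, Nat.card (fg_H2 K A) ∣ Nat.card K)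
    (ha : IsCocycle₂ a)
    (hord : ∀ m : ℤ, IsCoboundary₂ (fun x => m • a x) → (Nat.card G : ℤ) ∣ m) :
    fg_TateHyp a := by
  refine fgT_tateHyp a h1 (fun K => ?_) ha hord
  have hpos : 0 < Nat.card K := Nat.card_pos
  have hne : Nat.card (fg_H2 K A) ≠ 0 := by
    intro h0
    have h2K := h2 K
    rw [h0] at h2K
    exact hpos.ne' (Nat.eq_zero_of_zero_dvd h2K)
  exact ⟨(Nat.card_ne_zero.1 hne).2, Nat.le_of_dvd hpos (h2 K)⟩

/-- The criterion with the elementwise second inequality `fgT_H2Le`. -/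
theorem fgT_tateHyp_of_H2Le (a : G × G → A) (h1 : ∀ K : Subgroup G, fg_H1Zero K A)
    (h2 : ∀ K : Subgroup G, fgT_H2Le K A (Nat.card K))
    (ha : IsCocycle₂ a)
    (hord : ∀ m : ℤ, IsCoboundary₂ (fun x => m • a x) → (Nat.card G : ℤ) ∣ m) :
    fg_TateHyp a :=
  fgT_tateHyp a h1 (fun K => fgT_card_le_of_H2Le (h2 K)) ha hord

end Main

end Fermat.Agent.S55
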