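import Fermat.Agent.S55.FG.DownCyclic

set_option linter.style.haveILetI false
set_option linter.unusedSectionVars false

/-!
# S55 finite-group toolkit: `H²` of a cyclic group ([FG-CYC2])

For a cyclic group `G` of order `n` with generator `s` and logarithm `ι` (`fgD_Log G`) and a
`G`-module `A`:

* `fgD_carry L a` : the carry cochain `(g, h) ↦ ((ι g + ι h) / n) • a`;
* `fgD_carry_isCocycle` : it is a 2-cocycle when `a` is invariant;
* `fgD_tr L f` : the element `∑_{i<n} f (s ^ i, s)`; it is invariant for a 2-cocycle `f`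
  (`fgD_tr_inv`);
* `fgD_cohomologous` : every 2-cocycle `f` is cohomologous to `fgD_carry L (fgD_tr L f)`;
* `fgD_carry_isCoboundary_iff` : `fgD_carry L a` is a coboundary iff `a` is a norm;
* `fgD_H2T_iff_H0T` : `H²(G, A) = 0 ↔ Ĥ⁰(G, A) = 0`.

Logarithms are produced from `fgF_CycData G ⊥` (`fgD_Log.ofCycData`) or from a generator of a
finite group (`fgD_Log.ofGen`).
-/

namespace Fermat.Agent.S55

open groupCohomology

/-- A cyclic group of order `n ≥ 1` with a generator `s` and its logarithm `ι`. -/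
structure fgD_Log (G : Type*) [Group G] where
  /-- the order of the group -/
  n : ℕ
  /-- the generator -/
  s : G
  /-- the logarithm to base `s` -/
  ι : G → ℕ
  n_pos : 0 < n
  ι_lt : ∀ g, ι g < n
  pow_ι : ∀ g, s ^ ι g = g
  ι_pow : ∀ i, ι (s ^ i) = i % n

namespace fgD_Log

variable {G : Type*} [Group G] (L : fgD_Log G)

theorem ι_pow_of_lt {i : ℕ} (hi : i < L.n) : L.ι (L.s ^ i) = i := by
  rw [L.ι_pow, Nat.mod_eq_of_lt hi]

theorem ι_one : L.ι 1 = 0 := by
  have := L.ι_pow 0
  rwa [pow_zero, Nat.zero_mod] at this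

theorem ι_s : L.ι L.s = 1 % L.n := by
  have := L.ι_pow 1
  rwa [pow_one] at this

theorem ι_s_of_one_lt (h : 1 < L.n) : L.ι L.s = 1 := by
  rw [L.ι_s, Nat.mod_eq_of_lt h]

theorem pow_n : L.s ^ L.n = 1 := by
  have h := L.pow_ι (L.s ^ L.n)
  rw [L.ι_pow, Nat.mod_self, pow_zero] at h
  exact h.symm

theorem ι_mul (g h : G) : L.ι (g * h) = (L.ι g + L.ι h) % L.n := by
  conv_lhs => rw [← L.pow_ι g, ← L.pow_ι h, ← pow_add]
  exact L.ι_pow _

theorem ι_mul_s_of_lt (g : G) (h : L.ι g + 1 < L.n) : L.ι (g * L.s) = L.ι g + 1 := by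
  have h1 : 1 < L.n := by omega
  rw [L.ι_mul, L.ι_s_of_one_lt h1, Nat.mod_eq_of_lt h]

theorem mul_s_of_eq (g : G) (h : L.ι g + 1 = L.n) : g * L.s = 1 := by
  conv_lhs => rw [← L.pow_ι g, ← pow_succ, h]
  exact L.pow_n

theorem eq_one_of_n_eq_one (h : L.n = 1) (g : G) : g = 1 := by
  have h1 := L.ι_lt g
  rw [h] at h1
  have h2 : L.ι g = 0 := by omega
  have h3 := L.pow_ι g
  rw [h2, pow_zero] at h3
  exact h3.symm

theorem commute_s (g : G) : g * L.s = L.s * g := by
  conv_lhs => rw [← L.pow_ι g, ← pow_succ]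
  conv_rhs => rw [← L.pow_ι g, ← pow_succ']

/-- The bijection `Fin n ≃ G`, `i ↦ s ^ i`. -/
def equiv : Fin L.n ≃ G where
  toFun i := L.s ^ (i : ℕ)
  invFun g := ⟨L.ι g, L.ι_lt g⟩
  left_inv i := Fin.ext (L.ι_pow_of_lt i.2)
  right_inv g := L.pow_ι g

include L in
theorem finite : Finite G := Finite.of_equiv _ L.equiv

theorem card_eq : Nat.card G = L.n := by
  rw [← Nat.card_congr L.equiv, Nat.card_eq_fintype_card, Fintype.card_fin]

variable {A : Type*} [AddCommMonoid A]

/-- Cyclic shift of a sum over the powers of the generator. -/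
theorem sum_shift (F : G → A) :
    ∑ i ∈ Finset.range L.n, F (L.s ^ (i + 1)) = ∑ i ∈ Finset.range L.n, F (L.s ^ i) := by
  obtain ⟨m, hm⟩ : ∃ m, L.n = m + 1 := ⟨L.n - 1, by have := L.n_pos; omega⟩
  have h1 : L.s ^ (m + 1) = 1 := by rw [← hm]; exact L.pow_n
  rw [hm, Finset.sum_range_succ, Finset.sum_range_succ' (fun i => F (L.s ^ i)), h1, pow_zero]

theorem sum_eq_finsum (F : G → A) :
    ∑ i ∈ Finset.range L.n, F (L.s ^ i) = ∑ᶠ g : G, F g := by
  rw [← finsum_comp_equiv L.equiv, finsum_eq_sum_of_fintype,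
    ← Fin.sum_univ_eq_sum_range (fun i => F (L.s ^ i)) L.n]
  rfl

theorem sum_eq_sum [Fintype G] (F : G → A) :
    ∑ i ∈ Finset.range L.n, F (L.s ^ i) = ∑ g : G, F g := by
  rw [L.sum_eq_finsum, finsum_eq_sum_of_fintype]

end fgD_Log

section Constructors

variable {G : Type*} [Group G]

/-- The logarithm attached to cyclic data for the trivial subgroup. -/
def fgD_Log.ofCycData (D : fgF_CycData G (⊥ : Subgroup G)) : fgD_Log G where
  n := D.n
  s := D.s
  ι := D.ι
  n_pos := D.n_pos
  ι_lt := D.ι_lt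
  pow_ι g := by
    have h := D.inv_pow_mul_mem g
    rw [Subgroup.mem_bot] at h
    exact (inv_mul_eq_one.1 h)
  ι_pow := D.ι_pow

theorem fgD_exists_pow [Finite G] (σ : G) (hσ : ∀ g, g ∈ Subgroup.zpowers σ) (g : G) :
    ∃ i : ℕ, σ ^ i = g := by
  have h := hσ g
  rw [← mem_powers_iff_mem_zpowers, Submonoid.mem_powers_iff] at h
  exact h

/-- The logarithm of a finite group with a prescribed generator `σ`. -/
noncomputable def fgD_Log.ofGen [Finite G] (σ : G) (hσ : ∀ g, g ∈ Subgroup.zpowers σ) :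
    fgD_Log G where
  n := Nat.card G
  s := σ
  ι g := (fgD_exists_pow σ hσ g).choose % Nat.card G
  n_pos := Nat.card_pos
  ι_lt g := Nat.mod_lt _ Nat.card_pos
  pow_ι g := by
    have h := (fgD_exists_pow σ hσ g).choose_spec
    have ho : orderOf σ = Nat.card G := orderOf_eq_card_of_forall_mem_zpowers hσ
    rw [← ho, pow_mod_orderOf]
    exact h
  ι_pow i := by
    have h := (fgD_exists_pow σ hσ (σ ^ i)).choose_spec
    have ho : orderOf σ = Nat.card G := orderOf_eq_card_of_forall_mem_zpowers hσ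
    rw [pow_eq_pow_iff_modEq, ho] at h
    exact h

@[simp] theorem fgD_Log.ofGen_s [Finite G] (σ : G) (hσ : ∀ g, g ∈ Subgroup.zpowers σ) :
    (fgD_Log.ofGen σ hσ).s = σ := rfl

@[simp] theorem fgD_Log.ofGen_n [Finite G] (σ : G) (hσ : ∀ g, g ∈ Subgroup.zpowers σ) :
    (fgD_Log.ofGen σ hσ).n = Nat.card G := rfl

@[simp] theorem fgD_Log.ofCycData_s (D : fgF_CycData G (⊥ : Subgroup G)) :
    (fgD_Log.ofCycData D).s = D.s := rfl

@[simp] theorem fgD_Log.ofCycData_n (D : fgF_CycData G (⊥ : Subgroup G)) :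
    (fgD_Log.ofCycData D).n = D.n := rfl

@[simp] theorem fgD_Log.ofCycData_ι (D : fgF_CycData G (⊥ : Subgroup G)) :
    (fgD_Log.ofCycData D).ι = D.ι := rfl

end Constructors

section Cocycles

variable {G : Type*} [Group G] {A : Type*} [AddCommGroup A] [DistribMulAction G A]

/-- The coboundary of a 1-cochain is a 2-cocycle. -/
theorem fgD_isCocycle₂_d (x : G → A) :
    IsCocycle₂ (fun p : G × G => p.1 • x p.2 - x (p.1 * p.2) + x p.1) := by
  intro g h j
  simp only [smul_add, smul_sub, mul_smul, mul_assoc]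
  abel

theorem fgD_isCocycle₂_of_isCoboundary₂ {f : G × G → A} (hf : IsCoboundary₂ f) :
    IsCocycle₂ f := by
  obtain ⟨x, hx⟩ := hf
  have h := fgD_isCocycle₂_d x
  intro g h' j
  rw [← hx, ← hx, ← hx, ← hx]
  exact h g h' j

theorem fgD_isCocycle₂_sub {f f' : G × G → A} (hf : IsCocycle₂ f) (hf' : IsCocycle₂ f') :
    IsCocycle₂ (fun p => f p - f' p) := by
  intro g h j
  have h1 := hf g h j
  have h2 := hf' g h j
  simp only [smul_sub]
  rw [sub_add_sub_comm, h1, h2, sub_add_sub_comm]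

theorem fgD_isCocycle₂_add {f f' : G × G → A} (hf : IsCocycle₂ f) (hf' : IsCocycle₂ f') :
    IsCocycle₂ (fun p => f p + f' p) := by
  intro g h j
  have h1 := hf g h j
  have h2 := hf' g h j
  simp only [smul_add]
  rw [add_add_add_comm, h1, h2, add_add_add_comm]

theorem fgD_isCoboundary₂_add {f f' : G × G → A} (hf : IsCoboundary₂ f)
    (hf' : IsCoboundary₂ f') : IsCoboundary₂ (fun p => f p + f' p) := by
  obtain ⟨x, hx⟩ := hf
  obtain ⟨x', hx'⟩ := hf'
  refine ⟨fun g => x g + x' g, fun g h => ?_⟩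
  simp only [smul_add]
  rw [← hx, ← hx']
  abel

theorem fgD_isCoboundary₂_sub {f f' : G × G → A} (hf : IsCoboundary₂ f)
    (hf' : IsCoboundary₂ f') : IsCoboundary₂ (fun p => f p - f' p) := by
  obtain ⟨x, hx⟩ := hf
  obtain ⟨x', hx'⟩ := hf'
  refine ⟨fun g => x g - x' g, fun g h => ?_⟩
  simp only [smul_sub]
  rw [← hx, ← hx']
  abel

theorem fgD_isCoboundary₂_neg {f : G × G → A} (hf : IsCoboundary₂ f) :
    IsCoboundary₂ (fun p => - f p) := by
  obtain ⟨x, hx⟩ := hf
  refine ⟨fun g => - x g, fun g h => ?_⟩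
  simp only [smul_neg]
  rw [← hx]
  abel

theorem fgD_isCoboundary₂_zero : IsCoboundary₂ (fun _ : G × G => (0 : A)) :=
  ⟨fun _ => 0, fun g h => by simp⟩

/-- Values of a 2-cocycle at `(1, h)`. -/
theorem fgD_cocycle_one_left {f : G × G → A} (hf : IsCocycle₂ f) (h : G) :
    f (1, h) = f (1, 1) := by
  have := hf 1 1 h
  simp only [one_mul, one_smul] at this
  exact (add_left_cancel this).symm

/-- Values of a 2-cocycle at `(g, 1)`. -/
theorem fgD_cocycle_one_right {f : G × G → A} (hf : IsCocycle₂ f) (g : G) :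
    f (g, 1) = g • f (1, 1) := by
  have := hf g 1 1
  simp only [mul_one] at this
  exact add_right_cancel this

variable (L : fgD_Log G)

/-- **Uniqueness lemma**: a 2-cocycle of a cyclic group vanishing on `G × {s}` vanishes. -/
theorem fgD_eq_zero_of_s {E : G × G → A} (hE : IsCocycle₂ E) (hs : ∀ g, E (g, L.s) = 0)
    (g h : G) : E (g, h) = 0 := by
  have h11 : E (1, 1) = 0 := by
    rw [← fgD_cocycle_one_left hE L.s]
    exact hs 1
  have hk : ∀ (k : ℕ) (g : G), E (g, L.s ^ k) = 0 := by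
    intro k
    induction k with
    | zero =>
      intro g
      rw [pow_zero, fgD_cocycle_one_right hE, h11, smul_zero]
    | succ k ih =>
      intro g
      have := hE g (L.s ^ k) L.s
      rw [hs, ih g, hs, smul_zero, zero_add, zero_add, ← pow_succ] at this
      exact this.symm
  rw [← L.pow_ι h]
  exact hk _ g

/-- Two 2-cocycles of a cyclic group agreeing on `G × {s}` are equal. -/
theorem fgD_eq_of_s {f f' : G × G → A} (hf : IsCocycle₂ f) (hf' : IsCocycle₂ f')
    (hs : ∀ g, f (g, L.s) = f' (g, L.s)) (g h : G) : f (g, h) = f' (g, h) := by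
  have := fgD_eq_zero_of_s L (fgD_isCocycle₂_sub hf hf') (fun g => by simp [hs g]) g h
  exact sub_eq_zero.1 this

/-- The carry cochain `(g, h) ↦ ((ι g + ι h) / n) • a`. -/
def fgD_carry (a : A) : G × G → A := fun p => ((L.ι p.1 + L.ι p.2) / L.n) • a

theorem fgD_carry_apply (a : A) (g h : G) :
    fgD_carry L a (g, h) = ((L.ι g + L.ι h) / L.n) • a := rfl

theorem fgD_carry_pow (a : A) (i j : ℕ) :
    fgD_carry L a (L.s ^ i, L.s ^ j) = ((i % L.n + j % L.n) / L.n) • a := by
  rw [fgD_carry_apply, L.ι_pow, L.ι_pow]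

theorem fgD_carry_add (a b : A) (p : G × G) :
    fgD_carry L (a + b) p = fgD_carry L a p + fgD_carry L b p := smul_add _ _ _

theorem fgD_carry_zero (p : G × G) : fgD_carry L (0 : A) p = 0 := smul_zero _

theorem fgD_carry_neg (a : A) (p : G × G) : fgD_carry L (-a) p = - fgD_carry L a p :=
  smul_neg _ _

theorem fgD_carry_sub (a b : A) (p : G × G) :
    fgD_carry L (a - b) p = fgD_carry L a p - fgD_carry L b p := smul_sub _ _ _

theorem fgD_carry_of_lt (a : A) {g h : G} (hlt : L.ι g + L.ι h < L.n) :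
    fgD_carry L a (g, h) = 0 := by
  rw [fgD_carry_apply, Nat.div_eq_of_lt hlt, zero_smul]

theorem fgD_carry_of_le (a : A) {g h : G} (hle : L.n ≤ L.ι g + L.ι h) :
    fgD_carry L a (g, h) = a := by
  have h1 := L.ι_lt g
  have h2 := L.ι_lt h
  have : (L.ι g + L.ι h) / L.n = 1 := by
    apply Nat.div_eq_of_lt_le
    · rw [one_mul]; exact hle
    · omega
  rw [fgD_carry_apply, this, one_smul]

theorem fgD_carry_of_n_eq_one (a : A) (h1 : L.n = 1) (p : G × G) : fgD_carry L a p = 0 := by
  have h2 := L.ι_lt p.1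
  have h3 := L.ι_lt p.2
  apply fgD_carry_of_lt
  omega

/-- The arithmetic behind the cocycle property of the carry. -/
theorem fgD_nat_carry (n : ℕ) (hn : 0 < n) (x l : ℕ) :
    (x % n + l) / n + x / n = (x + l) / n := by
  conv_rhs => rw [← Nat.div_add_mod x n, add_assoc, Nat.mul_add_div hn]
  exact add_comm _ _

/-- The carry cochain of an invariant element is a 2-cocycle. -/
theorem fgD_carry_isCocycle {a : A} (ha : ∀ g : G, g • a = a) : IsCocycle₂ (fgD_carry L a) := by
  intro g h j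
  simp only [fgD_carry_apply]
  rw [smul_comm g, ha, L.ι_mul g h, L.ι_mul h j, ← add_smul, ← add_smul]
  congr 1
  have e1 := fgD_nat_carry L.n L.n_pos (L.ι g + L.ι h) (L.ι j)
  have e2 := fgD_nat_carry L.n L.n_pos (L.ι h + L.ι j) (L.ι g)
  rw [e1, add_comm ((L.ι h + L.ι j) / L.n), add_comm (L.ι g) ((L.ι h + L.ι j) % L.n), e2]
  congr 1
  ring

/-- The element `∑_{i<n} f (s ^ i, s)` attached to a 2-cochain. -/
def fgD_tr (f : G × G → A) : A := ∑ i ∈ Finset.range L.n, f (L.s ^ i, L.s)

theorem fgD_tr_add (f f' : G × G → A) :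
    fgD_tr L (fun p => f p + f' p) = fgD_tr L f + fgD_tr L f' := Finset.sum_add_distrib

theorem fgD_tr_sub (f f' : G × G → A) :
    fgD_tr L (fun p => f p - f' p) = fgD_tr L f - fgD_tr L f' := Finset.sum_sub_distrib _ _

theorem fgD_tr_neg (f : G × G → A) : fgD_tr L (fun p => - f p) = - fgD_tr L f :=
  Finset.sum_neg_distrib _

/-- `tr` of a coboundary is a norm. -/
theorem fgD_tr_d (x : G → A) :
    fgD_tr L (fun p : G × G => p.1 • x p.2 - x (p.1 * p.2) + x p.1) =
      ∑ i ∈ Finset.range L.n, L.s ^ i • x L.s := by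
  unfold fgD_tr
  simp only [← pow_succ]
  rw [Finset.sum_add_distrib, Finset.sum_sub_distrib, L.sum_shift (fun g => x g)]
  abel

theorem fgD_tr_of_isCoboundary {f : G × G → A} (hf : IsCoboundary₂ f) :
    ∃ w : A, fgD_tr L f = ∑ i ∈ Finset.range L.n, L.s ^ i • w := by
  obtain ⟨x, hx⟩ := hf
  refine ⟨x L.s, ?_⟩
  rw [← fgD_tr_d L x]
  unfold fgD_tr
  exact Finset.sum_congr rfl (fun i _ => (hx _ _).symm)

/-- `tr` of the carry cochain of `a` is `a` (for `n > 1`). -/
theorem fgD_tr_carry (h1 : 1 < L.n) (a : A) : fgD_tr L (fgD_carry L a) = a := by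
  unfold fgD_tr
  rw [Finset.sum_eq_single (L.n - 1)]
  · apply fgD_carry_of_le
    rw [L.ι_pow_of_lt (by omega), L.ι_s_of_one_lt h1]
    omega
  · intro i hi hne
    rw [Finset.mem_range] at hi
    apply fgD_carry_of_lt
    rw [L.ι_pow_of_lt hi, L.ι_s_of_one_lt h1]
    omega
  · intro h
    exfalso
    apply h
    rw [Finset.mem_range]
    omega

/-- `tr f` is invariant under the generator. -/
theorem fgD_s_smul_tr {f : G × G → A} (hf : IsCocycle₂ f) : L.s • fgD_tr L f = fgD_tr L f := by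
  have h : ∀ i ∈ Finset.range L.n, f (L.s ^ (i + 1), L.s) + f (L.s, L.s ^ i) =
      L.s • f (L.s ^ i, L.s) + f (L.s, L.s ^ (i + 1)) := by
    intro i _
    have := hf L.s (L.s ^ i) L.s
    rwa [← pow_succ', ← pow_succ] at this
  have h2 := Finset.sum_congr rfl h
  rw [Finset.sum_add_distrib, Finset.sum_add_distrib, L.sum_shift (fun g => f (g, L.s)),
    L.sum_shift (fun g => f (L.s, g)), ← Finset.smul_sum] at h2
  exact (add_right_cancel h2).symm

/-- `tr f` is `G`-invariant for a 2-cocycle `f`. -/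
theorem fgD_tr_inv {f : G × G → A} (hf : IsCocycle₂ f) (g : G) :
    g • fgD_tr L f = fgD_tr L f := by
  have hk : ∀ k : ℕ, L.s ^ k • fgD_tr L f = fgD_tr L f := by
    intro k
    induction k with
    | zero => rw [pow_zero, one_smul]
    | succ k ih => rw [pow_succ, mul_smul, fgD_s_smul_tr L hf, ih]
  rw [← L.pow_ι g]
  exact hk _

/-- The norm `∑_{i<n} s ^ i • w` is invariant. -/
theorem fgD_norm_inv (w : A) (g : G) :
    g • ∑ i ∈ Finset.range L.n, L.s ^ i • w = ∑ i ∈ Finset.range L.n, L.s ^ i • w := by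
  have hs : L.s • ∑ i ∈ Finset.range L.n, L.s ^ i • w = ∑ i ∈ Finset.range L.n, L.s ^ i • w := by
    rw [Finset.smul_sum]
    simp only [← mul_smul, ← pow_succ']
    exact L.sum_shift (fun g => g • w)
  have hk : ∀ k : ℕ, L.s ^ k • ∑ i ∈ Finset.range L.n, L.s ^ i • w =
      ∑ i ∈ Finset.range L.n, L.s ^ i • w := by
    intro k
    induction k with
    | zero => rw [pow_zero, one_smul]
    | succ k ih => rw [pow_succ, mul_smul, hs, ih]
  rw [← L.pow_ι g]
  exact hk _

/-- **H² of a cyclic group, surjectivity**: every 2-cocycle `f` is cohomologous to the carry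
cochain of `tr f = ∑_{i<n} f (s ^ i, s)`. -/
theorem fgD_cohomologous {f : G × G → A} (hf : IsCocycle₂ f) :
    IsCoboundary₂ (fun p => f p - fgD_carry L (fgD_tr L f) p) := by
  rcases Nat.lt_or_ge 1 L.n with h1 | h1
  · -- the case `n > 1`
    set a := fgD_tr L f with ha
    set x : G → A := fun g => f (1, 1) - ∑ i ∈ Finset.range (L.ι g), f (L.s ^ i, L.s) with hx
    have hxs : x L.s = 0 := by
      simp only [hx]
      rw [L.ι_s_of_one_lt h1, Finset.sum_range_one, pow_zero, fgD_cocycle_one_left hf L.s,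
        sub_self]
    have hx1 : x 1 = f (1, 1) := by
      simp only [hx]
      rw [L.ι_one, Finset.sum_range_zero, sub_zero]
    have hE : IsCocycle₂ (fun p : G × G => (f p - fgD_carry L a p) -
        (p.1 • x p.2 - x (p.1 * p.2) + x p.1)) :=
      fgD_isCocycle₂_sub (fgD_isCocycle₂_sub hf (fgD_carry_isCocycle L (fgD_tr_inv L hf)))
        (fgD_isCocycle₂_d x)
    have hEs : ∀ g, (fun p : G × G => (f p - fgD_carry L a p) -
        (p.1 • x p.2 - x (p.1 * p.2) + x p.1)) (g, L.s) = 0 := by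
      intro g
      simp only
      rw [hxs, smul_zero, zero_sub]
      have hlt := L.ι_lt g
      rcases Nat.lt_or_ge (L.ι g + 1) L.n with h2 | h2
      · have hc : fgD_carry L a (g, L.s) = 0 := by
          apply fgD_carry_of_lt
          rw [L.ι_s_of_one_lt h1]
          exact h2
        have hxg : x (g * L.s) = x g - f (g, L.s) := by
          simp only [hx]
          rw [L.ι_mul_s_of_lt g h2, Finset.sum_range_succ, L.pow_ι]
          abel
        rw [hc, hxg]
        abel
      · have h3 : L.ι g + 1 = L.n := by omega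
        have hc : fgD_carry L a (g, L.s) = a := by
          apply fgD_carry_of_le
          rw [L.ι_s_of_one_lt h1]
          exact h2
        have hgs : g * L.s = 1 := L.mul_s_of_eq g h3
        have hxg : x g = f (1, 1) - (a - f (g, L.s)) := by
          simp only [hx, ha, fgD_tr]
          rw [← h3, Finset.sum_range_succ, L.pow_ι]
          abel
        rw [hc, hgs, hx1, hxg]
        abel
    refine ⟨x, fun g h => ?_⟩
    have := fgD_eq_zero_of_s L hE hEs g h
    simp only at this
    exact (sub_eq_zero.1 this).symm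
  · -- the trivial group
    have hn : L.n = 1 := by have := L.n_pos; omega
    refine ⟨fun _ => f (1, 1), fun g h => ?_⟩
    rw [L.eq_one_of_n_eq_one hn g, L.eq_one_of_n_eq_one hn h]
    simp only
    rw [fgD_carry_of_n_eq_one L _ hn, one_smul, sub_zero, sub_self, zero_add]

/-- **H² of a cyclic group, injectivity**: the carry cochain of an invariant `a` is a coboundary
if and only if `a` is a norm. -/
theorem fgD_carry_isCoboundary_iff {a : A} (ha : ∀ g : G, g • a = a) :
    IsCoboundary₂ (fgD_carry L a) ↔ ∃ w : A, a = ∑ i ∈ Finset.range L.n, L.s ^ i • w := by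
  rcases Nat.lt_or_ge 1 L.n with h1 | h1
  · constructor
    · intro h
      obtain ⟨w, hw⟩ := fgD_tr_of_isCoboundary L h
      rw [fgD_tr_carry L h1] at hw
      exact ⟨w, hw⟩
    · rintro ⟨w, hw⟩
      set x : G → A := fun g => ∑ i ∈ Finset.range (L.ι g), L.s ^ i • w with hx
      have hxs : x L.s = w := by
        simp only [hx]
        rw [L.ι_s_of_one_lt h1, Finset.sum_range_one, pow_zero, one_smul]
      have hx1 : x 1 = 0 := by
        simp only [hx]
        rw [L.ι_one, Finset.sum_range_zero]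
      refine ⟨x, fun g h => ?_⟩
      refine fgD_eq_of_s L (fgD_isCocycle₂_d x) (fgD_carry_isCocycle L ha) (fun g => ?_) g h
      simp only
      rw [hxs]
      have hlt := L.ι_lt g
      rcases Nat.lt_or_ge (L.ι g + 1) L.n with h2 | h2
      · have hc : fgD_carry L a (g, L.s) = 0 := by
          apply fgD_carry_of_lt
          rw [L.ι_s_of_one_lt h1]
          exact h2
        have hxg : x (g * L.s) = x g + g • w := by
          simp only [hx]
          rw [L.ι_mul_s_of_lt g h2, Finset.sum_range_succ, L.pow_ι]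
        rw [hc, hxg]
        abel
      · have h3 : L.ι g + 1 = L.n := by omega
        have hc : fgD_carry L a (g, L.s) = a := by
          apply fgD_carry_of_le
          rw [L.ι_s_of_one_lt h1]
          exact h2
        have hgs : g * L.s = 1 := L.mul_s_of_eq g h3
        have hxg : a = x g + g • w := by
          simp only [hx]
          rw [hw, ← h3, Finset.sum_range_succ, L.pow_ι]
        rw [hc, hgs, hx1, hxg]
        abel
  · have hn : L.n = 1 := by have := L.n_pos; omega
    constructor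
    · intro _
      refine ⟨a, ?_⟩
      rw [hn, Finset.sum_range_one, pow_zero, one_smul]
    · intro _
      have : fgD_carry L a = fun _ => (0 : A) := funext (fgD_carry_of_n_eq_one L a hn)
      rw [this]
      exact fgD_isCoboundary₂_zero

/-- Finsum form of `fgD_carry_isCoboundary_iff`. -/
theorem fgD_carry_isCoboundary_iff' {a : A} (ha : ∀ g : G, g • a = a) :
    IsCoboundary₂ (fgD_carry L a) ↔ ∃ w : A, ∑ᶠ g : G, g • w = a := by
  rw [fgD_carry_isCoboundary_iff L ha]
  constructor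
  · rintro ⟨w, hw⟩
    exact ⟨w, by rw [hw, L.sum_eq_finsum (fun g => g • w)]⟩
  · rintro ⟨w, hw⟩
    exact ⟨w, by rw [← hw, L.sum_eq_finsum (fun g => g • w)]⟩

/-- A 2-cocycle of a cyclic group is a coboundary iff `tr f` is a norm. -/
theorem fgD_isCoboundary_iff {f : G × G → A} (hf : IsCocycle₂ f) :
    IsCoboundary₂ f ↔ ∃ w : A, fgD_tr L f = ∑ i ∈ Finset.range L.n, L.s ^ i • w := by
  constructor
  · exact fgD_tr_of_isCoboundary L
  · intro h
    have h1 := (fgD_carry_isCoboundary_iff L (fgD_tr_inv L hf)).2 h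
    have h2 := fgD_isCoboundary₂_add (fgD_cohomologous L hf) h1
    have : (fun p => f p - fgD_carry L (fgD_tr L f) p + fgD_carry L (fgD_tr L f) p) = f := by
      funext p
      abel
    rwa [this] at h2

include L in
/-- For a cyclic group, `H²(G, A) = 0` if and only if `Ĥ⁰(G, A) = 0`. -/
theorem fgD_H2T_iff_H0T : fgF_H2T G A ↔ fgF_H0T G A := by
  constructor
  · intro h a ha
    exact (fgD_carry_isCoboundary_iff' L ha).1 (h _ (fgD_carry_isCocycle L ha))
  · intro h f hf
    rw [fgD_isCoboundary_iff L hf]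
    obtain ⟨w, hw⟩ := h _ (fgD_tr_inv L hf)
    exact ⟨w, by rw [← hw, L.sum_eq_finsum (fun g => g • w)]⟩

end Cocycles

section Generator

variable {G : Type*} [Group G] [Finite G] {A : Type*} [AddCommGroup A] [DistribMulAction G A]
  (σ : G) (hσ : ∀ g, g ∈ Subgroup.zpowers σ)

include hσ

/-- [FG-CYC2] (i): the carry cochain w.r.t. a generator `σ` of a finite cyclic group is a
2-cocycle; `fgD_carry (.ofGen σ hσ) a (σ ^ i, σ ^ j) = ((i % n + j % n) / n) • a`. -/
theorem fgD_gen_isCocycle {a : A} (ha : σ • a = a) :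
    IsCocycle₂ (fgD_carry (fgD_Log.ofGen σ hσ) a) := by
  apply fgD_carry_isCocycle
  intro g
  obtain ⟨i, rfl⟩ := fgD_exists_pow σ hσ g
  induction i with
  | zero => rw [pow_zero, one_smul]
  | succ i ih => rw [pow_succ, mul_smul, ha, ih]

theorem fgD_gen_carry (a : A) (i j : ℕ) :
    fgD_carry (fgD_Log.ofGen σ hσ) a (σ ^ i, σ ^ j) =
      ((i % Nat.card G + j % Nat.card G) / Nat.card G) • a :=
  fgD_carry_pow (fgD_Log.ofGen σ hσ) a i j

/-- [FG-CYC2] (ii): the carry cochain of an invariant `a` is a coboundary iff `a` is a norm. -/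
theorem fgD_gen_isCoboundary_iff {a : A} (ha : σ • a = a) :
    IsCoboundary₂ (fgD_carry (fgD_Log.ofGen σ hσ) a) ↔ ∃ w : A, ∑ᶠ g : G, g • w = a := by
  apply fgD_carry_isCoboundary_iff'
  intro g
  obtain ⟨i, rfl⟩ := fgD_exists_pow σ hσ g
  induction i with
  | zero => rw [pow_zero, one_smul]
  | succ i ih => rw [pow_succ, mul_smul, ha, ih]

/-- [FG-CYC2] (iii): every 2-cocycle `f` is cohomologous to the carry cochain of
`∑_{i<n} f (σ ^ i, σ)`, which is an invariant element. -/
theorem fgD_gen_cohomologous {f : G × G → A} (hf : IsCocycle₂ f) :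
    (∀ g : G, g • (∑ i ∈ Finset.range (Nat.card G), f (σ ^ i, σ)) =
      ∑ i ∈ Finset.range (Nat.card G), f (σ ^ i, σ)) ∧
    IsCoboundary₂ (fun p => f p - fgD_carry (fgD_Log.ofGen σ hσ)
      (∑ i ∈ Finset.range (Nat.card G), f (σ ^ i, σ)) p) :=
  ⟨fgD_tr_inv (fgD_Log.ofGen σ hσ) hf, fgD_cohomologous (fgD_Log.ofGen σ hσ) hf⟩

/-- For a finite cyclic group, `H²(G, A) = 0 ↔ Ĥ⁰(G, A) = 0`. -/
theorem fgD_gen_H2T_iff_H0T : fgF_H2T G A ↔ fgF_H0T G A :=
  fgD_H2T_iff_H0T (fgD_Log.ofGen σ hσ)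

end Generator

/-- For a finite cyclic group, `H²(G, A) = 0 ↔ Ĥ⁰(G, A) = 0`. -/
theorem fgD_cyclic_H2T_iff_H0T (G : Type*) [Group G] [Finite G] [IsCyclic G] (A : Type*)
    [AddCommGroup A] [DistribMulAction G A] : fgF_H2T G A ↔ fgF_H0T G A := by
  obtain ⟨σ, hσ⟩ := IsCyclic.exists_generator (α := G)
  exact fgD_gen_H2T_iff_H0T σ hσ

end Fermat.Agent.S55
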