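import Fermat.Agent.S55.FG.Defs

/-!
# S55 finite-group toolkit, part 2: cohomology groups and inflation-restriction in degree 2

* `fg_Z1`, `fg_B1`, `fg_Z2`, `fg_B2` : cocycles and coboundaries as additive subgroups of the
  function groups (membership is *definitionally* Mathlib's `IsCocycle₁` etc.)
* `fg_H1 G A`, `fg_H2 G A`           : the cohomology groups as honest additive commutative groups
* `fgI_InfData G Q A B`             : the data of an inflation situation: a surjection
  `π : G →* Q`, a `Q`-module `B` and an injection `ι : B →+ A` identifying `B` with `A^(ker π)`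
* `fgI_inf₂ D f`                    : inflation of a 2-cochain
* interface statements `fgI_InjStatement`, `fgI_MidStatement`, `fgI_CardStatement`
  (exactness of `0 → H²(Q, A^H) → H²(G, A) → H²(H, A)` when `H¹(H, A) = 0`, and the resulting
  divisibility of cardinalities).  No finiteness of groups is assumed.
-/

namespace Fermat.Agent.S55

open groupCohomology

section Groups

variable (G : Type*) [Group G] (A : Type*) [AddCommGroup A] [DistribMulAction G A]

/-- The 1-cocycles of `G` with values in `A`, as an additive subgroup of `G → A`. -/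
def fg_Z1 : AddSubgroup (G → A) where
  carrier := {f | IsCocycle₁ f}
  zero_mem' := fun g h => by simp
  add_mem' := fun {f f'} hf hf' g h => by
    simp only [Pi.add_apply, hf g h, hf' g h, smul_add]; abel
  neg_mem' := fun {f} hf g h => by
    simp only [Pi.neg_apply, hf g h, smul_neg]; abel

/-- The 1-coboundaries of `G` with values in `A`. -/
def fg_B1 : AddSubgroup (G → A) where
  carrier := {f | IsCoboundary₁ f}
  zero_mem' := ⟨0, fun g => by simp⟩
  add_mem' := fun {f f'} hf hf' => by
    obtain ⟨x, hx⟩ := hf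
    obtain ⟨x', hx'⟩ := hf'
    exact ⟨x + x', fun g => by simp only [Pi.add_apply, ← hx g, ← hx' g, smul_add]; abel⟩
  neg_mem' := fun {f} hf => by
    obtain ⟨x, hx⟩ := hf
    exact ⟨-x, fun g => by simp only [Pi.neg_apply, ← hx g, smul_neg]; abel⟩

/-- The 2-cocycles of `G` with values in `A`, as an additive subgroup of `G × G → A`. -/
def fg_Z2 : AddSubgroup (G × G → A) where
  carrier := {f | IsCocycle₂ f}
  zero_mem' := fun g h j => by simp
  add_mem' := fun {f f'} hf hf' g h j => by
    have e1 := hf g h j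
    have e2 := hf' g h j
    simp only [Pi.add_apply, smul_add]
    calc f (g * h, j) + f' (g * h, j) + (f (g, h) + f' (g, h))
        = (f (g * h, j) + f (g, h)) + (f' (g * h, j) + f' (g, h)) := by abel
      _ = (g • f (h, j) + f (g, h * j)) + (g • f' (h, j) + f' (g, h * j)) := by rw [e1, e2]
      _ = g • f (h, j) + g • f' (h, j) + (f (g, h * j) + f' (g, h * j)) := by abel
  neg_mem' := fun {f} hf g h j => by
    have e1 := hf g h j
    simp only [Pi.neg_apply, smul_neg]
    calc -f (g * h, j) + -f (g, h) = -(f (g * h, j) + f (g, h)) := by abel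
      _ = -(g • f (h, j) + f (g, h * j)) := by rw [e1]
      _ = -(g • f (h, j)) + -f (g, h * j) := by abel

/-- The 2-coboundaries of `G` with values in `A`. -/
def fg_B2 : AddSubgroup (G × G → A) where
  carrier := {f | IsCoboundary₂ f}
  zero_mem' := ⟨0, fun g h => by simp⟩
  add_mem' := fun {f f'} hf hf' => by
    obtain ⟨x, hx⟩ := hf
    obtain ⟨x', hx'⟩ := hf'
    exact ⟨x + x', fun g h => by
      simp only [Pi.add_apply, ← hx g h, ← hx' g h, smul_add]; abel⟩
  neg_mem' := fun {f} hf => by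
    obtain ⟨x, hx⟩ := hf
    exact ⟨-x, fun g h => by simp only [Pi.neg_apply, ← hx g h, smul_neg]; abel⟩

variable {G A}

theorem fg_mem_Z1 {f : G → A} : f ∈ fg_Z1 G A ↔ IsCocycle₁ f := Iff.rfl

theorem fg_mem_B1 {f : G → A} : f ∈ fg_B1 G A ↔ IsCoboundary₁ f := Iff.rfl

theorem fg_mem_Z2 {f : G × G → A} : f ∈ fg_Z2 G A ↔ IsCocycle₂ f := Iff.rfl

theorem fg_mem_B2 {f : G × G → A} : f ∈ fg_B2 G A ↔ IsCoboundary₂ f := Iff.rfl

variable (G A)

/-- `H¹(G, A)` as an additive commutative group: 1-cocycles modulo 1-coboundaries. -/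
abbrev fg_H1 : Type _ := fg_Z1 G A ⧸ (fg_B1 G A).addSubgroupOf (fg_Z1 G A)

/-- `H²(G, A)` as an additive commutative group: 2-cocycles modulo 2-coboundaries. -/
abbrev fg_H2 : Type _ := fg_Z2 G A ⧸ (fg_B2 G A).addSubgroupOf (fg_Z2 G A)

/-- The class map `Z¹(G, A) → H¹(G, A)`. -/
def fg_H1mk : fg_Z1 G A →+ fg_H1 G A :=
  QuotientAddGroup.mk' ((fg_B1 G A).addSubgroupOf (fg_Z1 G A))

/-- The class map `Z²(G, A) → H²(G, A)`. -/
def fg_H2mk : fg_Z2 G A →+ fg_H2 G A :=
  QuotientAddGroup.mk' ((fg_B2 G A).addSubgroupOf (fg_Z2 G A))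

variable {G A}

theorem fg_H1mk_surjective : Function.Surjective (fg_H1mk G A) :=
  QuotientAddGroup.mk'_surjective _

theorem fg_H2mk_surjective : Function.Surjective (fg_H2mk G A) :=
  QuotientAddGroup.mk'_surjective _

theorem fg_H1mk_eq_zero_iff (f : fg_Z1 G A) :
    fg_H1mk G A f = 0 ↔ IsCoboundary₁ (f : G → A) := by
  unfold fg_H1mk
  rw [QuotientAddGroup.mk'_apply, QuotientAddGroup.eq_zero_iff, AddSubgroup.mem_addSubgroupOf]
  exact Iff.rfl

theorem fg_H2mk_eq_zero_iff (f : fg_Z2 G A) :
    fg_H2mk G A f = 0 ↔ IsCoboundary₂ (f : G × G → A) := by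
  unfold fg_H2mk
  rw [QuotientAddGroup.mk'_apply, QuotientAddGroup.eq_zero_iff, AddSubgroup.mem_addSubgroupOf]
  exact Iff.rfl

theorem fg_H1Zero_top_iff : (∀ f : G → A, IsCocycle₁ f → IsCoboundary₁ f) ↔
    Subsingleton (fg_H1 G A) := by
  constructor
  · intro h
    refine ⟨fun x y => ?_⟩
    obtain ⟨f, rfl⟩ := fg_H1mk_surjective x
    obtain ⟨f', rfl⟩ := fg_H1mk_surjective y
    rw [(fg_H1mk_eq_zero_iff f).2 (h _ f.2), (fg_H1mk_eq_zero_iff f').2 (h _ f'.2)]
  · intro h f hf
    exact (fg_H1mk_eq_zero_iff ⟨f, hf⟩).1 (Subsingleton.elim _ _)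

theorem fg_H2Zero_top_iff : (∀ f : G × G → A, IsCocycle₂ f → IsCoboundary₂ f) ↔
    Subsingleton (fg_H2 G A) := by
  constructor
  · intro h
    refine ⟨fun x y => ?_⟩
    obtain ⟨f, rfl⟩ := fg_H2mk_surjective x
    obtain ⟨f', rfl⟩ := fg_H2mk_surjective y
    rw [(fg_H2mk_eq_zero_iff f).2 (h _ f.2), (fg_H2mk_eq_zero_iff f').2 (h _ f'.2)]
  · intro h f hf
    exact (fg_H2mk_eq_zero_iff ⟨f, hf⟩).1 (Subsingleton.elim _ _)

end Groups

section InfRes

/-- An inflation situation: a surjective homomorphism `π : G →* Q` with kernel `H`, a `G`-module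
`A`, a `Q`-module `B`, and an injective equivariant map `ι : B →+ A` whose image is `A^H`. -/
structure fgI_InfData (G Q A B : Type*) [Group G] [Group Q] [AddCommGroup A] [AddCommGroup B]
    [DistribMulAction G A] [DistribMulAction Q B] where
  /-- the projection -/
  π : G →* Q
  /-- the inclusion of the invariants -/
  ι : B →+ A
  π_surj : Function.Surjective π
  ι_inj : Function.Injective ι
  ι_smul : ∀ (g : G) (b : B), ι (π g • b) = g • ι b
  ι_range : ∀ a : A, (∀ h : G, π h = 1 → h • a = a) → ∃ b : B, ι b = a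

variable {G Q A B : Type*} [Group G] [Group Q] [AddCommGroup A] [AddCommGroup B]
  [DistribMulAction G A] [DistribMulAction Q B]

/-- Inflation of a 1-cochain. -/
def fgI_inf₁ (D : fgI_InfData G Q A B) (f : Q → B) : G → A := fun g => D.ι (f (D.π g))

/-- Inflation of a 2-cochain. -/
def fgI_inf₂ (D : fgI_InfData G Q A B) (f : Q × Q → B) : G × G → A :=
  fun p => D.ι (f (D.π p.1, D.π p.2))

end InfRes

section Statements

universe u₁ u₂ u₃ u₄

/-- (FG-INFRES2, injectivity of inflation) If `H¹(H, A) = 0`, a 2-cocycle of `(Q, B)` whose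
inflation to `(G, A)` is a coboundary is a coboundary. -/
def fgI_InjStatement : Prop :=
  ∀ (G : Type u₁) (Q : Type u₂) (A : Type u₃) (B : Type u₄) [Group G] [Group Q]
    [AddCommGroup A] [AddCommGroup B] [DistribMulAction G A] [DistribMulAction Q B]
    (D : fgI_InfData G Q A B), fg_H1Zero D.π.ker A →
    ∀ f : Q × Q → B, IsCocycle₂ f → IsCoboundary₂ (fgI_inf₂ D f) → IsCoboundary₂ f

/-- (FG-INFRES2, exactness in the middle) If `H¹(H, A) = 0`, a 2-cocycle of `(G, A)` whose
restriction to `H` is a coboundary is cohomologous to the inflation of a 2-cocycle of `(Q, B)`. -/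
def fgI_MidStatement : Prop :=
  ∀ (G : Type u₁) (Q : Type u₂) (A : Type u₃) (B : Type u₄) [Group G] [Group Q]
    [AddCommGroup A] [AddCommGroup B] [DistribMulAction G A] [DistribMulAction Q B]
    (D : fgI_InfData G Q A B), fg_H1Zero D.π.ker A →
    ∀ F : G × G → A, IsCocycle₂ F → IsCoboundary₂ (fg_res₂ D.π.ker F) →
      ∃ f : Q × Q → B, IsCocycle₂ f ∧ IsCoboundary₂ (fun p => F p - fgI_inf₂ D f p)

/-- (FG-INFRES2, counting) If `H¹(H, A) = 0` then `#H²(G, A)` divides `#H²(Q, A^H) · #H²(H, A)`
(with `Nat.card`, so the statement is trivially true when the right-hand side is infinite). -/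
def fgI_CardStatement : Prop :=
  ∀ (G : Type u₁) (Q : Type u₂) (A : Type u₃) (B : Type u₄) [Group G] [Group Q]
    [AddCommGroup A] [AddCommGroup B] [DistribMulAction G A] [DistribMulAction Q B]
    (D : fgI_InfData G Q A B), fg_H1Zero D.π.ker A →
    Nat.card (fg_H2 G A) ∣ Nat.card (fg_H2 Q B) * Nat.card (fg_H2 D.π.ker A)

end Statements

end Fermat.Agent.S55
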