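import Mathlib

/-!
# S55 finite-group toolkit: elementwise definitions and interface statements

Everything is stated for a group `G` acting on an additive commutative group `A`
(`DistribMulAction G A`), i.e. for `G`-modules, and for subgroups `K ≤ G` acting through `G`.
Cocycles and coboundaries are Mathlib's elementwise predicates
`groupCohomology.IsCocycle₁`, `IsCocycle₂`, `IsCoboundary₁`, `IsCoboundary₂`.

* `fg_norm K a`        : the norm `∑_{k ∈ K} k • a`
* `fg_aug K A`         : the subgroup `I_K A` generated by the `k • w - w`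
* `fg_H0Zero K A`      : `Ĥ⁰(K, A) = 0`, i.e. every `K`-invariant is a norm
* `fg_Hm1Zero K A`     : `Ĥ⁻¹(K, A) = 0`, i.e. `ker N_K = I_K A`
* `fg_H1Zero K A`      : `H¹(K, A) = 0`
* `fg_H2Zero K A`      : `H²(K, A) = 0`
* `fg_TateHyp a`       : the hypotheses of Tate's theorem for a 2-cocycle `a`
* `fg_nak a σ`         : the Nakayama element `∑_τ a (τ, σ)`

The `…Statement` definitions at the end are the interface of the toolkit (proved in the other
files of this directory).
-/

namespace Fermat.Agent.S55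

open groupCohomology

section Basic

variable {G : Type*} [Group G] (K : Subgroup G) (A : Type*) [AddCommGroup A]
  [DistribMulAction G A]

variable {A} in
/-- The norm `N_K a = ∑_{k ∈ K} k • a` (a finite sum when `K` is finite). -/
noncomputable def fg_norm (a : A) : A := ∑ᶠ k : K, (k : G) • a

/-- The subgroup `I_K A` of `A` generated by all `k • w - w`, `k ∈ K`. -/
def fg_aug : AddSubgroup A :=
  AddSubgroup.closure {x | ∃ k ∈ K, ∃ w : A, x = k • w - w}

/-- `Ĥ⁰(K, A) = 0`: every `K`-invariant element is a norm from `K`. -/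
def fg_H0Zero : Prop :=
  ∀ a : A, (∀ k ∈ K, k • a = a) → ∃ w : A, fg_norm K w = a

/-- `Ĥ⁻¹(K, A) = 0`: every element of norm zero lies in `I_K A`. -/
def fg_Hm1Zero : Prop :=
  ∀ a : A, fg_norm K a = 0 → a ∈ fg_aug K A

/-- `H¹(K, A) = 0`: every 1-cocycle of `K` is a coboundary. -/
def fg_H1Zero : Prop :=
  ∀ f : K → A, IsCocycle₁ f → IsCoboundary₁ f

/-- `H²(K, A) = 0`: every 2-cocycle of `K` is a coboundary. -/
def fg_H2Zero : Prop :=
  ∀ f : K × K → A, IsCocycle₂ f → IsCoboundary₂ f

end Basic

section Tate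

variable {G : Type*} [Group G] {A : Type*} [AddCommGroup A] [DistribMulAction G A]

/-- Restriction of a 2-cochain of `G` to a subgroup. -/
def fg_res₂ (K : Subgroup G) (a : G × G → A) : K × K → A :=
  fun p => a ((p.1 : G), (p.2 : G))

/-- The hypotheses of Tate's theorem for the pair `(A, a)`: `a` is a 2-cocycle of `G` and for
every subgroup `K` one has `H¹(K, A) = 0`, `H²(K, A)` is generated by the class of `a|_K`, and
that class has order exactly `|K|` (one divisibility suffices as a hypothesis). -/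
def fg_TateHyp (a : G × G → A) : Prop :=
  IsCocycle₂ a ∧ ∀ K : Subgroup G,
    fg_H1Zero K A ∧
    (∀ f : K × K → A, IsCocycle₂ f →
      ∃ m : ℤ, IsCoboundary₂ (fun p => f p - m • fg_res₂ K a p)) ∧
    (∀ m : ℤ, IsCoboundary₂ (fun p => m • fg_res₂ K a p) → (Nat.card K : ℤ) ∣ m)

/-- The Nakayama element `∑_τ a (τ, σ)`; for a fundamental class `a` the map
`σ ↦ fg_nak a σ` induces the reciprocity isomorphism `G^ab ≅ A^G / N_G A`. -/
noncomputable def fg_nak (a : G × G → A) (σ : G) : A := ∑ᶠ τ : G, a (τ, σ)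

end Tate

section Statements

universe u v

/-- (FG-F, down) If `H¹(K, A) = H²(K, A) = 0` for all subgroups `K` of the finite group `G`,
then `Ĥ⁰(K, A) = Ĥ⁻¹(K, A) = 0` for all subgroups `K`. -/
def fgF_DownStatement : Prop :=
  ∀ (G : Type u) [Group G] [Finite G] (A : Type v) [AddCommGroup A] [DistribMulAction G A],
    (∀ K : Subgroup G, fg_H1Zero K A ∧ fg_H2Zero K A) →
    ∀ K : Subgroup G, fg_H0Zero K A ∧ fg_Hm1Zero K A

/-- (FG-F, up) If `Ĥ⁻¹(K, A) = Ĥ⁰(K, A) = 0` for all subgroups `K` of the finite group `G`,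
then `H¹(K, A) = 0` for all subgroups `K`. -/
def fgF_UpStatement : Prop :=
  ∀ (G : Type u) [Group G] [Finite G] (A : Type v) [AddCommGroup A] [DistribMulAction G A],
    (∀ K : Subgroup G, fg_Hm1Zero K A ∧ fg_H0Zero K A) →
    ∀ K : Subgroup G, fg_H1Zero K A

/-- (FG-G) Tate's theorem in degree `-2 → 0` (abstract reciprocity law): under `fg_TateHyp a`
the Nakayama map `σ ↦ ∑_τ a (τ, σ)` takes values in `A^G`, is a homomorphism modulo norms,
its kernel modulo norms is the commutator subgroup, and it is surjective modulo norms; i.e.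
it induces an isomorphism `G^ab ≅ A^G / N_G A`. -/
def fgG_RecipStatement : Prop :=
  ∀ (G : Type u) [Group G] [Finite G] (A : Type v) [AddCommGroup A] [DistribMulAction G A]
    (a : G × G → A), fg_TateHyp a →
    (∀ σ g : G, g • fg_nak a σ = fg_nak a σ) ∧
    (∀ σ σ' : G, ∃ w : A, fg_nak a (σ * σ') = fg_nak a σ + fg_nak a σ' + fg_norm (⊤ : Subgroup G) w) ∧
    (∀ σ : G, (∃ w : A, fg_nak a σ = fg_norm (⊤ : Subgroup G) w) ↔ σ ∈ commutator G) ∧
    (∀ c : A, (∀ g : G, g • c = c) → ∃ (σ : G) (w : A), c = fg_nak a σ + fg_norm (⊤ : Subgroup G) w)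

end Statements

end Fermat.Agent.S55
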