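import Fermat.Agent.S55.FG.H2Card

/-!
# S55 finite-group toolkit: bridges for `fg_H2`

* `fgC_H2Equiv` : transport of `fg_H2` along an isomorphism of pairs (group, module)
* `fgC_H2RepEquiv` : Mathlib's `groupCohomology.H2 A` of a representation `A : Rep k G` is
  `fg_H2 G M` for every additive model `e : A ≃+ M` of the underlying module carrying a
  `DistribMulAction G M` compatible with `A.ρ`
* `fgC_card_H2_rep`, `fgC_card_H2_ofDistribMulAction`, `fgC_card_H2_ofMulDistribMulAction`
-/

set_option linter.unusedSectionVars false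
set_option linter.unusedVariables false
set_option linter.style.longLine false

namespace Fermat.Agent.S55

open groupCohomology

section Transport

variable {G G' A A' : Type*} [Group G] [Group G'] [AddCommGroup A] [AddCommGroup A']
  [DistribMulAction G A] [DistribMulAction G' A']

/-- Transport of 2-cochains along an isomorphism of pairs. -/
def fgC_transFun (e : G' ≃* G) (j : A' ≃+ A) : (G' × G' → A') ≃+ (G × G → A) where
  toFun f := fun p => j (f (e.symm p.1, e.symm p.2))
  invFun f := fun p => j.symm (f (e p.1, e p.2))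
  left_inv f := by
    funext p
    simp
  right_inv f := by
    funext p
    simp
  map_add' f f' := by
    funext p
    simp

theorem fgC_transFun_apply (e : G' ≃* G) (j : A' ≃+ A) (f : G' × G' → A') (g h : G) :
    fgC_transFun e j f (g, h) = j (f (e.symm g, e.symm h)) := rfl

theorem fgC_transFun_symm_apply (e : G' ≃* G) (j : A' ≃+ A) (f : G × G → A) (g h : G') :
    (fgC_transFun e j).symm f (g, h) = j.symm (f (e g, e h)) := rfl

theorem fgC_trans_smul_symm (e : G' ≃* G) (j : A' ≃+ A)
    (hj : ∀ (g : G') (a : A'), j (g • a) = e g • j a) (g : G) (a : A) :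
    j.symm (g • a) = e.symm g • j.symm a := by
  apply j.injective
  rw [hj, AddEquiv.apply_symm_apply, MulEquiv.apply_symm_apply, AddEquiv.apply_symm_apply]

theorem fgC_trans_isCocycle₂ (e : G' ≃* G) (j : A' ≃+ A)
    (hj : ∀ (g : G') (a : A'), j (g • a) = e g • j a) {f : G' × G' → A'} (hf : IsCocycle₂ f) :
    IsCocycle₂ (fgC_transFun e j f) := by
  intro g h k
  have := hf (e.symm g) (e.symm h) (e.symm k)
  simp only [fgC_transFun_apply, map_mul]
  rw [← map_add, this, map_add, hj, MulEquiv.apply_symm_apply]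

theorem fgC_trans_isCocycle₂_symm (e : G' ≃* G) (j : A' ≃+ A)
    (hj : ∀ (g : G') (a : A'), j (g • a) = e g • j a) {f : G × G → A} (hf : IsCocycle₂ f) :
    IsCocycle₂ ((fgC_transFun e j).symm f) := by
  intro g h k
  have := hf (e g) (e h) (e k)
  simp only [fgC_transFun_symm_apply, map_mul]
  rw [← map_add, this, map_add, fgC_trans_smul_symm e j hj, MulEquiv.symm_apply_apply]

theorem fgC_trans_isCoboundary₂ (e : G' ≃* G) (j : A' ≃+ A)
    (hj : ∀ (g : G') (a : A'), j (g • a) = e g • j a) {f : G' × G' → A'}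
    (hf : IsCoboundary₂ f) : IsCoboundary₂ (fgC_transFun e j f) := by
  obtain ⟨x, hx⟩ := hf
  refine ⟨fun g => j (x (e.symm g)), fun g h => ?_⟩
  show g • j (x (e.symm h)) - j (x (e.symm (g * h))) + j (x (e.symm g)) = _
  rw [fgC_transFun_apply, ← hx, map_add, map_sub, hj, MulEquiv.apply_symm_apply, map_mul]

theorem fgC_trans_isCoboundary₂_symm (e : G' ≃* G) (j : A' ≃+ A)
    (hj : ∀ (g : G') (a : A'), j (g • a) = e g • j a) {f : G × G → A}
    (hf : IsCoboundary₂ f) : IsCoboundary₂ ((fgC_transFun e j).symm f) := by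
  obtain ⟨x, hx⟩ := hf
  refine ⟨fun g => j.symm (x (e g)), fun g h => ?_⟩
  show g • j.symm (x (e h)) - j.symm (x (e (g * h))) + j.symm (x (e g)) = _
  rw [fgC_transFun_symm_apply, ← hx, map_add, map_sub, fgC_trans_smul_symm e j hj,
    MulEquiv.symm_apply_apply, map_mul]

/-- Transport of 2-cocycles along an isomorphism of pairs. -/
def fgC_transZ (e : G' ≃* G) (j : A' ≃+ A)
    (hj : ∀ (g : G') (a : A'), j (g • a) = e g • j a) : fg_Z2 G' A' ≃+ fg_Z2 G A where
  toFun f := ⟨fgC_transFun e j f, fgC_trans_isCocycle₂ e j hj f.2⟩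
  invFun f := ⟨(fgC_transFun e j).symm f, fgC_trans_isCocycle₂_symm e j hj f.2⟩
  left_inv f := Subtype.ext ((fgC_transFun e j).symm_apply_apply _)
  right_inv f := Subtype.ext ((fgC_transFun e j).apply_symm_apply _)
  map_add' f f' := Subtype.ext ((fgC_transFun e j).map_add _ _)

/-- Transport of `H²` along an isomorphism of pairs (group, module). -/
noncomputable def fgC_H2Equiv (e : G' ≃* G) (j : A' ≃+ A)
    (hj : ∀ (g : G') (a : A'), j (g • a) = e g • j a) : fg_H2 G' A' ≃+ fg_H2 G A :=
  QuotientAddGroup.congr _ _ (fgC_transZ e j hj) (by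
    ext f
    rw [AddSubgroup.mem_map, AddSubgroup.mem_addSubgroupOf]
    constructor
    · rintro ⟨f', hf', rfl⟩
      rw [AddSubgroup.mem_addSubgroupOf] at hf'
      exact fgC_trans_isCoboundary₂ e j hj hf'
    · intro hf
      refine ⟨(fgC_transZ e j hj).symm f, ?_, (fgC_transZ e j hj).apply_symm_apply f⟩
      rw [AddSubgroup.mem_addSubgroupOf]
      exact fgC_trans_isCoboundary₂_symm e j hj hf)

theorem fgC_H2Equiv_mk (e : G' ≃* G) (j : A' ≃+ A)
    (hj : ∀ (g : G') (a : A'), j (g • a) = e g • j a) (f : fg_Z2 G' A') :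
    fgC_H2Equiv e j hj (fg_H2mk G' A' f) = fg_H2mk G A (fgC_transZ e j hj f) := rfl

theorem fgC_card_H2_congr (e : G' ≃* G) (j : A' ≃+ A)
    (hj : ∀ (g : G') (a : A'), j (g • a) = e g • j a) :
    Nat.card (fg_H2 G' A') = Nat.card (fg_H2 G A) :=
  Nat.card_congr (fgC_H2Equiv e j hj).toEquiv

end Transport

section Rep

universe u

variable {k G : Type u} [CommRing k] [Group G] (A : Rep k G)
  {M : Type*} [AddCommGroup M] [DistribMulAction G M]

/-- The map from Mathlib's 2-cocycles of a representation to the elementwise 2-cocycles of a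
model of the underlying module. -/
def fgC_repZ (e : A ≃+ M) (he : ∀ (g : G) (a : A), e (A.ρ g a) = g • e a) :
    cocycles₂ A →+ fg_Z2 G M where
  toFun f := ⟨fun p => e ((f : G × G → A) p), by
    intro g h j
    have := (mem_cocycles₂_iff (A := A) (f : G × G → A)).1 f.2 g h j
    show e _ + e _ = g • e _ + e _
    rw [← map_add, this, map_add, he]⟩
  map_zero' := by
    apply Subtype.ext
    funext p
    show e ((0 : G × G → A) p) = 0
    simp
  map_add' f f' := by
    apply Subtype.ext
    funext p
    show e (((f : G × G → A) + (f' : G × G → A)) p) = e _ + e _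
    simp

theorem fgC_repZ_coe (e : A ≃+ M) (he : ∀ (g : G) (a : A), e (A.ρ g a) = g • e a)
    (f : cocycles₂ A) (p : G × G) :
    ((fgC_repZ A e he f : fg_Z2 G M) : G × G → M) p = e ((f : G × G → A) p) := rfl

theorem fgC_repZ_surjective (e : A ≃+ M) (he : ∀ (g : G) (a : A), e (A.ρ g a) = g • e a) :
    Function.Surjective (fgC_repZ A e he) := by
  intro f
  have hes : ∀ (g : G) (m : M), e.symm (g • m) = A.ρ g (e.symm m) := by
    intro g m
    apply e.injective
    rw [he, AddEquiv.apply_symm_apply, AddEquiv.apply_symm_apply]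
  refine ⟨⟨fun p => e.symm ((f : G × G → M) p), ?_⟩, ?_⟩
  · rw [mem_cocycles₂_iff]
    intro g h j
    have := f.2 g h j
    rw [← map_add, this, map_add, hes]
  · apply Subtype.ext
    funext p
    show e (e.symm _) = _
    rw [AddEquiv.apply_symm_apply]

theorem fgC_repZ_isCoboundary₂_iff (e : A ≃+ M)
    (he : ∀ (g : G) (a : A), e (A.ρ g a) = g • e a) (f : cocycles₂ A) :
    IsCoboundary₂ ((fgC_repZ A e he f : fg_Z2 G M) : G × G → M) ↔
      (f : G × G → A) ∈ coboundaries₂ A := by
  have hes : ∀ (g : G) (m : M), e.symm (g • m) = A.ρ g (e.symm m) := by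
    intro g m
    apply e.injective
    rw [he, AddEquiv.apply_symm_apply, AddEquiv.apply_symm_apply]
  constructor
  · rintro ⟨x, hx⟩
    refine ⟨fun g => e.symm (x g), ?_⟩
    funext p
    have := hx p.1 p.2
    rw [fgC_repZ_coe] at this
    rw [d₁₂_hom_apply]
    apply e.injective
    rw [← this, map_add, map_sub, he, AddEquiv.apply_symm_apply, AddEquiv.apply_symm_apply,
      AddEquiv.apply_symm_apply]
  · rintro ⟨x, hx⟩
    refine ⟨fun g => e (x g), fun g h => ?_⟩
    rw [fgC_repZ_coe, ← hx, d₁₂_hom_apply, map_add, map_sub, he]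

/-- The composite `Z²(G, A) → fg_H2 G M`. -/
def fgC_repP (e : A ≃+ M) (he : ∀ (g : G) (a : A), e (A.ρ g a) = g • e a) :
    cocycles₂ A →+ fg_H2 G M :=
  (fg_H2mk G M).comp (fgC_repZ A e he)

theorem fgC_repP_surjective (e : A ≃+ M) (he : ∀ (g : G) (a : A), e (A.ρ g a) = g • e a) :
    Function.Surjective (fgC_repP A e he) :=
  fg_H2mk_surjective.comp (fgC_repZ_surjective A e he)

theorem fgC_H2π_surjective : Function.Surjective (H2π A).hom :=
  (ModuleCat.epi_iff_surjective (H2π A)).1 inferInstance

theorem fgC_repP_eq_zero_iff (e : A ≃+ M) (he : ∀ (g : G) (a : A), e (A.ρ g a) = g • e a)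
    (f : cocycles₂ A) : fgC_repP A e he f = 0 ↔ (H2π A).hom f = 0 := by
  rw [H2π_eq_zero_iff]
  show fg_H2mk G M (fgC_repZ A e he f) = 0 ↔ _
  rw [fg_H2mk_eq_zero_iff, fgC_repZ_isCoboundary₂_iff]

/-- Mathlib's `H²(G, A)` is the elementwise `fg_H2 G M` for every model `M` of `A`. -/
noncomputable def fgC_H2RepEquiv (e : A ≃+ M)
    (he : ∀ (g : G) (a : A), e (A.ρ g a) = g • e a) : H2 A ≃+ fg_H2 G M := by
  have hker : ((H2π A).hom : cocycles₂ A →ₗ[k] H2 A).toAddMonoidHom.ker
      = (fgC_repP A e he).ker := by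
    ext f
    rw [AddMonoidHom.mem_ker, AddMonoidHom.mem_ker]
    exact (fgC_repP_eq_zero_iff A e he f).symm
  exact ((QuotientAddGroup.quotientKerEquivOfSurjective
      ((H2π A).hom : cocycles₂ A →ₗ[k] H2 A).toAddMonoidHom (fgC_H2π_surjective A)).symm.trans
    (QuotientAddGroup.quotientAddEquivOfEq hker)).trans
    (QuotientAddGroup.quotientKerEquivOfSurjective (fgC_repP A e he)
      (fgC_repP_surjective A e he))

theorem fgC_H2RepEquiv_H2π (e : A ≃+ M) (he : ∀ (g : G) (a : A), e (A.ρ g a) = g • e a)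
    (f : cocycles₂ A) :
    fgC_H2RepEquiv A e he ((H2π A).hom f) = fg_H2mk G M (fgC_repZ A e he f) := by
  unfold fgC_H2RepEquiv
  simp only [AddEquiv.trans_apply]
  have : (QuotientAddGroup.quotientKerEquivOfSurjective
      ((H2π A).hom : cocycles₂ A →ₗ[k] H2 A).toAddMonoidHom (fgC_H2π_surjective A)).symm
      ((H2π A).hom f) = QuotientAddGroup.mk f := by
    rw [AddEquiv.symm_apply_eq]
    rfl
  rw [this]
  rfl

theorem fgC_card_H2_rep (e : A ≃+ M) (he : ∀ (g : G) (a : A), e (A.ρ g a) = g • e a) :
    Nat.card (H2 A) = Nat.card (fg_H2 G M) :=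
  Nat.card_congr (fgC_H2RepEquiv A e he).toEquiv

end Rep

section Instances

universe u

/-- `H²` of `Rep.ofDistribMulAction` is the elementwise `fg_H2`. -/
theorem fgC_card_H2_ofDistribMulAction (k G A : Type u) [CommRing k] [Group G] [AddCommGroup A]
    [Module k A] [DistribMulAction G A] [SMulCommClass G k A] :
    Nat.card (H2 (Rep.ofDistribMulAction k G A)) = Nat.card (fg_H2 G A) :=
  fgC_card_H2_rep (Rep.ofDistribMulAction k G A) (AddEquiv.refl A) (fun _ _ => rfl)

/-- `H²` of `Rep.ofMulDistribMulAction` is the elementwise `fg_H2` of the additive version, for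
any `DistribMulAction` on `Additive M` that is compatible with the multiplicative action. -/
theorem fgC_card_H2_ofMulDistribMulAction (G M : Type) [Group G] [CommGroup M]
    [MulDistribMulAction G M] [DistribMulAction G (Additive M)]
    (h : ∀ (g : G) (a : Additive M), g • a = Additive.ofMul (g • a.toMul)) :
    Nat.card (H2 (Rep.ofMulDistribMulAction G M)) = Nat.card (fg_H2 G (Additive M)) :=
  fgC_card_H2_rep (Rep.ofMulDistribMulAction G M) (AddEquiv.refl (Additive M))
    (fun g a => (h g a).symm)

/-- The additive equivalence behind `fgC_card_H2_ofMulDistribMulAction`. -/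
noncomputable def fgC_H2MulEquiv (G M : Type) [Group G] [CommGroup M]
    [MulDistribMulAction G M] [DistribMulAction G (Additive M)]
    (h : ∀ (g : G) (a : Additive M), g • a = Additive.ofMul (g • a.toMul)) :
    H2 (Rep.ofMulDistribMulAction G M) ≃+ fg_H2 G (Additive M) :=
  fgC_H2RepEquiv (Rep.ofMulDistribMulAction G M) (AddEquiv.refl (Additive M))
    (fun g a => (h g a).symm)

/-- `H²(Gal(L/K), Lˣ)` in Mathlib's sense has the same cardinality as the elementwise one. -/
theorem fgC_card_H2_units (K L : Type) [Field K] [Field L] [Algebra K L]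
    [DistribMulAction (L ≃ₐ[K] L) (Additive Lˣ)]
    (h : ∀ (g : L ≃ₐ[K] L) (a : Additive Lˣ), g • a = Additive.ofMul (g • a.toMul)) :
    Nat.card (H2 (Rep.ofAlgebraAutOnUnits K L)) = Nat.card (fg_H2 (L ≃ₐ[K] L) (Additive Lˣ)) :=
  fgC_card_H2_ofMulDistribMulAction (L ≃ₐ[K] L) Lˣ h

/-- The canonical additive action attached to a multiplicative distributive action (a `def`,
to be installed with `letI` by the consumer). -/
@[reducible] def fgC_addAct (G M : Type*) [Monoid G] [CommGroup M] [MulDistribMulAction G M] :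
    DistribMulAction G (Additive M) where
  smul g a := Additive.ofMul (g • a.toMul)
  one_smul a := by
    show Additive.ofMul ((1 : G) • a.toMul) = a
    rw [one_smul]; rfl
  mul_smul g g' a := by
    show Additive.ofMul ((g * g') • a.toMul) = Additive.ofMul (g • (g' • a.toMul))
    rw [mul_smul]
  smul_zero g := by
    show Additive.ofMul (g • (1 : M)) = 0
    rw [smul_one]; rfl
  smul_add g a b := by
    show Additive.ofMul (g • (a.toMul * b.toMul)) = _
    rw [smul_mul']; rfl

theorem fgC_addAct_smul (G M : Type*) [Monoid G] [CommGroup M] [MulDistribMulAction G M]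
    (g : G) (a : Additive M) :
    (letI := fgC_addAct G M; g • a) = Additive.ofMul (g • a.toMul) := rfl

end Instances

end Fermat.Agent.S55
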