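import Fermat.Agent.S55.FG.InfRes2

/-!
# S55 finite-group toolkit: inflation-restriction in degree 2 with a level

`fgO_mid_core`: the exactness in the middle of inflation-restriction in degree 2
(`fgI_mid`), with control of the *level* of all cochains: `G` a group (possibly infinite, e.g.
an open subgroup of a Galois group), `M ≤ H` normal subgroups of `G`.  A cochain has level `M`
if it is invariant under right translation of its arguments by elements of `M`.  If the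
2-cocycle `F` has level `M`, its restriction to `H` is the coboundary of a cochain of level `M`
and every 1-cocycle of `H` of level `M` is a coboundary, then `F = F' + d b` with `F'` inflated
from `G / H` and `b` of level `M`.  No finiteness is assumed.

This is the abstract form of `spl_InfResMidStatement` (smooth cochains of local Galois groups)
and of the analogous statement for level-`S` cochains of `Gal(ℚ̄/ℚ)`.
-/

set_option linter.unusedSectionVars false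
set_option linter.unusedVariables false
set_option linter.style.longLine false

namespace Fermat.Agent.S55

open groupCohomology

section Level

variable {G : Type*} [Group G] {A : Type*} [AddCommGroup A] [DistribMulAction G A]

/-- A 1-cochain of level `M` with `M`-invariant values. -/
def fgO_P1 (M : Subgroup G) (φ : G → A) : Prop :=
  (∀ g : G, ∀ n ∈ M, φ (g * n) = φ g) ∧ ∀ g : G, ∀ n ∈ M, n • φ g = φ g

/-- A 2-cochain of level `M` with `M`-invariant values. -/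
def fgO_P2 (M : Subgroup G) (F : G × G → A) : Prop :=
  (∀ g h : G, ∀ n ∈ M, ∀ n' ∈ M, F (g * n, h * n') = F (g, h)) ∧
    ∀ g h : G, ∀ n ∈ M, n • F (g, h) = F (g, h)

theorem fgO_conj_mem (M : Subgroup G) [M.Normal] {n : G} (hn : n ∈ M) (g : G) :
    g⁻¹ * n * g ∈ M := by
  have := (inferInstance : M.Normal).conj_mem n hn g⁻¹
  simpa using this

theorem fgO_conj_mem' (M : Subgroup G) [M.Normal] {n : G} (hn : n ∈ M) (g : G) :
    g * n * g⁻¹ ∈ M :=
  (inferInstance : M.Normal).conj_mem n hn g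

/-- A 2-cocycle of level `M` has `M`-invariant values. -/
theorem fgO_P2_of_cocycle (M : Subgroup G) [M.Normal] {F : G × G → A} (hF : IsCocycle₂ F)
    (hM : ∀ g h : G, ∀ n ∈ M, ∀ n' ∈ M, F (g * n, h * n') = F (g, h)) : fgO_P2 M F := by
  refine ⟨hM, fun h j n hn => ?_⟩
  have h1 : ∀ x : G, F (n, x) = F (1, 1) := by
    intro x
    have := hM 1 x n hn 1 M.one_mem
    rw [one_mul, mul_one] at this
    rw [this, map_one_fst_of_isCocycle₂ hF]
  have h2 : F (n * h, j) = F (h, j) := by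
    have e : n * h = h * (h⁻¹ * n * h) := by group
    have := hM h j _ (fgO_conj_mem M hn h) 1 M.one_mem
    rw [mul_one] at this
    rw [e, this]
  have e := hF n h j
  rw [h2, h1, h1] at e
  exact (add_right_cancel e).symm

theorem fgO_P2_dd (M : Subgroup G) [M.Normal] {φ : G → A} (hφ : fgO_P1 M φ) :
    fgO_P2 M (fgI_dd φ) := by
  refine ⟨fun g h n hn n' hn' => ?_, fun g h n hn => ?_⟩
  · rw [fgI_dd_apply, fgI_dd_apply, hφ.1 h n' hn', hφ.1 g n hn, mul_smul, hφ.2 h n hn]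
    have e : g * n * (h * n') = g * h * (h⁻¹ * n * h * n') := by group
    rw [e, hφ.1 (g * h) _ (M.mul_mem (fgO_conj_mem M hn h) hn')]
  · rw [fgI_dd_apply, smul_add, smul_sub, hφ.2 _ n hn, hφ.2 _ n hn, ← mul_smul]
    have e : n * g = g * (g⁻¹ * n * g) := by group
    rw [e, mul_smul, hφ.2 _ _ (fgO_conj_mem M hn g)]

theorem fgO_P2_sub (M : Subgroup G) {F F' : G × G → A} (hF : fgO_P2 M F) (hF' : fgO_P2 M F') :
    fgO_P2 M (fun p => F p - F' p) := by
  refine ⟨fun g h n hn n' hn' => ?_, fun g h n hn => ?_⟩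
  · show F _ - F' _ = F _ - F' _
    rw [hF.1 g h n hn n' hn', hF'.1 g h n hn n' hn']
  · show n • (F _ - F' _) = F _ - F' _
    rw [smul_sub, hF.2 g h n hn, hF'.2 g h n hn]

theorem fgO_P1_add (M : Subgroup G) {φ φ' : G → A} (hφ : fgO_P1 M φ) (hφ' : fgO_P1 M φ') :
    fgO_P1 M (fun g => φ g + φ' g) := by
  refine ⟨fun g n hn => ?_, fun g n hn => ?_⟩
  · show φ _ + φ' _ = φ _ + φ' _
    rw [hφ.1 g n hn, hφ'.1 g n hn]
  · show n • (φ _ + φ' _) = φ _ + φ' _
    rw [smul_add, hφ.2 g n hn, hφ'.2 g n hn]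

end Level

section Section

variable {G : Type*} [Group G] (H : Subgroup G) [H.Normal]

/-- The chosen representative of the coset `g H`. -/
noncomputable def fgO_t (g : G) : G := (QuotientGroup.mk g : G ⧸ H).out

/-- The `H`-part of `g`. -/
noncomputable def fgO_r (g : G) : G := g * (fgO_t H g)⁻¹

theorem fgO_t_inv_mul_mem (g : G) : (fgO_t H g)⁻¹ * g ∈ H := by
  have h : (QuotientGroup.mk (fgO_t H g) : G ⧸ H) = QuotientGroup.mk g :=
    QuotientGroup.out_eq' _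
  exact QuotientGroup.eq.1 h

theorem fgO_r_mem (g : G) : fgO_r H g ∈ H := by
  have h2 := fgO_conj_mem' H (fgO_t_inv_mul_mem H g) g
  have e : g * ((fgO_t H g)⁻¹ * g) * g⁻¹ = fgO_r H g := by
    unfold fgO_r
    group
  rw [e] at h2
  exact h2

theorem fgO_r_mul_t (g : G) : fgO_r H g * fgO_t H g = g := by
  unfold fgO_r
  rw [inv_mul_cancel_right]

theorem fgO_t_eq_of_mk_eq {g g' : G}
    (h : (QuotientGroup.mk g : G ⧸ H) = QuotientGroup.mk g') : fgO_t H g = fgO_t H g' := by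
  unfold fgO_t
  rw [h]

theorem fgO_t_mem_mul {h : G} (hh : h ∈ H) (g : G) : fgO_t H (h * g) = fgO_t H g := by
  apply fgO_t_eq_of_mk_eq
  rw [QuotientGroup.eq]
  have e : (h * g)⁻¹ * g = g⁻¹ * h⁻¹ * g := by group
  rw [e]
  exact fgO_conj_mem H (H.inv_mem hh) g

theorem fgO_t_mul_mem (g : G) {h : G} (hh : h ∈ H) : fgO_t H (g * h) = fgO_t H g := by
  apply fgO_t_eq_of_mk_eq
  rw [QuotientGroup.eq]
  have e : (g * h)⁻¹ * g = h⁻¹ := by group
  rw [e]
  exact H.inv_mem hh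

theorem fgO_t_of_mem {h : G} (hh : h ∈ H) : fgO_t H h = fgO_t H 1 := by
  have := fgO_t_mul_mem H 1 hh
  rwa [one_mul] at this

theorem fgO_t_mem_of_mem {h : G} (hh : h ∈ H) : fgO_t H h ∈ H := by
  have h1 := fgO_r_mem H h
  have h2 := fgO_r_mul_t H h
  have e : fgO_t H h = (fgO_r H h)⁻¹ * h := eq_inv_mul_of_mul_eq h2
  rw [e]
  exact H.mul_mem (H.inv_mem h1) hh

theorem fgO_r_mem_mul {h : G} (hh : h ∈ H) (g : G) : fgO_r H (h * g) = h * fgO_r H g := by
  unfold fgO_r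
  rw [fgO_t_mem_mul H hh, mul_assoc]

theorem fgO_r_mul_mem (g : G) {h : G} (hh : h ∈ H) :
    fgO_r H (g * h) = fgO_r H g * (fgO_t H g * h * (fgO_t H g)⁻¹) := by
  unfold fgO_r
  rw [fgO_t_mul_mem H g hh]
  group

end Section

section Steps

variable {G : Type*} [Group G] {A : Type*} [AddCommGroup A] [DistribMulAction G A]
  (H M : Subgroup G) [H.Normal] [M.Normal]

/-- Step A1 with level. -/
theorem fgO_stepA1 (hMH : M ≤ H) (F : G × G → A) (hF : IsCocycle₂ F) (hFM : fgO_P2 M F)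
    (ψ : G → A) (hψM : ∀ k ∈ H, ∀ n ∈ M, ψ (k * n) = ψ k)
    (hψ : ∀ k ∈ H, ∀ k' ∈ H, k • ψ k' - ψ (k * k') + ψ k = F (k, k')) :
    ∃ φ : G → A, fgO_P1 M φ ∧ ∀ h ∈ H, ∀ h' ∈ H, F (h, h') - fgI_dd φ (h, h') = 0 := by
  classical
  -- the values of `ψ` on `H` are `M`-invariant
  have hψ1 : ψ 1 = F (1, 1) := by
    have := hψ 1 H.one_mem 1 H.one_mem
    rw [one_smul, mul_one, sub_self, zero_add] at this
    exact this
  have hψinv : ∀ k ∈ H, ∀ n ∈ M, n • ψ k = ψ k := by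
    intro k hk n hn
    have e := hψ n (hMH hn) k hk
    have e1 : ψ (n * k) = ψ k := by
      have e2 : n * k = k * (k⁻¹ * n * k) := by group
      rw [e2, hψM k hk _ (fgO_conj_mem M hn k)]
    have e3 : ψ n = F (1, 1) := by
      have := hψM 1 H.one_mem n hn
      rw [one_mul] at this
      rw [this, hψ1]
    have e4 : F (n, k) = F (1, 1) := by
      have := hFM.1 1 k n hn 1 M.one_mem
      rw [one_mul, mul_one] at this
      rw [this, map_one_fst_of_isCocycle₂ hF]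
    rw [e1, e3, e4] at e
    have : n • ψ k - ψ k = 0 := by
      have e5 : n • ψ k - ψ k = (n • ψ k - ψ k + F (1, 1)) - F (1, 1) := by abel
      rw [e5, e, sub_self]
    exact sub_eq_zero.1 this
  refine ⟨fun g => if g ∈ H then ψ g else 0, ⟨fun g n hn => ?_, fun g n hn => ?_⟩, ?_⟩
  · by_cases hg : g ∈ H
    · have hgn : g * n ∈ H := H.mul_mem hg (hMH hn)
      simp only [if_pos hg, if_pos hgn]
      exact hψM g hg n hn
    · have hgn : g * n ∉ H := fun h => hg (by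
        have := H.mul_mem h (H.inv_mem (hMH hn))
        rwa [mul_inv_cancel_right] at this)
      simp only [if_neg hg, if_neg hgn]
  · by_cases hg : g ∈ H
    · simp only [if_pos hg]
      exact hψinv g hg n hn
    · simp only [if_neg hg]
      exact smul_zero n
  · intro h hh h' hh'
    rw [fgI_dd_apply]
    simp only [if_pos hh, if_pos hh', if_pos (H.mul_mem hh hh')]
    rw [hψ h hh h' hh', sub_self]

/-- Step A2 with level. -/
theorem fgO_stepA2 (hMH : M ≤ H) (F : G × G → A) (hF : IsCocycle₂ F) (hFM : fgO_P2 M F)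
    (h0 : ∀ h ∈ H, ∀ h' ∈ H, F (h, h') = 0) :
    ∃ φ : G → A, fgO_P1 M φ ∧ ∀ h ∈ H, ∀ g : G, F (h, g) - fgI_dd φ (h, g) = 0 := by
  refine ⟨fun g => -F (fgO_r H g, fgO_t H g), ⟨fun g n hn => ?_, fun g n hn => ?_⟩, ?_⟩
  · show -F (fgO_r H (g * n), fgO_t H (g * n)) = -F (fgO_r H g, fgO_t H g)
    rw [fgO_r_mul_mem H g (hMH hn), fgO_t_mul_mem H g (hMH hn)]
    have := hFM.1 (fgO_r H g) (fgO_t H g) _ (fgO_conj_mem' M hn (fgO_t H g)) 1 M.one_mem
    rw [mul_one] at this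
    rw [this]
  · show n • -F (fgO_r H g, fgO_t H g) = -F (fgO_r H g, fgO_t H g)
    rw [smul_neg, hFM.2 _ _ n hn]
  · intro h hh g
    rw [fgI_dd_apply]
    have e1 : F (fgO_r H h, fgO_t H h) = 0 := h0 _ (fgO_r_mem H h) _ (fgO_t_mem_of_mem H hh)
    have e2 := hF h (fgO_r H g) (fgO_t H g)
    rw [fgO_r_mul_t, h0 h hh (fgO_r H g) (fgO_r_mem H g), add_zero] at e2
    simp only [fgO_r_mem_mul H hh, fgO_t_mem_mul H hh, e1, e2, smul_neg]
    abel

/-- Step B with level. -/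
theorem fgO_stepB (hMH : M ≤ H)
    (h90 : ∀ w : G → A, (∀ k ∈ H, ∀ k' ∈ H, w (k * k') = k • w k' + w k) →
      (∀ k ∈ H, ∀ n ∈ M, w (k * n) = w k) → ∃ x : A, ∀ k ∈ H, k • x - x = w k)
    (F : G × G → A) (hF : IsCocycle₂ F) (hFM : fgO_P2 M F)
    (h0 : ∀ h ∈ H, ∀ g : G, F (h, g) = 0) :
    ∃ φ : G → A, fgO_P1 M φ ∧ ∀ h ∈ H, ∀ g : G,
      F (h, g) - fgI_dd φ (h, g) = 0 ∧ F (g, h) - fgI_dd φ (g, h) = 0 := by
  have hi : ∀ h ∈ H, ∀ g g' : G, F (h * g, g') = h • F (g, g') := by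
    intro h hh g g'
    have e := hF h g g'
    rw [h0 h hh g, h0 h hh (g * g'), add_zero, add_zero] at e
    exact e
  have hw : ∀ g : G, ∀ k ∈ H, ∀ k' ∈ H,
      F (g, g⁻¹ * (k * k') * g) = k • F (g, g⁻¹ * k' * g) + F (g, g⁻¹ * k * g) := by
    intro g k hk k' hk'
    have e := hF g (g⁻¹ * k * g) (g⁻¹ * k' * g)
    rw [h0 _ (fgO_conj_mem H hk g), smul_zero, zero_add] at e
    have e3 : g * (g⁻¹ * k * g) = k * g := by group
    have e4 : g⁻¹ * k * g * (g⁻¹ * k' * g) = g⁻¹ * (k * k') * g := by group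
    rw [e3, e4, hi _ hk] at e
    exact e.symm
  have hwM : ∀ g : G, ∀ k ∈ H, ∀ n ∈ M, F (g, g⁻¹ * (k * n) * g) = F (g, g⁻¹ * k * g) := by
    intro g k hk n hn
    have e : g⁻¹ * (k * n) * g = g⁻¹ * k * g * (g⁻¹ * n * g) := by group
    have := hFM.1 g (g⁻¹ * k * g) 1 M.one_mem _ (fgO_conj_mem M hn g)
    rw [mul_one] at this
    rw [e, this]
  choose X hX using fun g => h90 (fun k => F (g, g⁻¹ * k * g)) (hw g) (hwM g)
  -- the `X g` are `M`-invariant
  have hF11 : F (1, 1) = 0 := h0 1 H.one_mem 1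
  have hXM : ∀ g : G, ∀ n ∈ M, n • X g = X g := by
    intro g n hn
    have e := hX g n (hMH hn)
    have e1 : F (g, g⁻¹ * n * g) = 0 := by
      have := hFM.1 g 1 1 M.one_mem _ (fgO_conj_mem M hn g)
      rw [mul_one, one_mul] at this
      rw [this, map_one_snd_of_isCocycle₂ hF, hF11, smul_zero]
    rw [e1] at e
    exact sub_eq_zero.1 e
  set x1 : A := X (fgO_t H 1) with hx1
  have ht1 : fgO_t H 1 ∈ H := fgO_t_mem_of_mem H H.one_mem
  have hx1inv : ∀ k ∈ H, k • x1 = x1 := by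
    intro k hk
    have e := hX (fgO_t H 1) k hk
    rw [h0 _ ht1] at e
    exact sub_eq_zero.1 e
  set φ : G → A := fun g => x1 - fgO_r H g • X (fgO_t H g) with hφdef
  have hφl : ∀ h ∈ H, ∀ g : G, φ (h * g) = h • φ g := by
    intro h hh g
    simp only [hφdef, fgO_r_mem_mul H hh, fgO_t_mem_mul H hh, smul_sub, mul_smul, hx1inv h hh]
  have hφ0 : ∀ h ∈ H, φ h = 0 := by
    intro h hh
    simp only [hφdef, fgO_t_of_mem H hh]
    rw [← hx1, hx1inv _ (fgO_r_mem H h), sub_self]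
  have hFg : ∀ g : G, ∀ h ∈ H, F (g, h) = φ g - (g * h * g⁻¹) • φ g := by
    intro g h hh
    have e1 : F (g, h) = fgO_r H g • F (fgO_t H g, h) := by
      rw [← hi _ (fgO_r_mem H g), fgO_r_mul_t]
    have hk : fgO_t H g * h * (fgO_t H g)⁻¹ ∈ H := fgO_conj_mem' H hh _
    have e2 := hX (fgO_t H g) _ hk
    have e3 : (fgO_t H g)⁻¹ * (fgO_t H g * h * (fgO_t H g)⁻¹) * fgO_t H g = h := by group
    rw [e3] at e2
    have e4 : g * h * g⁻¹ * fgO_r H g = fgO_r H g * (fgO_t H g * h * (fgO_t H g)⁻¹) := by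
      unfold fgO_r
      group
    rw [e1, ← e2]
    simp only [hφdef, smul_sub, ← mul_smul, e4, hx1inv _ (fgO_conj_mem' H hh g)]
    abel
  refine ⟨φ, ⟨fun g n hn => ?_, fun g n hn => ?_⟩, fun h hh g => ⟨?_, ?_⟩⟩
  · simp only [hφdef]
    rw [fgO_r_mul_mem H g (hMH hn), fgO_t_mul_mem H g (hMH hn), mul_smul,
      hXM _ _ (fgO_conj_mem' M hn (fgO_t H g))]
  · simp only [hφdef]
    rw [smul_sub, hXM _ n hn, ← mul_smul]
    have e : n * fgO_r H g = fgO_r H g * ((fgO_r H g)⁻¹ * n * fgO_r H g) := by group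
    rw [e, mul_smul, hXM _ _ (fgO_conj_mem M hn _)]
  · rw [fgI_dd_apply, h0 h hh g, hφl h hh g, hφ0 h hh]
    abel
  · have e2 : φ (g * h) = (g * h * g⁻¹) • φ g := by
      rw [← hφl _ (fgO_conj_mem' H hh g)]
      congr 1
      group
    rw [fgI_dd_apply, hφ0 h hh, smul_zero, hFg g h hh, e2]
    abel

/-- Step C: a cocycle vanishing on `H × G` and `G × H` is inflated from `G / H`. -/
theorem fgO_stepC (F : G × G → A) (hF : IsCocycle₂ F)
    (h0 : ∀ h ∈ H, ∀ g : G, F (h, g) = 0 ∧ F (g, h) = 0) :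
    (∀ g g' : G, ∀ s ∈ H, ∀ s' ∈ H, F (g * s, g' * s') = F (g, g')) ∧
      ∀ g g' : G, ∀ s ∈ H, s • F (g, g') = F (g, g') := by
  have hi : ∀ h ∈ H, ∀ g g' : G, F (h * g, g') = h • F (g, g') := by
    intro h hh g g'
    have e := hF h g g'
    rw [(h0 h hh g).1, (h0 h hh (g * g')).1, add_zero, add_zero] at e
    exact e
  have hii : ∀ g : G, ∀ h ∈ H, ∀ g' : G, F (g * h, g') = F (g, h * g') := by
    intro g h hh g'
    have e := hF g h g'
    rw [(h0 h hh g).2, (h0 h hh g').1, add_zero, smul_zero, zero_add] at e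
    exact e
  have hiii : ∀ g g' : G, ∀ h ∈ H, F (g, g' * h) = F (g, g') := by
    intro g g' h hh
    have e := hF g g' h
    rw [(h0 h hh (g * g')).2, (h0 h hh g').2, zero_add, smul_zero, zero_add] at e
    exact e.symm
  have hiv : ∀ g : G, ∀ h ∈ H, ∀ g' : G, F (g, h * g') = F (g, g') := by
    intro g h hh g'
    have e : h * g' = g' * (g'⁻¹ * h * g') := by group
    rw [e]
    exact hiii g g' _ (fgO_conj_mem H hh g')
  have hv : ∀ g : G, ∀ h ∈ H, ∀ g' : G, F (g * h, g') = F (g, g') := by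
    intro g h hh g'
    rw [hii g h hh g', hiv g h hh g']
  have hvi : ∀ h ∈ H, ∀ g g' : G, F (h * g, g') = F (g, g') := by
    intro h hh g g'
    have e : h * g = g * (g⁻¹ * h * g) := by group
    rw [e]
    exact hv g _ (fgO_conj_mem H hh g) g'
  refine ⟨fun g g' s hs s' hs' => ?_, fun g g' s hs => ?_⟩
  · rw [hv g s hs, hiii g g' s' hs']
  · rw [← hi s hs g g', hvi s hs g g']

/-- **Inflation-restriction in degree 2, exactness in the middle, with level.** -/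
theorem fgO_mid_core (hMH : M ≤ H)
    (h90 : ∀ w : G → A, (∀ k ∈ H, ∀ k' ∈ H, w (k * k') = k • w k' + w k) →
      (∀ k ∈ H, ∀ n ∈ M, w (k * n) = w k) → ∃ x : A, ∀ k ∈ H, k • x - x = w k)
    (F : G × G → A) (hF : IsCocycle₂ F)
    (hFM : ∀ g h : G, ∀ n ∈ M, ∀ n' ∈ M, F (g * n, h * n') = F (g, h))
    (ψ : G → A) (hψM : ∀ k ∈ H, ∀ n ∈ M, ψ (k * n) = ψ k)
    (hψ : ∀ k ∈ H, ∀ k' ∈ H, k • ψ k' - ψ (k * k') + ψ k = F (k, k')) :
    ∃ (F' : G × G → A) (b : G → A), IsCocycle₂ F' ∧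
      (∀ g h : G, ∀ s ∈ H, ∀ s' ∈ H, F' (g * s, h * s') = F' (g, h)) ∧
      (∀ g h : G, ∀ s ∈ H, s • F' (g, h) = F' (g, h)) ∧
      (∀ g : G, ∀ n ∈ M, b (g * n) = b g) ∧
      ∀ g h : G, g • b h - b (g * h) + b g = F (g, h) - F' (g, h) := by
  have hP : fgO_P2 M F := fgO_P2_of_cocycle M hF hFM
  obtain ⟨φ₀, hφ₀, h₀⟩ := fgO_stepA1 H M hMH F hF hP ψ hψM hψ
  have hF₀ : IsCocycle₂ (fun p => F p - fgI_dd φ₀ p) := fgI_isCocycle₂_sub_dd hF φ₀
  have hP₀ : fgO_P2 M (fun p => F p - fgI_dd φ₀ p) := fgO_P2_sub M hP (fgO_P2_dd M hφ₀)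
  obtain ⟨φ₁, hφ₁, h₁⟩ := fgO_stepA2 H M hMH _ hF₀ hP₀ h₀
  have hF₁ : IsCocycle₂ (fun p => (F p - fgI_dd φ₀ p) - fgI_dd φ₁ p) :=
    fgI_isCocycle₂_sub_dd hF₀ φ₁
  have hP₁ : fgO_P2 M (fun p => (F p - fgI_dd φ₀ p) - fgI_dd φ₁ p) :=
    fgO_P2_sub M hP₀ (fgO_P2_dd M hφ₁)
  obtain ⟨φ₂, hφ₂, h₂⟩ := fgO_stepB H M hMH h90 _ hF₁ hP₁ h₁
  have hF₂ : IsCocycle₂ (fun p => ((F p - fgI_dd φ₀ p) - fgI_dd φ₁ p) - fgI_dd φ₂ p) :=
    fgI_isCocycle₂_sub_dd hF₁ φ₂
  obtain ⟨hC1, hC2⟩ := fgO_stepC H _ hF₂ h₂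
  refine ⟨_, fun g => φ₀ g + φ₁ g + φ₂ g, hF₂, hC1, hC2, ?_, fun g h => ?_⟩
  · exact (fgO_P1_add M (fgO_P1_add M hφ₀ hφ₁) hφ₂).1
  · simp only [fgI_dd_apply, smul_add]
    abel

end Steps

end Fermat.Agent.S55
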