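import Fermat.Agent.S55.FG.InfRes2Mid

/-!
# S55 finite-group toolkit: restriction and inflation on `fg_H2`, counting

* `fgC_resZ K`, `fgC_resHom K : fg_H2 G A →+ fg_H2 K A`   (restriction to a subgroup)
* `fgC_infZ D`, `fgC_infHom D : fg_H2 Q B →+ fg_H2 G A`   (inflation)
* `fgC_infHom_injective`, `fgC_ker_resHom` (inflation-restriction exact sequence in degree 2
  when `H¹(H, A) = 0`)
* `fgC_card : fgI_CardStatement`, `fgC_card_eq`
* transport of `fg_H2` along isomorphisms of pairs (group, module): `fgC_H2Equiv`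
-/

set_option linter.unusedSectionVars false
set_option linter.unusedVariables false
set_option linter.style.longLine false

namespace Fermat.Agent.S55

open groupCohomology

section Res

variable {G : Type*} [Group G] {A : Type*} [AddCommGroup A] [DistribMulAction G A]

theorem fgC_isCocycle₂_res (K : Subgroup G) {F : G × G → A} (hF : IsCocycle₂ F) :
    IsCocycle₂ (fg_res₂ K F) := fun g h j => hF (g : G) (h : G) (j : G)

theorem fgC_isCoboundary₂_res (K : Subgroup G) {F : G × G → A} (hF : IsCoboundary₂ F) :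
    IsCoboundary₂ (fg_res₂ K F) := by
  obtain ⟨x, hx⟩ := hF
  exact ⟨fun k => x (k : G), fun g h => hx (g : G) (h : G)⟩

/-- Restriction of 2-cocycles to a subgroup. -/
def fgC_resZ (K : Subgroup G) : fg_Z2 G A →+ fg_Z2 K A where
  toFun F := ⟨fg_res₂ K (F : G × G → A), fgC_isCocycle₂_res K F.2⟩
  map_zero' := rfl
  map_add' _ _ := rfl

theorem fgC_resZ_coe (K : Subgroup G) (F : fg_Z2 G A) :
    ((fgC_resZ K F : fg_Z2 K A) : K × K → A) = fg_res₂ K (F : G × G → A) := rfl

/-- Restriction `H²(G, A) → H²(K, A)`. -/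
def fgC_resHom (K : Subgroup G) : fg_H2 G A →+ fg_H2 K A :=
  QuotientAddGroup.map _ _ (fgC_resZ K) (by
    intro F hF
    rw [AddSubgroup.mem_comap, AddSubgroup.mem_addSubgroupOf]
    rw [AddSubgroup.mem_addSubgroupOf] at hF
    exact fgC_isCoboundary₂_res K hF)

theorem fgC_resHom_mk (K : Subgroup G) (F : fg_Z2 G A) :
    fgC_resHom K (fg_H2mk G A F) = fg_H2mk K A (fgC_resZ K F) := rfl

end Res

section Inf

variable {G Q A B : Type*} [Group G] [Group Q] [AddCommGroup A] [AddCommGroup B]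
  [DistribMulAction G A] [DistribMulAction Q B]

theorem fgC_isCocycle₂_inf (D : fgI_InfData G Q A B) {f : Q × Q → B} (hf : IsCocycle₂ f) :
    IsCocycle₂ (fgI_inf₂ D f) := by
  intro g h j
  have e := hf (D.π g) (D.π h) (D.π j)
  simp only [fgI_inf₂_apply, map_mul]
  rw [← map_add, e, map_add, D.ι_smul]

theorem fgC_isCoboundary₂_inf (D : fgI_InfData G Q A B) {f : Q × Q → B}
    (hf : IsCoboundary₂ f) : IsCoboundary₂ (fgI_inf₂ D f) := by
  obtain ⟨x, hx⟩ := hf
  refine ⟨fun g => D.ι (x (D.π g)), fun g h => ?_⟩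
  show g • D.ι (x (D.π h)) - D.ι (x (D.π (g * h))) + D.ι (x (D.π g)) = _
  rw [fgI_inf₂_apply, ← hx, map_add, map_sub, D.ι_smul, map_mul]

/-- Inflation of 2-cocycles. -/
def fgC_infZ (D : fgI_InfData G Q A B) : fg_Z2 Q B →+ fg_Z2 G A where
  toFun f := ⟨fgI_inf₂ D (f : Q × Q → B), fgC_isCocycle₂_inf D f.2⟩
  map_zero' := by
    apply Subtype.ext
    funext p
    show D.ι 0 = 0
    exact map_zero _
  map_add' f f' := by
    apply Subtype.ext
    funext p
    show D.ι (_ + _) = D.ι _ + D.ι _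
    exact map_add _ _ _

theorem fgC_infZ_coe (D : fgI_InfData G Q A B) (f : fg_Z2 Q B) :
    ((fgC_infZ D f : fg_Z2 G A) : G × G → A) = fgI_inf₂ D (f : Q × Q → B) := rfl

/-- Inflation `H²(Q, B) → H²(G, A)`. -/
def fgC_infHom (D : fgI_InfData G Q A B) : fg_H2 Q B →+ fg_H2 G A :=
  QuotientAddGroup.map _ _ (fgC_infZ D) (by
    intro f hf
    rw [AddSubgroup.mem_comap, AddSubgroup.mem_addSubgroupOf]
    rw [AddSubgroup.mem_addSubgroupOf] at hf
    exact fgC_isCoboundary₂_inf D hf)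

theorem fgC_infHom_mk (D : fgI_InfData G Q A B) (f : fg_Z2 Q B) :
    fgC_infHom D (fg_H2mk Q B f) = fg_H2mk G A (fgC_infZ D f) := rfl

/-- Inflation is injective on `H²` when `H¹(H, A) = 0`. -/
theorem fgC_infHom_injective (D : fgI_InfData G Q A B) (h1 : fg_H1Zero D.π.ker A) :
    Function.Injective (fgC_infHom D) := by
  rw [injective_iff_map_eq_zero]
  intro x hx
  obtain ⟨f, rfl⟩ := fg_H2mk_surjective x
  rw [fgC_infHom_mk, fg_H2mk_eq_zero_iff] at hx
  rw [fg_H2mk_eq_zero_iff]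
  exact fgI_inj_aux D h1 _ f.2 hx

/-- Restriction after inflation is zero. -/
theorem fgC_res_inf (D : fgI_InfData G Q A B) (x : fg_H2 Q B) :
    fgC_resHom D.π.ker (fgC_infHom D x) = 0 := by
  obtain ⟨f, rfl⟩ := fg_H2mk_surjective x
  rw [fgC_infHom_mk, fgC_resHom_mk, fg_H2mk_eq_zero_iff]
  -- the restriction of an inflated cocycle is the constant `ι (f (1,1))`
  refine ⟨fun _ => D.ι ((f : Q × Q → B) (1, 1)), fun k k' => ?_⟩
  have hk : D.π (k : G) = 1 := MonoidHom.mem_ker.1 k.2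
  have hk' : D.π (k' : G) = 1 := MonoidHom.mem_ker.1 k'.2
  show (k : G) • D.ι _ - D.ι _ + D.ι _ = D.ι ((f : Q × Q → B) (D.π (k : G), D.π (k' : G)))
  rw [hk, hk', fgI_smul_ι D hk]
  abel

/-- Exactness in the middle: the kernel of restriction is the image of inflation. -/
theorem fgC_ker_resHom (D : fgI_InfData G Q A B) (h1 : fg_H1Zero D.π.ker A) :
    (fgC_resHom D.π.ker : fg_H2 G A →+ fg_H2 D.π.ker A).ker = (fgC_infHom D).range := by
  apply le_antisymm
  · intro x hx
    rw [AddMonoidHom.mem_ker] at hx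
    obtain ⟨F, rfl⟩ := fg_H2mk_surjective x
    rw [fgC_resHom_mk, fg_H2mk_eq_zero_iff] at hx
    obtain ⟨f, hf, hfF⟩ := fgI_mid_aux D h1 _ F.2 hx
    refine ⟨fg_H2mk Q B ⟨f, hf⟩, ?_⟩
    rw [fgC_infHom_mk]
    symm
    rw [← sub_eq_zero, ← map_sub, fg_H2mk_eq_zero_iff]
    exact hfF
  · rintro x ⟨y, rfl⟩
    exact AddMonoidHom.mem_ker.2 (fgC_res_inf D y)

/-- Counting form of inflation-restriction. -/
theorem fgC_card_eq (D : fgI_InfData G Q A B) (h1 : fg_H1Zero D.π.ker A) :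
    Nat.card (fg_H2 G A) = Nat.card (fg_H2 Q B) *
      Nat.card (fgC_resHom D.π.ker : fg_H2 G A →+ fg_H2 D.π.ker A).range := by
  have e1 := AddSubgroup.card_eq_card_quotient_mul_card_addSubgroup
    (fgC_resHom D.π.ker : fg_H2 G A →+ fg_H2 D.π.ker A).ker
  have e2 : Nat.card (fg_H2 G A ⧸ (fgC_resHom D.π.ker : fg_H2 G A →+ fg_H2 D.π.ker A).ker)
      = Nat.card (fgC_resHom D.π.ker : fg_H2 G A →+ fg_H2 D.π.ker A).range :=
    Nat.card_congr (QuotientAddGroup.quotientKerEquivRange _).toEquiv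
  have e3 : Nat.card (fgC_resHom D.π.ker : fg_H2 G A →+ fg_H2 D.π.ker A).ker
      = Nat.card (fg_H2 Q B) := by
    rw [fgC_ker_resHom D h1]
    exact (Nat.card_congr
      (AddMonoidHom.ofInjective (fgC_infHom_injective D h1)).toEquiv).symm
  rw [e1, e2, e3, mul_comm]

theorem fgC_card_aux (D : fgI_InfData G Q A B) (h1 : fg_H1Zero D.π.ker A) :
    Nat.card (fg_H2 G A) ∣ Nat.card (fg_H2 Q B) * Nat.card (fg_H2 D.π.ker A) := by
  rw [fgC_card_eq D h1]
  exact Nat.mul_dvd_mul_left _ (AddSubgroup.card_addSubgroup_dvd_card _)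

theorem fgC_card : fgI_CardStatement :=
  fun _ _ _ _ _ _ _ _ _ _ D h1 => fgC_card_aux D h1

end Inf

end Fermat.Agent.S55
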