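import Fermat.Agent.S55.FG.Defs2

/-!
# S55 finite-group toolkit: inflation-restriction in degree 2 (elementwise)

For an inflation situation `D : fgI_InfData G Q A B` (so `Q = G / H`, `B = A^H`) with
`H¹(H, A) = 0` we prove, by explicit cochain normalisations (no spectral sequence, no dimension
shifting, no finiteness):

* `fgI_inj : fgI_InjStatement` — inflation `H²(Q, A^H) → H²(G, A)` is injective;
* `fgI_mid : fgI_MidStatement` — a class of `H²(G, A)` that dies in `H²(H, A)` is inflated.
-/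

set_option linter.unusedSectionVars false
set_option linter.unusedVariables false
set_option linter.style.longLine false

namespace Fermat.Agent.S55

open groupCohomology

section Basic

variable {G : Type*} [Group G] {A : Type*} [AddCommGroup A] [DistribMulAction G A]

/-- The coboundary of a 1-cochain. -/
def fgI_dd (φ : G → A) : G × G → A := fun p => p.1 • φ p.2 - φ (p.1 * p.2) + φ p.1

theorem fgI_dd_apply (φ : G → A) (g h : G) : fgI_dd φ (g, h) = g • φ h - φ (g * h) + φ g := rfl

theorem fgI_isCoboundary₂_dd (φ : G → A) : IsCoboundary₂ (fgI_dd φ) := ⟨φ, fun _ _ => rfl⟩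

theorem fgI_isCocycle₂_dd (φ : G → A) : IsCocycle₂ (fgI_dd φ) := by
  intro g h j
  simp only [fgI_dd_apply, smul_add, smul_sub, mul_smul, mul_assoc]
  abel

theorem fgI_isCocycle₂_sub {F F' : G × G → A} (hF : IsCocycle₂ F) (hF' : IsCocycle₂ F') :
    IsCocycle₂ (fun p => F p - F' p) := by
  have := (fg_Z2 G A).sub_mem (fg_mem_Z2.2 hF) (fg_mem_Z2.2 hF')
  exact this

theorem fgI_isCocycle₂_sub_dd {F : G × G → A} (hF : IsCocycle₂ F) (φ : G → A) :
    IsCocycle₂ (fun p => F p - fgI_dd φ p) :=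
  fgI_isCocycle₂_sub hF (fgI_isCocycle₂_dd φ)

end Basic

section Inf

variable {G Q A B : Type*} [Group G] [Group Q] [AddCommGroup A] [AddCommGroup B]
  [DistribMulAction G A] [DistribMulAction Q B]

theorem fgI_inf₂_apply (D : fgI_InfData G Q A B) (f : Q × Q → B) (g h : G) :
    fgI_inf₂ D f (g, h) = D.ι (f (D.π g, D.π h)) := rfl

/-- Elements in the image of `ι` are invariant under the kernel of `π`. -/
theorem fgI_smul_ι (D : fgI_InfData G Q A B) {h : G} (hh : D.π h = 1) (b : B) :
    h • D.ι b = D.ι b := by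
  rw [← D.ι_smul, hh, one_smul]

/-- The chosen coset representative of `g`. -/
noncomputable def fgI_t (D : fgI_InfData G Q A B) (g : G) : G :=
  Function.surjInv D.π_surj (D.π g)

/-- The kernel part of `g` with respect to the chosen coset representative. -/
noncomputable def fgI_r (D : fgI_InfData G Q A B) (g : G) : G := g * (fgI_t D g)⁻¹

theorem fgI_π_t (D : fgI_InfData G Q A B) (g : G) : D.π (fgI_t D g) = D.π g :=
  Function.surjInv_eq D.π_surj (D.π g)

theorem fgI_π_r (D : fgI_InfData G Q A B) (g : G) : D.π (fgI_r D g) = 1 := by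
  unfold fgI_r
  rw [map_mul, map_inv, fgI_π_t, mul_inv_cancel]

theorem fgI_r_mul_t (D : fgI_InfData G Q A B) (g : G) : fgI_r D g * fgI_t D g = g := by
  unfold fgI_r
  rw [inv_mul_cancel_right]

theorem fgI_t_eq (D : fgI_InfData G Q A B) {g g' : G} (h : D.π g = D.π g') :
    fgI_t D g = fgI_t D g' := by
  unfold fgI_t
  rw [h]

theorem fgI_t_mul (D : fgI_InfData G Q A B) {h : G} (hh : D.π h = 1) (g : G) :
    fgI_t D (h * g) = fgI_t D g :=
  fgI_t_eq D (by rw [map_mul, hh, one_mul])

theorem fgI_r_mul (D : fgI_InfData G Q A B) {h : G} (hh : D.π h = 1) (g : G) :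
    fgI_r D (h * g) = h * fgI_r D g := by
  unfold fgI_r
  rw [fgI_t_mul D hh, mul_assoc]

theorem fgI_π_conj (D : fgI_InfData G Q A B) {h : G} (hh : D.π h = 1) (g : G) :
    D.π (g * h * g⁻¹) = 1 := by
  rw [map_mul, map_mul, hh, mul_one, map_inv, mul_inv_cancel]

theorem fgI_π_conj' (D : fgI_InfData G Q A B) {h : G} (hh : D.π h = 1) (g : G) :
    D.π (g⁻¹ * h * g) = 1 := by
  rw [map_mul, map_mul, hh, mul_one, map_inv, inv_mul_cancel]

/-- **Injectivity of inflation in degree 2** when `H¹(H, A) = 0`. -/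
theorem fgI_inj_aux (D : fgI_InfData G Q A B) (h1 : fg_H1Zero D.π.ker A)
    (f : Q × Q → B) (hf : IsCocycle₂ f) (hb : IsCoboundary₂ (fgI_inf₂ D f)) :
    IsCoboundary₂ f := by
  obtain ⟨φ, hφ⟩ := hb
  simp only [fgI_inf₂_apply] at hφ
  set c : A := D.ι (f (1, 1)) with hc
  have hcinv : ∀ h : G, D.π h = 1 → h • c = c := fun h hh => fgI_smul_ι D hh _
  -- the restriction of `φ - c` to the kernel is a 1-cocycle
  have hψ : IsCocycle₁ (fun k : D.π.ker => φ (k : G) - c) := by
    intro k k'
    have hk : D.π (k : G) = 1 := MonoidHom.mem_ker.1 k.2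
    have hk' : D.π (k' : G) = 1 := MonoidHom.mem_ker.1 k'.2
    have e := hφ (k : G) (k' : G)
    rw [hk, hk', ← hc] at e
    have e2 : (k : G) • φ (k' : G) = c + φ ((k : G) * (k' : G)) - φ (k : G) := by
      rw [← e]; abel
    show φ (((k * k' : D.π.ker) : G)) - c = (k : G) • (φ (k' : G) - c) + (φ (k : G) - c)
    rw [Subgroup.coe_mul, smul_sub, hcinv _ hk, e2]
    abel
  obtain ⟨x, hx⟩ := h1 _ hψ
  have hx' : ∀ h : G, D.π h = 1 → φ h = h • x - x + c := by
    intro h hh
    have := hx ⟨h, MonoidHom.mem_ker.2 hh⟩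
    have e : h • x - x = φ h - c := this
    rw [e]; abel
  -- the normalised cochain
  set φ2 : G → A := fun g => φ g - (g • x - x) - c with hφ2def
  have hφ2 : ∀ g h : G, g • φ2 h - φ2 (g * h) + φ2 g = D.ι (f (D.π g, D.π h)) - g • c := by
    intro g h
    rw [← hφ g h]
    simp only [hφ2def, smul_sub, mul_smul]
    abel
  have hker : ∀ h : G, D.π h = 1 → φ2 h = 0 := by
    intro h hh
    simp only [hφ2def, hx' h hh]
    abel
  have hf1 : ∀ q : Q, f (q, 1) = q • f (1, 1) := fun q => map_one_snd_of_isCocycle₂ hf q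
  have hf2 : ∀ q : Q, f (1, q) = f (1, 1) := fun q => map_one_fst_of_isCocycle₂ hf q
  have hr : ∀ g h : G, D.π h = 1 → φ2 (g * h) = φ2 g := by
    intro g h hh
    have e := hφ2 g h
    rw [hker h hh, smul_zero, hh, hf1, D.ι_smul, ← hc, sub_self, zero_sub] at e
    have : φ2 (g * h) = φ2 g - (-φ2 (g * h) + φ2 g) := by abel
    rw [this, e, sub_zero]
  have hl : ∀ g h : G, D.π h = 1 → φ2 (h * g) = h • φ2 g := by
    intro g h hh
    have e := hφ2 h g
    rw [hker h hh, add_zero, hh, hf2, ← hc, hcinv h hh, sub_self] at e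
    exact (sub_eq_zero.1 e).symm
  have hinv : ∀ g h : G, D.π h = 1 → h • φ2 g = φ2 g := by
    intro g h hh
    rw [← hl g h hh]
    have : h * g = g * (g⁻¹ * h * g) := by group
    rw [this]
    exact hr g _ (fgI_π_conj' D hh g)
  have hfac : ∀ g g' : G, D.π g = D.π g' → φ2 g = φ2 g' := by
    intro g g' hgg
    have : g' = g * (g⁻¹ * g') := by group
    rw [this]
    refine (hr g _ ?_).symm
    rw [map_mul, map_inv, hgg, inv_mul_cancel]
  choose β hβ using fun g => D.ι_range (φ2 g) (fun h hh => hinv g h hh)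
  refine ⟨fun q => β (Function.surjInv D.π_surj q) + f (1, 1), fun q q' => ?_⟩
  apply D.ι_inj
  set g := Function.surjInv D.π_surj q with hg
  set g' := Function.surjInv D.π_surj q' with hg'
  have hπg : D.π g = q := Function.surjInv_eq D.π_surj q
  have hπg' : D.π g' = q' := Function.surjInv_eq D.π_surj q'
  have e1 : D.ι (β (Function.surjInv D.π_surj (q * q'))) = φ2 (g * g') := by
    rw [hβ]
    apply hfac
    rw [Function.surjInv_eq D.π_surj, map_mul, hπg, hπg']
  have e2 := hφ2 g g'
  rw [hπg, hπg'] at e2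
  have e3 : D.ι (q • (β g' + f (1, 1))) = g • φ2 g' + g • c := by
    rw [← hπg, D.ι_smul, map_add, hβ, smul_add]
  rw [map_add, map_sub, e3, map_add, e1, map_add, hβ, ← hc]
  have : D.ι (f (q, q')) = (D.ι (f (q, q')) - g • c) + g • c := by abel
  rw [this, ← e2]
  abel

theorem fgI_inj : fgI_InjStatement :=
  fun _ _ _ _ _ _ _ _ _ _ D h1 f hf hb => fgI_inj_aux D h1 f hf hb

end Inf

end Fermat.Agent.S55
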