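import Fermat.Agent.S55.FG.Defs2

/-!
# S55 finite-group toolkit, part 3: elementwise 3-cocycles

* `fg_IsCocycle₃`, `fg_IsCoboundary₃` : inhomogeneous 3-cocycles and 3-coboundaries of a group
  `G` acting on `A` (the elementwise reading of Mathlib's `d₂₃` and of the differential
  `C³ → C⁴`; same convention as `pt_IsCocycle₃` of `S55/PTDev.lean`)
* `fg_H3Zero K A` : `H³(K, A) = 0`
* `fg_res₃`
* interface statements `fgH_Up2Statement`, `fgH_TwinStatement`, `fgH_H3Statement`
-/

namespace Fermat.Agent.S55

open groupCohomology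

section Defs

variable {G A : Type*} [Mul G] [AddCommGroup A] [SMul G A]

/-- A function `f : G × G × G → A` satisfies the 3-cocycle condition. -/
def fg_IsCocycle₃ (f : G × G × G → A) : Prop :=
  ∀ g h j k : G,
    g • f (h, j, k) - f (g * h, j, k) + f (g, h * j, k) - f (g, h, j * k) + f (g, h, j) = 0

/-- A function `f : G × G × G → A` is the coboundary of a 2-cochain. -/
def fg_IsCoboundary₃ (f : G × G × G → A) : Prop :=
  ∃ y : G × G → A, ∀ g h j : G,
    g • y (h, j) - y (g * h, j) + y (g, h * j) - y (g, h) = f (g, h, j)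

end Defs

section Sub

variable {G : Type*} [Group G] (K : Subgroup G) (A : Type*) [AddCommGroup A]
  [DistribMulAction G A]

/-- `H³(K, A) = 0`: every 3-cocycle of `K` is a coboundary. -/
def fg_H3Zero : Prop :=
  ∀ f : K × K × K → A, fg_IsCocycle₃ f → fg_IsCoboundary₃ f

variable {A} in
/-- Restriction of a 3-cochain of `G` to a subgroup. -/
def fg_res₃ (f : G × G × G → A) : K × K × K → A :=
  fun p => f ((p.1 : G), (p.2.1 : G), (p.2.2 : G))

end Sub

section Statements

universe u v

/-- (FG-H, up 2) If `Ĥ⁰(K, A) = H¹(K, A) = 0` for all subgroups `K` of the finite group `G`,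
then `H²(K, A) = 0` for all subgroups `K`. -/
def fgH_Up2Statement : Prop :=
  ∀ (G : Type u) [Group G] [Finite G] (A : Type v) [AddCommGroup A] [DistribMulAction G A],
    (∀ K : Subgroup G, fg_H0Zero K A ∧ fg_H1Zero K A) →
    ∀ K : Subgroup G, fg_H2Zero K A

/-- (FG-H, twin criterion) If `H¹(K, A) = H²(K, A) = 0` for all subgroups `K` of the finite
group `G`, then `H³(K, A) = 0` for all subgroups `K`. -/
def fgH_TwinStatement : Prop :=
  ∀ (G : Type u) [Group G] [Finite G] (A : Type v) [AddCommGroup A] [DistribMulAction G A],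
    (∀ K : Subgroup G, fg_H1Zero K A ∧ fg_H2Zero K A) →
    ∀ K : Subgroup G, fg_H3Zero K A

/-- (FG-H3) Tate's theorem in degree `1 → 3`: under `fg_TateHyp a` one has `H³(K, A) = 0` for
every subgroup `K` (because `H³(K, A) ≅ H¹(K, ℤ) = 0`). -/
def fgH_H3Statement : Prop :=
  ∀ (G : Type u) [Group G] [Finite G] (A : Type v) [AddCommGroup A] [DistribMulAction G A]
    (a : G × G → A), fg_TateHyp a → ∀ K : Subgroup G, fg_H3Zero K A

end Statements

end Fermat.Agent.S55
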