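import Fermat.Agent.S55.FG.Split

set_option linter.style.haveILetI false
set_option linter.unusedSectionVars false

/-!
# S55 finite-group toolkit: `H¹ = H² = 0` for the splitting module

Under the hypotheses of Tate's theorem the splitting module `A(a)` has
`H¹(K, A(a)) = H²(K, A(a)) = 0` for every subgroup `K`.
-/

namespace Fermat.Agent.S55

open groupCohomology

section General

variable {K : Type*} [Group K] {M : Type*} [AddCommGroup M] [DistribMulAction K M]

/-- Coboundaries of 1-cochains are 2-cocycles. -/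
theorem fgG_isCocycle₂_d (φ : K → M) :
    IsCocycle₂ (fun p : K × K => p.1 • φ p.2 - φ (p.1 * p.2) + φ p.1) := by
  intro g h j
  simp only [smul_add, smul_sub, mul_smul, mul_assoc]
  abel

/-- Coboundaries of 0-cochains are 1-cocycles. -/
theorem fgG_isCocycle₁_d (y : M) : IsCocycle₁ (fun k : K => k • y - y) := by
  intro g h
  simp only [smul_sub, mul_smul]
  abel

end General

variable {G : Type*} [Group G] [Fintype G] {A : Type*} [AddCommGroup A] [DistribMulAction G A]
  {a : G × G → A} {ha : IsCocycle₂ a}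

theorem fgG_smul_incl_sub (K : Subgroup G) (k : K) (c : A) :
    k • (fgG_Split.incl c : fgG_Split a ha) = fgG_Split.incl (k • c) :=
  fgG_Split.smul_incl (k : G) c

theorem fgG_snd_smul_sub (K : Subgroup G) (k : K) (x : fgG_Split a ha) :
    (k • x).snd = k • x.snd := rfl

theorem fgG_smul_xel_sub (K : Subgroup G) (g h : K) :
    g • (fgG_Split.xel (h : G) : fgG_Split a ha) =
      fgG_Split.xel ((g * h : K) : G) - fgG_Split.xel (g : G) +
        fgG_Split.incl (a ((g : G), (h : G))) :=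
  fgG_Split.smul_xel (g : G) (h : G)

/-- `H²(K, A(a)) = 0` when `H²(K, A)` is generated by the class of `a`. -/
theorem fgG_split_H2 (K : Subgroup G)
    (hgen : ∀ f : K × K → A, IsCocycle₂ f →
      ∃ m : ℤ, IsCoboundary₂ (fun p => f p - m • fg_res₂ K a p)) :
    fgF_H2T K (fgG_Split a ha) := by
  intro F hF
  -- the component in `I_G`
  have hF2 : IsCocycle₂ (fun p : K × K => (F p).snd) := by
    intro g h j
    have := congrArg fgG_Split.snd (hF g h j)
    simpa [fgG_snd_smul_sub] using this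
  obtain ⟨ψ, hψ⟩ := fgG_I_H2 K _ hF2
  let ψt : K → fgG_Split a ha := fun k => fgG_Split.mk 0 (ψ k)
  let F' : K × K → fgG_Split a ha := fun p => F p - (p.1 • ψt p.2 - ψt (p.1 * p.2) + ψt p.1)
  have hF'def : ∀ g h : K, F' (g, h) = F (g, h) - (g • ψt h - ψt (g * h) + ψt g) :=
    fun g h => rfl
  have hF'snd : ∀ p : K × K, (F' p).snd = 0 := by
    rintro ⟨g, h⟩
    rw [hF'def]
    have := hψ g h
    simp only [fgG_Split.snd_sub, fgG_Split.snd_add, fgG_snd_smul_sub, ψt, fgG_Split.snd_mk]
    rw [this]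
    exact sub_self _
  have hF'coc : IsCocycle₂ F' := by
    intro g h j
    have h1 := hF g h j
    have h2 := fgG_isCocycle₂_d ψt g h j
    simp only at h2
    rw [hF'def, hF'def, hF'def, hF'def, smul_sub]
    rw [show F (g * h, j) - (((g * h) • ψt j - ψt (g * h * j) + ψt (g * h))) +
        (F (g, h) - (g • ψt h - ψt (g * h) + ψt g)) =
        (F (g * h, j) + F (g, h)) - ((((g * h) • ψt j - ψt (g * h * j) + ψt (g * h))) +
        (g • ψt h - ψt (g * h) + ψt g)) from by abel, h1, h2]
    abel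
  let c : K × K → A := fun p => (F' p).fst
  have hF'c : ∀ p : K × K, F' p = fgG_Split.incl (c p) := fun p =>
    fgG_Split.eq_incl_of_snd_eq_zero _ (hF'snd p)
  have hc : IsCocycle₂ c := by
    intro g h j
    apply fgG_Split.incl_injective (a := a) (ha := ha)
    have := hF'coc g h j
    rw [hF'c, hF'c, hF'c, hF'c, fgG_smul_incl_sub] at this
    rw [fgG_Split.incl_add, fgG_Split.incl_add]
    exact this
  obtain ⟨m, χ, hχ⟩ := hgen c hc
  refine ⟨fun k => ψt k + m • fgG_Split.xel (k : G) + fgG_Split.incl (χ k), fun g h => ?_⟩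
  have e1 : F (g, h) = F' (g, h) + (g • ψt h - ψt (g * h) + ψt g) := by
    rw [hF'def]; abel
  have e2 : F' (g, h) = fgG_Split.incl (g • χ h - χ (g * h) + χ g) +
      m • fgG_Split.incl (a ((g : G), (h : G))) := by
    rw [hF'c, hχ g h, ← fgG_Split.incl_zsmul, ← fgG_Split.incl_add]
    congr 1
    show c (g, h) = c (g, h) - m • a ((g : G), (h : G)) + m • a ((g : G), (h : G))
    abel
  rw [e1, e2, smul_add, smul_add, smul_comm g m, fgG_smul_xel_sub, fgG_smul_incl_sub,
    fgG_Split.incl_add, fgG_Split.incl_sub, smul_add, smul_sub]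
  simp only [Subgroup.coe_mul]
  abel

/-- `H¹(K, A(a)) = 0` when `H¹(K, A) = 0` and the class of `a` in `H²(K, A)` has order
divisible by `|K|`. -/
theorem fgG_split_H1 (K : Subgroup G) (h1 : fgF_H1T K A)
    (hord : ∀ m : ℤ, IsCoboundary₂ (fun p : K × K => m • fg_res₂ K a p) →
      (Nat.card K : ℤ) ∣ m) :
    fgF_H1T K (fgG_Split a ha) := by
  intro Φ hΦ
  have hφ : IsCocycle₁ (fun k : K => (Φ k).snd) := by
    intro g h
    have := congrArg fgG_Split.snd (hΦ g h)
    simpa [fgG_snd_smul_sub] using this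
  obtain ⟨m, y, hy⟩ := fgG_I_H1 K _ hφ
  -- Step 1: `|K|` divides `m`
  have hdiv : (Nat.card K : ℤ) ∣ m := by
    let Y : fgG_Split a ha := fgG_Split.mk 0 y
    let Ψ : K → fgG_Split a ha := fun k => Φ k - (k • Y - Y) - m • fgG_Split.xel (k : G)
    have hΨdef : ∀ k, Ψ k = Φ k - (k • Y - Y) - m • fgG_Split.xel (k : G) := fun k => rfl
    have hΨsnd : ∀ k, (Ψ k).snd = 0 := by
      intro k
      rw [hΨdef]
      simp only [fgG_Split.snd_sub, fgG_Split.snd_zsmul, fgG_snd_smul_sub, Y, fgG_Split.snd_mk,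
        fgG_Split.snd_xel]
      rw [hy k]
      abel
    let c : K → A := fun k => (Ψ k).fst
    have hΨc : ∀ k, Ψ k = fgG_Split.incl (c k) := fun k =>
      fgG_Split.eq_incl_of_snd_eq_zero _ (hΨsnd k)
    have hrel : ∀ g h : K, g • Ψ h - Ψ (g * h) + Ψ g =
        (-m) • fgG_Split.incl (a ((g : G), (h : G))) := by
      intro g h
      have e1 := hΦ g h
      have e2 := fgG_isCocycle₁_d (K := K) Y g h
      simp only at e2
      rw [hΨdef, hΨdef, hΨdef, e1, e2, smul_sub, smul_sub, smul_comm g m, fgG_smul_xel_sub,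
        smul_sub, neg_smul, smul_add, smul_sub]
      simp only [Subgroup.coe_mul]
      abel
    apply (Int.dvd_neg).1
    apply hord (-m)
    refine ⟨c, fun g h => ?_⟩
    apply fgG_Split.incl_injective (a := a) (ha := ha)
    have := hrel g h
    rw [hΨc, hΨc, hΨc, fgG_smul_incl_sub] at this
    rw [fgG_Split.incl_add, fgG_Split.incl_sub]
    rw [this, ← fgG_Split.incl_zsmul]
    rfl
  obtain ⟨m', rfl⟩ := hdiv
  -- Step 2: the `I_G`-component of `Φ` is a coboundary
  let y' : fgG_I G := y + m' • fgG_u K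
  have hy' : ∀ k : K, (Φ k).snd = k • y' - y' := by
    intro k
    rw [hy k]
    show _ = k • (y + m' • fgG_u K) - (y + m' • fgG_u K)
    have := fgG_smul_u K k
    have e1 : ((Nat.card K : ℤ) * m') • fgG_d (k : G) = m' • (k • fgG_u K - fgG_u K) := by
      rw [this, ← mul_smul, mul_comm]
    rw [e1, smul_add, smul_comm k m' (fgG_u K), smul_sub]
    abel
  let Y' : fgG_Split a ha := fgG_Split.mk 0 y'
  let Ψ' : K → fgG_Split a ha := fun k => Φ k - (k • Y' - Y')
  have hΨ'def : ∀ k, Ψ' k = Φ k - (k • Y' - Y') := fun k => rfl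
  have hΨ'snd : ∀ k, (Ψ' k).snd = 0 := by
    intro k
    rw [hΨ'def]
    simp only [fgG_Split.snd_sub, fgG_snd_smul_sub, Y', fgG_Split.snd_mk]
    rw [hy' k]
    exact sub_self _
  let c' : K → A := fun k => (Ψ' k).fst
  have hΨ'c : ∀ k, Ψ' k = fgG_Split.incl (c' k) := fun k =>
    fgG_Split.eq_incl_of_snd_eq_zero _ (hΨ'snd k)
  have hc' : IsCocycle₁ c' := by
    intro g h
    apply fgG_Split.incl_injective (a := a) (ha := ha)
    rw [fgG_Split.incl_add, ← fgG_smul_incl_sub, ← hΨ'c, ← hΨ'c, ← hΨ'c, hΨ'def, hΨ'def, hΨ'def,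
      hΦ g h]
    have e2 := fgG_isCocycle₁_d (K := K) Y' g h
    simp only at e2
    rw [e2]
    simp only [smul_sub]
    abel
  obtain ⟨w, hw⟩ := h1 c' hc'
  refine ⟨Y' + fgG_Split.incl w, fun k => ?_⟩
  have e : Φ k = Ψ' k + (k • Y' - Y') := by rw [hΨ'def]; abel
  rw [e, hΨ'c, ← hw k, smul_add, fgG_smul_incl_sub, fgG_Split.incl_sub]
  abel

end Fermat.Agent.S55
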