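import Fermat.Agent.S55.FG.DownStep

set_option linter.style.haveILetI false
set_option linter.unusedSectionVars false

/-!
# S55 finite-group toolkit: `H¹ = H² = 0` for all subgroups implies `Ĥ⁰ = Ĥ⁻¹ = 0`

`fgF_down : fgF_DownStatement`.
-/

namespace Fermat.Agent.S55

open groupCohomology

universe u v

section Aux

variable {G : Type*} [Group G] {A : Type*} [AddCommGroup A] [DistribMulAction G A]

/-- The hypotheses for all subgroups of `G` pass to all subgroups of a subgroup. -/
theorem fgF_hyp_sub (hyp : ∀ K : Subgroup G, fgF_H1T K A ∧ fgF_H2T K A) (K : Subgroup G)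
    (K' : Subgroup K) : fgF_H1T K' A ∧ fgF_H2T K' A := by
  let e : K' ≃* (K'.map K.subtype) := K'.equivMapOfInjective K.subtype K.subtype_injective
  have he : ∀ (g : K') (a : A), e g • a = g • a := fun g a => rfl
  exact ⟨fgF_H1T_of_equiv e he (hyp _).1, fgF_H2T_of_equiv e he (hyp _).2⟩

theorem fgF_H1T_top (h : fgF_H1T (⊤ : Subgroup G) A) : fgF_H1T G A :=
  fgF_H1T_of_equiv (Subgroup.topEquiv (G := G)).symm (fun _ _ => rfl) h

theorem fgF_H2T_top (h : fgF_H2T (⊤ : Subgroup G) A) : fgF_H2T G A :=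
  fgF_H2T_of_equiv (Subgroup.topEquiv (G := G)).symm (fun _ _ => rfl) h

/-- The norm of `G` as an additive homomorphism. -/
noncomputable def fgF_normHom (G : Type*) [Group G] [Fintype G] (A : Type*) [AddCommGroup A]
    [DistribMulAction G A] : A →+ A :=
  ∑ g : G, DistribSMul.toAddMonoidHom A g

theorem fgF_normHom_apply [Fintype G] (w : A) : fgF_normHom G A w = ∑ g : G, g • w := by
  simp [fgF_normHom, AddMonoidHom.finsetSum_apply]

theorem fgF_trivial_case [Fintype G] (h1 : Nat.card G = 1) : fgF_H0T G A ∧ fgF_Hm1T G A := by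
  haveI : Subsingleton G := (Nat.card_eq_one_iff_unique.1 h1).1
  constructor
  · intro a _
    refine ⟨a, ?_⟩
    rw [finsum_eq_sum_of_fintype, Fintype.sum_subsingleton _ (1 : G), one_smul]
  · intro a ha
    rw [finsum_eq_sum_of_fintype, Fintype.sum_subsingleton _ (1 : G), one_smul] at ha
    rw [ha]
    exact AddSubgroup.zero_mem _

/-- A nontrivial finite `p`-group has a proper normal subgroup with cyclic quotient. -/
theorem fgF_exists_normal [Finite G] {p : ℕ} (hp : p.Prime) (hG : IsPGroup p G)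
    (h1 : Nat.card G ≠ 1) :
    ∃ H : Subgroup G, H.Normal ∧ H ≠ ⊤ ∧ Nonempty (fgF_CycData G H) := by
  haveI : Fact p.Prime := ⟨hp⟩
  obtain ⟨k, hk⟩ := hG.exists_card_eq
  have hk0 : k ≠ 0 := by
    rintro rfl
    exact h1 (by simpa using hk)
  obtain ⟨k', rfl⟩ : ∃ k', k = k' + 1 := ⟨k - 1, by omega⟩
  obtain ⟨H, hH⟩ := Sylow.exists_subgroup_card_pow_prime (G := G) p (n := k')
    (by rw [hk]; exact pow_dvd_pow p (Nat.le_succ k'))
  have hidx : H.index = p := by
    have := H.card_mul_index
    rw [hH, hk, pow_succ] at this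
    exact Nat.eq_of_mul_eq_mul_left (pow_pos hp.pos k') this
  have hnorm : H.Normal := by
    apply Subgroup.normal_of_index_eq_minFac_card
    rw [hidx, hk, hp.pow_minFac hk0]
  have hne : H ≠ ⊤ := by
    intro h
    rw [← Subgroup.index_eq_one, hidx] at h
    exact hp.one_lt.ne' h
  refine ⟨H, hnorm, hne, ?_⟩
  haveI := hnorm
  exact fgF_exists_cycData H
    (isCyclic_of_prime_card (p := p) (by rw [← Subgroup.index_eq_card, hidx])) hne

end Aux

/-- The descent for the whole group, by induction on the order. -/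
theorem fgF_down_T : ∀ (n : ℕ) (G : Type u) [Group G] [Finite G] (A : Type v) [AddCommGroup A]
    [DistribMulAction G A], Nat.card G = n →
    (∀ K : Subgroup G, fgF_H1T K A ∧ fgF_H2T K A) → fgF_H0T G A ∧ fgF_Hm1T G A := by
  intro n
  induction n using Nat.strong_induction_on with
  | _ n ih =>
  intro G _ _ A _ _ hcard hyp
  classical
  haveI : Fintype G := Fintype.ofFinite G
  -- proper subgroups
  have hsub : ∀ K : Subgroup G, K ≠ ⊤ → fgF_H0T K A ∧ fgF_Hm1T K A := by
    intro K hK
    have hlt : Nat.card K < n := by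
      rw [← hcard]
      refine lt_of_le_of_ne (Subgroup.card_le_card_group K) (fun h => hK ?_)
      exact Subgroup.eq_top_of_card_eq K h
    exact ih (Nat.card K) hlt K A rfl (fgF_hyp_sub hyp K)
  by_cases h1 : Nat.card G = 1
  · exact fgF_trivial_case h1
  by_cases hp : ∃ p : ℕ, p.Prime ∧ IsPGroup p G
  · -- the `p`-group case
    obtain ⟨p, hpp, hpG⟩ := hp
    obtain ⟨H, hnorm, hH, ⟨D⟩⟩ := fgF_exists_normal hpp hpG h1
    haveI := hnorm
    have hG1 : fgF_H1T G A := fgF_H1T_top (hyp ⊤).1
    have hG2 : fgF_H2T G A := fgF_H2T_top (hyp ⊤).2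
    exact ⟨fgF_cyc_H0 D hG2 (hyp H).1 (hsub H hH).1,
      fgF_cyc_Hm1 D hG1 (hsub H hH).1 (hsub H hH).2⟩
  · -- the Sylow case
    have hsyl : ∀ p : ℕ, p.Prime → ∃ P : Subgroup G, P ≠ ⊤ ∧ ¬ p ∣ P.index := by
      intro p hpp
      haveI : Fact p.Prime := ⟨hpp⟩
      obtain ⟨P⟩ := (inferInstance : Nonempty (Sylow p G))
      refine ⟨P, ?_, P.not_dvd_index⟩
      intro htop
      apply hp
      refine ⟨p, hpp, ?_⟩
      have hc := P.card_eq_multiplicity
      rw [htop, Subgroup.card_top] at hc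
      exact IsPGroup.of_card hc
    have hn0 : Nat.card G ≠ 0 := Nat.card_pos.ne'
    have hcardG : Nat.card G = Fintype.card G := Nat.card_eq_fintype_card
    constructor
    · intro a ha
      have key : a ∈ (fgF_normHom G A).range := by
        refine fgF_mem_of_coprime_multiples _ a (Nat.card G) hn0 ?_ ?_
        · refine ⟨a, ?_⟩
          rw [fgF_normHom_apply, Finset.sum_congr rfl (fun g _ => ha g), Finset.sum_const,
            Finset.card_univ, hcardG]
        · intro p hpp
          obtain ⟨P, hP, hpi⟩ := hsyl p hpp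
          refine ⟨P.index, hpi, ?_⟩
          obtain ⟨w, hw⟩ := fgF_index_smul_norm P (hsub P hP).1 a ha
          exact ⟨w, by rw [fgF_normHom_apply, hw]⟩
      obtain ⟨w, hw⟩ := key
      refine ⟨w, ?_⟩
      rw [finsum_eq_sum_of_fintype, ← fgF_normHom_apply, hw]
    · intro a ha
      rw [finsum_eq_sum_of_fintype] at ha
      refine fgF_mem_of_coprime_multiples _ a (Nat.card G) hn0 ?_ ?_
      · have : Nat.card G • a = - ∑ g : G, (g • a - a) := by
          rw [Finset.sum_sub_distrib, ha, Finset.sum_const, Finset.card_univ, hcardG]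
          abel
        rw [this]
        exact AddSubgroup.neg_mem _ (AddSubgroup.sum_mem _ (fun g _ => fgF_smul_sub_mem_augT _ _))
      · intro p hpp
        obtain ⟨P, hP, hpi⟩ := hsyl p hpp
        exact ⟨P.index, hpi, fgF_index_smul_aug P (hsub P hP).2 a ha⟩

/-- **(FG-F, down).** If `H¹(K, A) = H²(K, A) = 0` for all subgroups `K` of the finite group `G`,
then `Ĥ⁰(K, A) = Ĥ⁻¹(K, A) = 0` for all subgroups `K`. -/
theorem fgF_down : fgF_DownStatement.{u, v} := by
  intro G _ _ A _ _ hyp K
  have hyp' : ∀ K : Subgroup G, fgF_H1T K A ∧ fgF_H2T K A := hyp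
  have := fgF_down_T (Nat.card K) K A rfl (fgF_hyp_sub hyp' K)
  exact ⟨(fgF_H0T_iff K A).2 this.1, (fgF_Hm1T_iff K A).2 this.2⟩

end Fermat.Agent.S55
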