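import Fermat.Agent.S55.FG.Inv
import Fermat.Agent.S55.FG.Syl
import Fermat.Agent.S55.FG.Down

/-!
# S55 finite-group toolkit: `Ĥ⁰ = H¹ = 0` for all subgroups implies `H² = 0`

`fgH_up2 : (∀ K, fg_H0Zero K A ∧ fg_H1Zero K A) → ∀ K, fg_H2Zero K A` for a finite group `G`.
Proof: Sylow (`fgS_H2T_of_sylow`), then induction on the order of a `p`-group through a normal
subgroup of index `p`: inflation-restriction (`fgI_mid_aux`) and `H² = Ĥ⁰` for the cyclic quotient
(`fgD_cyclic_H2T_iff_H0T`).
-/

set_option linter.style.haveILetI false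
set_option linter.unusedSectionVars false
set_option linter.unusedVariables false
set_option linter.style.longLine false

namespace Fermat.Agent.S55

open groupCohomology

universe u v

section Aux

variable {G : Type*} [Group G] {A : Type*} [AddCommGroup A] [DistribMulAction G A]

/-- The hypotheses for all subgroups of `G` pass to all subgroups of a subgroup. -/
theorem fgH_hyp_sub01 (hyp : ∀ K : Subgroup G, fgF_H0T K A ∧ fgF_H1T K A) (K : Subgroup G)
    (K' : Subgroup K) : fgF_H0T K' A ∧ fgF_H1T K' A := by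
  let e : K' ≃* (K'.map K.subtype) := K'.equivMapOfInjective K.subtype K.subtype_injective
  have he : ∀ (g : K') (a : A), e g • a = g • a := fun g a => rfl
  exact ⟨fgF_H0T_of_equiv e he (hyp _).1, fgF_H1T_of_equiv e he (hyp _).2⟩

theorem fgH_H0T_top (h : fgF_H0T (⊤ : Subgroup G) A) : fgF_H0T G A :=
  fgF_H0T_of_equiv (Subgroup.topEquiv (G := G)).symm (fun _ _ => rfl) h

/-- `H²` of the trivial group vanishes. -/
theorem fgH_H2T_trivial [Finite G] (h1 : Nat.card G = 1) : fgF_H2T G A := by
  intro f hf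
  have := fgS_card_smul_H2 (G := G) hf
  rw [h1] at this
  simpa using this

/-- The step through a normal subgroup with cyclic quotient. -/
theorem fgH_up2_step [Fintype G] (H : Subgroup G) [H.Normal] (hc : IsCyclic (G ⧸ H))
    (h0 : fgF_H0T G A) (h1H : fgF_H1T H A) (h2H : fgF_H2T H A) : fgF_H2T G A := by
  classical
  haveI : Fintype H := Fintype.ofFinite _
  haveI : Fintype (G ⧸ H) := Fintype.ofFinite _
  set D := fgI_invData H A with hD
  have hker : D.π.ker = H := fgI_invData_ker H A
  have h1 : fg_H1Zero D.π.ker A := fgI_H1Zero_of_eq hker h1H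
  have h2 : fg_H2Zero D.π.ker A := fgI_H2Zero_of_eq hker h2H
  -- `Ĥ⁰(G ⧸ H, A^H) = 0`
  have h0Q : fgF_H0T (G ⧸ H) (fgI_inv H A) := by
    intro b hb
    have hbG : ∀ g : G, g • (b : A) = b := by
      intro g
      have := hb (QuotientGroup.mk g)
      exact congrArg Subtype.val this
    obtain ⟨w, hw⟩ := h0 (b : A) hbG
    rw [finsum_eq_sum_of_fintype] at hw
    have hw'mem : (∑ h : H, (h : G) • w) ∈ fgI_inv H A := by
      intro h hh
      rw [Finset.smul_sum]
      refine Fintype.sum_equiv (Equiv.mulLeft (⟨h, hh⟩ : H)) _ _ (fun k => ?_)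
      show h • (k : G) • w = (((⟨h, hh⟩ : H) * k : H) : G) • w
      rw [Subgroup.coe_mul, mul_smul]
    refine ⟨⟨∑ h : H, (h : G) • w, hw'mem⟩, ?_⟩
    rw [finsum_eq_sum_of_fintype]
    apply Subtype.ext
    rw [AddSubgroup.val_finsetSum, ← hw, fgF_sum_coset H (fun g => g • w)]
    refine Finset.sum_congr rfl (fun q _ => ?_)
    have hq : (QuotientGroup.mk q.out : G ⧸ H) = q := QuotientGroup.out_eq' q
    conv_lhs => rw [← hq]
    rw [fgI_coe_mk_smul]
    show q.out • ∑ h : H, (h : G) • w = _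
    rw [Finset.smul_sum]
    exact Finset.sum_congr rfl (fun k _ => (mul_smul _ _ _).symm)
  have h2Q : fgF_H2T (G ⧸ H) (fgI_inv H A) :=
    (fgD_cyclic_H2T_iff_H0T (G ⧸ H) (fgI_inv H A)).2 h0Q
  intro F hF
  obtain ⟨f, hf, hfF⟩ := fgI_mid_aux D h1 F hF (h2 _ (fgC_isCocycle₂_res _ hF))
  have hinf : IsCoboundary₂ (fgI_inf₂ D f) := fgC_isCoboundary₂_inf D (h2Q f hf)
  have := (fg_B2 G A).add_mem (fg_mem_B2.2 hfF) (fg_mem_B2.2 hinf)
  have e : (fun p => F p - fgI_inf₂ D f p) + fgI_inf₂ D f = F := by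
    funext p
    simp
  rw [e] at this
  exact this

end Aux

/-- The ascent for the whole group, by induction on the order. -/
theorem fgH_up2_T : ∀ (n : ℕ) (G : Type u) [Group G] [Finite G] (A : Type v) [AddCommGroup A]
    [DistribMulAction G A], Nat.card G = n →
    (∀ K : Subgroup G, fgF_H0T K A ∧ fgF_H1T K A) → fgF_H2T G A := by
  intro n
  induction n using Nat.strong_induction_on with
  | _ n ih =>
  intro G _ _ A _ _ hcard hyp
  classical
  haveI : Fintype G := Fintype.ofFinite G
  -- proper subgroups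
  have hsub : ∀ K : Subgroup G, K ≠ ⊤ → fgF_H2T K A := by
    intro K hK
    have hlt : Nat.card K < n := by
      rw [← hcard]
      refine lt_of_le_of_ne (Subgroup.card_le_card_group K) (fun h => hK ?_)
      exact Subgroup.eq_top_of_card_eq K h
    exact ih (Nat.card K) hlt K A rfl (fgH_hyp_sub01 hyp K)
  by_cases h1 : Nat.card G = 1
  · exact fgH_H2T_trivial h1
  by_cases hp : ∃ p : ℕ, p.Prime ∧ IsPGroup p G
  · -- the `p`-group case
    obtain ⟨p, hpp, hpG⟩ := hp
    haveI : Fact p.Prime := ⟨hpp⟩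
    obtain ⟨k, hk⟩ := hpG.exists_card_eq
    have hk0 : k ≠ 0 := by
      rintro rfl
      exact h1 (by simpa using hk)
    obtain ⟨k', rfl⟩ : ∃ k', k = k' + 1 := ⟨k - 1, by omega⟩
    obtain ⟨H, hH⟩ := Sylow.exists_subgroup_card_pow_prime (G := G) p (n := k')
      (by rw [hk]; exact pow_dvd_pow p (Nat.le_succ k'))
    have hidx : H.index = p := by
      have := H.card_mul_index
      rw [hH, hk, pow_succ] at this
      exact Nat.eq_of_mul_eq_mul_left (pow_pos hpp.pos k') this
    have hnorm : H.Normal := by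
      apply Subgroup.normal_of_index_eq_minFac_card
      rw [hidx, hk, hpp.pow_minFac hk0]
    have hne : H ≠ ⊤ := by
      intro h
      rw [← Subgroup.index_eq_one, hidx] at h
      exact hpp.one_lt.ne' h
    haveI := hnorm
    have hcyc : IsCyclic (G ⧸ H) :=
      isCyclic_of_prime_card (p := p) (by rw [← Subgroup.index_eq_card, hidx])
    exact fgH_up2_step H hcyc (fgH_H0T_top (hyp ⊤).1) (hyp H).2 (hsub H hne)
  · -- the Sylow case
    refine fgS_H2T_of_sylow (fun p _ P => ?_)
    have hP : (P : Subgroup G) ≠ ⊤ := by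
      intro htop
      apply hp
      refine ⟨p, Fact.out, ?_⟩
      have hc := P.card_eq_multiplicity
      rw [htop, Subgroup.card_top] at hc
      exact IsPGroup.of_card hc
    exact hsub P hP

/-- **(FG-H, up 2).** If `Ĥ⁰(K, A) = H¹(K, A) = 0` for all subgroups `K` of the finite group
`G`, then `H²(K, A) = 0` for all subgroups `K`. -/
theorem fgH_up2 (G : Type u) [Group G] [Finite G] (A : Type v) [AddCommGroup A]
    [DistribMulAction G A] (hyp : ∀ K : Subgroup G, fg_H0Zero K A ∧ fg_H1Zero K A)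
    (K : Subgroup G) : fg_H2Zero K A := by
  have hyp' : ∀ K : Subgroup G, fgF_H0T K A ∧ fgF_H1T K A :=
    fun K => ⟨(fgF_H0T_iff K A).1 (hyp K).1, (hyp K).2⟩
  exact fgH_up2_T (Nat.card K) K A rfl (fgH_hyp_sub01 hyp' K)

end Fermat.Agent.S55
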