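import Fermat.Agent.S55.FG.Shift
import Fermat.Agent.S55.FG.Up2
import Fermat.Agent.S55.FG.SplitCoh

/-!
# S55 finite-group toolkit: the twin criterion and Tate's theorem in degree 3

* `fgH_up2' : fgH_Up2Statement`
* `fgH_twin : fgH_TwinStatement` — `H¹ = H² = 0` for all subgroups implies `H³ = 0` for all
  subgroups (one dimension shift + `fgH_up2`);
* `fgH_H3_of_exact` — the piece `H²(K, N) → H³(K, A) → H³(K, M)` of the long exact sequence;
* `fgH_H3 : fgH_H3Statement` — under `fg_TateHyp a`, `H³(K, A) = 0` for every subgroup `K`.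
-/

set_option linter.style.haveILetI false
set_option linter.unusedSectionVars false
set_option linter.unusedVariables false
set_option linter.style.longLine false

namespace Fermat.Agent.S55

open groupCohomology

universe u v

theorem fgH_up2' : fgH_Up2Statement.{u, v} :=
  fun G _ _ A _ _ hyp K => fgH_up2 G A hyp K

/-- The twin criterion for the whole group. -/
theorem fgH_twin_T (G : Type u) [Group G] [Finite G] (M : Type v) [AddCommGroup M]
    [DistribMulAction G M] (hyp : ∀ K : Subgroup G, fgF_H1T K M ∧ fgF_H2T K M) :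
    fgH_H3T G M := by
  apply fgH_sh_H3
  have h : ∀ K : Subgroup G, fgF_H0T K (fgH_sh G M) ∧ fgF_H1T K (fgH_sh G M) :=
    fun K => ⟨fgH_sh_H0 K (hyp K).1, fgH_sh_H1 K (hyp K).2⟩
  exact fgH_up2_T (Nat.card G) G (fgH_sh G M) rfl h

/-- **(FG-H, twin criterion).** -/
theorem fgH_twin : fgH_TwinStatement.{u, v} := by
  intro G _ _ A _ _ hyp K
  have hyp' : ∀ K : Subgroup G, fgF_H1T K A ∧ fgF_H2T K A := hyp
  exact fgH_twin_T K A (fgF_hyp_sub hyp' K)

section Exact

variable {K : Type*} [Group K] {A M N : Type*} [AddCommGroup A] [AddCommGroup M]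
  [AddCommGroup N] [DistribMulAction K A] [DistribMulAction K M] [DistribMulAction K N]

/-- Exactness of `H²(K, N) → H³(K, A) → H³(K, M)` for a short exact sequence
`0 → A → M → N → 0` of `K`-modules, in the form: if the outer groups vanish, so does the middle
one. -/
theorem fgH_H3_of_exact (φ : A →+ M) (hφ : ∀ (k : K) (a : A), φ (k • a) = k • φ a)
    (hinj : Function.Injective φ) (p : M →+ N) (hp : ∀ (k : K) (m : M), p (k • m) = k • p m)
    (s : N → M) (hs : ∀ n, p (s n) = n) (hpφ : ∀ a, p (φ a) = 0)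
    (hex : ∀ m, p m = 0 → ∃ a, φ a = m)
    (h3 : fgH_H3T K M) (h2 : fgF_H2T K N) : fgH_H3T K A := by
  intro f hf
  have hφf : fg_IsCocycle₃ (fun q : K × K × K => φ (f q)) := fgH_isCocycle₃_map φ hφ hf
  obtain ⟨y, hy⟩ := h3 _ hφf
  simp only at hy
  -- the image of `y` in `N` is a 2-cocycle
  have hyb : IsCocycle₂ (fun q : K × K => p (y q)) := by
    apply fgH_isCocycle₂_of_d_eq_zero
    intro g k j
    have := congrArg p (hy g k j)
    rw [hpφ, map_sub, map_add, map_sub, hp] at this
    exact this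
  obtain ⟨zb, hzb⟩ := h2 _ hyb
  simp only at hzb
  set y' : K × K → M := fun q =>
    y q - (q.1 • s (zb q.2) - s (zb (q.1 * q.2)) + s (zb q.1)) with hy'
  have hpy' : ∀ g k : K, p (y' (g, k)) = 0 := by
    intro g k
    rw [hy']
    simp only
    rw [map_sub, map_add, map_sub, hp, hs, hs, hs, hzb, sub_self]
  choose u hu using fun q : K × K => hex (y' q) (hpy' q.1 q.2)
  refine ⟨u, fun g k j => ?_⟩
  apply hinj
  rw [map_sub, map_add, map_sub, hφ, hu, hu, hu, hu, ← hy g k j]
  have hdd := fgI_isCocycle₂_dd (fun g : K => s (zb g)) g k j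
  simp only [fgI_dd_apply] at hdd
  simp only [hy', smul_sub]
  have e : ∀ a b c d a' b' c' d' : M, b' + d' = a' + c' →
      (a - a') - (b - b') + (c - c') - (d - d') = a - b + c - d := by
    intro a b c d a' b' c' d' h
    have : a' = b' + d' - c' := by rw [h]; abel
    rw [this]
    abel
  apply e
  exact hdd

end Exact

section Tate

variable {G : Type u} [Group G] [Fintype G] {A : Type v} [AddCommGroup A] [DistribMulAction G A]
  {a : G × G → A} {ha : IsCocycle₂ a}

/-- The inclusion `A → A(a)` as an additive map. -/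
def fgH_inclHom (a : G × G → A) (ha : IsCocycle₂ a) : A →+ fgG_Split a ha :=
  AddMonoidHom.mk' fgG_Split.incl fgG_Split.incl_add

/-- The projection `A(a) → I_G` as an additive map. -/
def fgH_sndHom (a : G × G → A) (ha : IsCocycle₂ a) : fgG_Split a ha →+ fgG_I G :=
  AddMonoidHom.mk' fgG_Split.snd fgG_Split.snd_add

theorem fgH_H3_aux (hT : fg_TateHyp a) (K : Subgroup G) : fg_H3Zero K A := by
  have haC : IsCocycle₂ a := hT.1
  have hM : ∀ K' : Subgroup G, fgF_H1T K' (fgG_Split a haC) ∧ fgF_H2T K' (fgG_Split a haC) :=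
    fun K' => ⟨fgG_split_H1 K' (hT.2 K').1 (hT.2 K').2.2, fgG_split_H2 K' (hT.2 K').2.1⟩
  have h3M : fgH_H3T K (fgG_Split a haC) := fgH_twin_T K _ (fgF_hyp_sub hM K)
  have h2I : fgF_H2T K (fgG_I G) := fgG_I_H2 K
  refine fgH_H3_of_exact (K := K) (fgH_inclHom a haC)
    (fun k c => (fgG_smul_incl_sub K k c).symm) fgG_Split.incl_injective
    (fgH_sndHom a haC) (fun k m => fgG_snd_smul_sub K k m)
    (fun n => fgG_Split.mk 0 n) (fun n => rfl) (fun c => rfl)
    (fun m hm => ⟨m.fst, (fgG_Split.eq_incl_of_snd_eq_zero m hm).symm⟩) h3M h2I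

end Tate

/-- **(FG-H3).** Under the hypotheses of Tate's theorem, `H³(K, A) = 0` for every subgroup. -/
theorem fgH_H3 : fgH_H3Statement.{u, v} := by
  intro G _ _ A _ _ a hT K
  classical
  haveI : Fintype G := Fintype.ofFinite G
  exact fgH_H3_aux hT K

end Fermat.Agent.S55
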