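import Fermat.Agent.S55.FG.Defs

set_option linter.style.haveILetI false
set_option linter.unusedSectionVars false

/-!
# S55 finite-group toolkit: basic lemmas for the descent `H¹ = H² = 0 ⇒ Ĥ⁰ = Ĥ⁻¹ = 0`

"Whole group" versions of the vanishing predicates, transport along group isomorphisms,
the coset decomposition of norms and the two Sylow-type lemmas
(`[G : K] • a` is a norm, resp. lies in `I_G A`).
-/

namespace Fermat.Agent.S55

open groupCohomology

section TDefs

variable (G : Type*) [Group G] (A : Type*) [AddCommGroup A] [DistribMulAction G A]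

/-- `Ĥ⁰(G, A) = 0` for the whole group. -/
def fgF_H0T : Prop := ∀ a : A, (∀ g : G, g • a = a) → ∃ w : A, ∑ᶠ g : G, g • w = a

/-- The subgroup `I_G A` for the whole group. -/
def fgF_augT : AddSubgroup A :=
  AddSubgroup.closure {x : A | ∃ (g : G) (w : A), x = g • w - w}

/-- `Ĥ⁻¹(G, A) = 0` for the whole group. -/
def fgF_Hm1T : Prop := ∀ a : A, ∑ᶠ g : G, g • a = 0 → a ∈ fgF_augT G A

/-- `H¹(G, A) = 0` for the whole group. -/
def fgF_H1T : Prop := ∀ f : G → A, IsCocycle₁ f → IsCoboundary₁ f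

/-- `H²(G, A) = 0` for the whole group. -/
def fgF_H2T : Prop := ∀ f : G × G → A, IsCocycle₂ f → IsCoboundary₂ f

end TDefs

section Bridge

variable {G : Type*} [Group G] (K : Subgroup G) (A : Type*) [AddCommGroup A]
  [DistribMulAction G A]

theorem fgF_H0T_iff : fg_H0Zero K A ↔ fgF_H0T K A := by
  constructor
  · intro h a ha
    exact h a (fun k hk => ha ⟨k, hk⟩)
  · intro h a ha
    exact h a (fun k => ha k k.2)

theorem fgF_augT_eq : fg_aug K A = fgF_augT K A := by
  unfold fg_aug fgF_augT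
  congr 1
  ext x
  constructor
  · rintro ⟨k, hk, w, rfl⟩
    exact ⟨⟨k, hk⟩, w, rfl⟩
  · rintro ⟨k, w, rfl⟩
    exact ⟨k, k.2, w, rfl⟩

theorem fgF_Hm1T_iff : fg_Hm1Zero K A ↔ fgF_Hm1T K A := by
  unfold fg_Hm1Zero fgF_Hm1T
  rw [fgF_augT_eq]
  rfl

theorem fgF_H1T_iff : fg_H1Zero K A ↔ fgF_H1T K A := Iff.rfl

theorem fgF_H2T_iff : fg_H2Zero K A ↔ fgF_H2T K A := Iff.rfl

end Bridge

section Transport

variable {G : Type*} [Group G] {G' : Type*} [Group G'] {A : Type*} [AddCommGroup A]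
  [DistribMulAction G A] [DistribMulAction G' A]

theorem fgF_H1T_of_equiv (e : G' ≃* G) (he : ∀ (g : G') (a : A), e g • a = g • a)
    (h : fgF_H1T G A) : fgF_H1T G' A := by
  intro f hf
  have he' : ∀ (g : G) (a : A), e.symm g • a = g • a := fun g a => by
    rw [← he, e.apply_symm_apply]
  obtain ⟨x, hx⟩ := h (fun g => f (e.symm g)) (by
    intro g g'
    simp only [map_mul]
    rw [hf, he'])
  refine ⟨x, fun g => ?_⟩
  have := hx (e g)
  simpa [he] using this

theorem fgF_H2T_of_equiv (e : G' ≃* G) (he : ∀ (g : G') (a : A), e g • a = g • a)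
    (h : fgF_H2T G A) : fgF_H2T G' A := by
  intro f hf
  have he' : ∀ (g : G) (a : A), e.symm g • a = g • a := fun g a => by
    rw [← he, e.apply_symm_apply]
  obtain ⟨x, hx⟩ := h (fun p => f (e.symm p.1, e.symm p.2)) (by
    intro g g' g''
    simp only [map_mul]
    rw [hf, he'])
  refine ⟨fun g => x (e g), fun g g' => ?_⟩
  have := hx (e g) (e g')
  simpa [he] using this

theorem fgF_H0T_of_equiv (e : G' ≃* G) (he : ∀ (g : G') (a : A), e g • a = g • a)
    (h : fgF_H0T G A) : fgF_H0T G' A := by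
  intro a ha
  have he' : ∀ (g : G) (a : A), e.symm g • a = g • a := fun g a => by
    rw [← he, e.apply_symm_apply]
  obtain ⟨w, hw⟩ := h a (fun g => by rw [← he', ha])
  refine ⟨w, ?_⟩
  rw [← hw, ← finsum_comp_equiv e.toEquiv]
  exact finsum_congr (fun g => (he g w).symm)

theorem fgF_augT_of_equiv (e : G' ≃* G) (he : ∀ (g : G') (a : A), e g • a = g • a) :
    fgF_augT G A = fgF_augT G' A := by
  have he' : ∀ (g : G) (a : A), e.symm g • a = g • a := fun g a => by
    rw [← he, e.apply_symm_apply]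
  unfold fgF_augT
  congr 1
  ext x
  constructor
  · rintro ⟨g, w, rfl⟩
    exact ⟨e.symm g, w, by rw [he']⟩
  · rintro ⟨g, w, rfl⟩
    exact ⟨e g, w, by rw [he]⟩

theorem fgF_Hm1T_of_equiv (e : G' ≃* G) (he : ∀ (g : G') (a : A), e g • a = g • a)
    (h : fgF_Hm1T G A) : fgF_Hm1T G' A := by
  intro a ha
  rw [← fgF_augT_of_equiv e he]
  apply h a
  rw [← ha, ← finsum_comp_equiv e.toEquiv]
  exact finsum_congr (fun g => he g a)

end Transport

section Coset

variable {G : Type*} [Group G]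

/-- The bijection `(G ⧸ K) × K ≃ G`, `(q, k) ↦ q.out * k`. -/
noncomputable def fgF_cosetEquiv (K : Subgroup G) : (G ⧸ K) × K ≃ G where
  toFun p := p.1.out * p.2
  invFun g := ((g : G ⧸ K), ⟨(g : G ⧸ K).out⁻¹ * g, by
    rw [← QuotientGroup.eq]
    exact QuotientGroup.out_eq' _⟩)
  left_inv := by
    rintro ⟨q, k⟩
    have h1 : ((q.out * (k : G) : G) : G ⧸ K) = q := by
      rw [QuotientGroup.mk_mul_of_mem _ k.2]
      exact QuotientGroup.out_eq' _
    refine Prod.ext h1 ?_
    apply Subtype.ext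
    simp only
    rw [h1, inv_mul_cancel_left]
  right_inv := by
    intro g
    simp

theorem fgF_cosetEquiv_apply (K : Subgroup G) (q : G ⧸ K) (k : K) :
    fgF_cosetEquiv K (q, k) = q.out * k := rfl

variable {A : Type*} [AddCommGroup A] [DistribMulAction G A]

theorem fgF_sum_coset [Fintype G] (K : Subgroup G) [Fintype K] [Fintype (G ⧸ K)] (F : G → A) :
    ∑ g : G, F g = ∑ q : G ⧸ K, ∑ k : K, F (q.out * k) := by
  rw [← Fintype.sum_prod_type']
  exact (Fintype.sum_equiv (fgF_cosetEquiv K) _ _ (fun p => rfl)).symm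

/-- If `Ĥ⁰(K, A) = 0` and `a` is `G`-invariant then `[G : K] • a` is a norm from `G`. -/
theorem fgF_index_smul_norm [Fintype G] (K : Subgroup G) (hK : fgF_H0T K A) (a : A)
    (ha : ∀ g : G, g • a = a) : ∃ w : A, ∑ g : G, g • w = K.index • a := by
  classical
  haveI : Fintype K := Fintype.ofFinite K
  haveI : Fintype (G ⧸ K) := Fintype.ofFinite _
  obtain ⟨w, hw⟩ := hK a (fun k => ha k)
  rw [finsum_eq_sum_of_fintype] at hw
  refine ⟨w, ?_⟩
  rw [fgF_sum_coset K]
  have : ∀ q : G ⧸ K, ∑ k : K, (q.out * (k : G)) • w = a := by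
    intro q
    have h1 : ∑ k : K, (q.out * (k : G)) • w = q.out • ∑ k : K, k • w := by
      rw [Finset.smul_sum]
      exact Finset.sum_congr rfl (fun k _ => mul_smul _ _ _)
    rw [h1, hw, ha]
  rw [Finset.sum_congr rfl (fun q _ => this q), Finset.sum_const, Finset.card_univ,
    Subgroup.index_eq_card, Nat.card_eq_fintype_card]

/-- `I_K A ≤ I_G A`. -/
theorem fgF_augT_le (K : Subgroup G) : fgF_augT K A ≤ fgF_augT G A := by
  unfold fgF_augT
  apply AddSubgroup.closure_mono
  rintro x ⟨k, w, rfl⟩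
  exact ⟨(k : G), w, rfl⟩

theorem fgF_smul_sub_mem_augT (g : G) (w : A) : g • w - w ∈ fgF_augT G A :=
  AddSubgroup.subset_closure ⟨g, w, rfl⟩

/-- If `Ĥ⁻¹(K, A) = 0` and `N_G a = 0` then `[G : K] • a ∈ I_G A`. -/
theorem fgF_index_smul_aug [Fintype G] (K : Subgroup G) (hK : fgF_Hm1T K A) (a : A)
    (ha : ∑ g : G, g • a = 0) : K.index • a ∈ fgF_augT G A := by
  classical
  haveI : Fintype K := Fintype.ofFinite K
  haveI : Fintype (G ⧸ K) := Fintype.ofFinite _
  -- `b = ∑_q q.out⁻¹ • a`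
  set b : A := ∑ q : G ⧸ K, (q.out)⁻¹ • a with hb
  have h1 : ∑ k : K, k • b = 0 := by
    have e1 : ∑ g : G, g • a = ∑ g : G, g⁻¹ • a :=
      (Fintype.sum_equiv (Equiv.inv G) _ _ (fun g => by simp)).symm
    rw [e1, fgF_sum_coset K] at ha
    rw [← ha, hb]
    simp only [Finset.smul_sum]
    rw [Finset.sum_comm]
    refine Finset.sum_congr rfl (fun q _ => ?_)
    refine Fintype.sum_equiv (Equiv.inv K) _ _ (fun k => ?_)
    simp only [Equiv.inv_apply, mul_inv_rev, mul_smul, Subgroup.coe_inv, inv_inv]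
    rfl
  have h2 : b ∈ fgF_augT G A := by
    apply fgF_augT_le K
    apply hK
    rw [finsum_eq_sum_of_fintype]
    exact h1
  have h3 : b - K.index • a ∈ fgF_augT G A := by
    have : b - K.index • a = ∑ q : G ⧸ K, ((q.out)⁻¹ • a - a) := by
      rw [Finset.sum_sub_distrib, Finset.sum_const, Finset.card_univ, Subgroup.index_eq_card,
        Nat.card_eq_fintype_card]
    rw [this]
    exact AddSubgroup.sum_mem _ (fun q _ => fgF_smul_sub_mem_augT _ _)
  have : K.index • a = b - (b - K.index • a) := by abel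
  rw [this]
  exact AddSubgroup.sub_mem _ h2 h3

end Coset

section Gcd

variable {A : Type*} [AddCommGroup A]

/-- If `n • a ∈ S` for some `n ≠ 0` and for every prime `p` some multiple `m • a`, `p ∤ m`,
lies in `S`, then `a ∈ S`. -/
theorem fgF_mem_of_coprime_multiples (S : AddSubgroup A) (a : A) (n : ℕ) (hn : n ≠ 0)
    (hn' : n • a ∈ S) (hp : ∀ p : ℕ, p.Prime → ∃ m : ℕ, ¬ p ∣ m ∧ m • a ∈ S) : a ∈ S := by
  let I : AddSubgroup ℤ := S.comap ((smulAddHom ℤ A).flip a)
  have hI : ∀ m : ℤ, m ∈ I ↔ m • a ∈ S := fun m => Iff.rfl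
  obtain ⟨d, hd⟩ := Int.subgroup_cyclic I
  have hmem : ∀ m : ℤ, m ∈ I ↔ d ∣ m := by
    intro m
    rw [hd, AddSubgroup.mem_closure_singleton]
    constructor
    · rintro ⟨k, rfl⟩
      exact ⟨k, by simp [mul_comm]⟩
    · rintro ⟨k, rfl⟩
      exact ⟨k, by simp [mul_comm]⟩
  have hnI : (n : ℤ) ∈ I := by
    rw [hI]
    simpa using hn'
  have hdn : d ∣ (n : ℤ) := (hmem _).1 hnI
  have hd0 : d ≠ 0 := by
    rintro rfl
    rw [zero_dvd_iff] at hdn
    exact hn (by exact_mod_cast hdn)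
  have hd1 : d.natAbs = 1 := by
    by_contra hne
    obtain ⟨p, hpp, hpd⟩ := Nat.exists_prime_and_dvd hne
    obtain ⟨m, hpm, hm⟩ := hp p hpp
    have hmI : (m : ℤ) ∈ I := by
      rw [hI]
      simpa using hm
    have hdm : d ∣ (m : ℤ) := (hmem _).1 hmI
    apply hpm
    have : d.natAbs ∣ m := by
      have := Int.natAbs_dvd_natAbs.2 hdm
      simpa using this
    exact hpd.trans this
  have h1I : (1 : ℤ) ∈ I := by
    rw [hmem]
    exact Int.natAbs_dvd_natAbs.1 (by simp [hd1])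
  have := (hI 1).1 h1I
  simpa using this

end Gcd

end Fermat.Agent.S55
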