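import Fermat.Agent.S55.FG.DownBasic

set_option linter.style.haveILetI false
set_option linter.unusedSectionVars false

/-!
# S55 finite-group toolkit: the cyclic step

`H ⊴ G` with `G ⧸ H` cyclic of order `n > 1`, generated by the class of `s`.
* `fgF_cyc_H0` : `H²(G, A) = 0`, `H¹(H, A) = 0`, `Ĥ⁰(H, A) = 0` imply `Ĥ⁰(G, A) = 0`.
* `fgF_cyc_Hm1` : `H¹(G, A) = 0`, `Ĥ⁰(H, A) = 0`, `Ĥ⁻¹(H, A) = 0` imply `Ĥ⁻¹(G, A) = 0`.
-/

namespace Fermat.Agent.S55

open groupCohomology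

/-- Data describing a cyclic quotient `G ⧸ H` of order `n > 1`: a "logarithm" `ι : G → ℕ` and an
element `s` with `ι s = 1`. -/
structure fgF_CycData (G : Type*) [Group G] (H : Subgroup G) where
  /-- the order of the quotient -/
  n : ℕ
  /-- the logarithm -/
  ι : G → ℕ
  /-- a generator -/
  s : G
  one_lt : 1 < n
  ι_mul : ∀ g g', ι (g * g') = (ι g + ι g') % n
  mem_iff : ∀ g, g ∈ H ↔ ι g = 0
  ι_s : ι s = 1

namespace fgF_CycData

variable {G : Type*} [Group G] {H : Subgroup G} (D : fgF_CycData G H)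

theorem n_pos : 0 < D.n := lt_trans Nat.zero_lt_one D.one_lt

theorem ι_one : D.ι 1 = 0 := (D.mem_iff 1).1 H.one_mem

theorem ι_lt (g : G) : D.ι g < D.n := by
  have := D.ι_mul g 1
  rw [mul_one, D.ι_one, add_zero] at this
  rw [this]
  exact Nat.mod_lt _ D.n_pos

theorem ι_of_mem {h : G} (hh : h ∈ H) : D.ι h = 0 := (D.mem_iff h).1 hh

theorem ι_mul_of_mem (g : G) {h : G} (hh : h ∈ H) : D.ι (g * h) = D.ι g := by
  rw [D.ι_mul, D.ι_of_mem hh, add_zero, Nat.mod_eq_of_lt (D.ι_lt g)]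

theorem ι_mem_mul (g : G) {h : G} (hh : h ∈ H) : D.ι (h * g) = D.ι g := by
  rw [D.ι_mul, D.ι_of_mem hh, zero_add, Nat.mod_eq_of_lt (D.ι_lt g)]

theorem ι_pow (j : ℕ) : D.ι (D.s ^ j) = j % D.n := by
  induction j with
  | zero => simp [D.ι_one]
  | succ j ih =>
    rw [pow_succ, D.ι_mul, ih, D.ι_s, Nat.mod_add_mod]

theorem ι_pow_of_lt {j : ℕ} (hj : j < D.n) : D.ι (D.s ^ j) = j := by
  rw [D.ι_pow, Nat.mod_eq_of_lt hj]

theorem pow_n_mem : D.s ^ D.n ∈ H := by
  rw [D.mem_iff, D.ι_pow, Nat.mod_self]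

theorem inv_pow_mul_mem (g : G) : (D.s ^ D.ι g)⁻¹ * g ∈ H := by
  rw [D.mem_iff]
  set x := (D.s ^ D.ι g)⁻¹ * g with hx
  have hg : g = D.s ^ D.ι g * x := by rw [hx, mul_inv_cancel_left]
  have h1 := D.ι_mul (D.s ^ D.ι g) x
  rw [← hg, D.ι_pow_of_lt (D.ι_lt g)] at h1
  have h2 : (D.ι g + D.ι x) ≡ (D.ι g + 0) [MOD D.n] := by
    unfold Nat.ModEq
    rw [← h1, add_zero, Nat.mod_eq_of_lt (D.ι_lt g)]
  have h3 : D.ι x ≡ 0 [MOD D.n] := Nat.ModEq.add_left_cancel' _ h2
  unfold Nat.ModEq at h3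
  rw [Nat.mod_eq_of_lt (D.ι_lt x), Nat.zero_mod] at h3
  exact h3

/-- The bijection `Fin n × H ≃ G`, `(j, h) ↦ s ^ j * h`. -/
def equiv : Fin D.n × H ≃ G where
  toFun p := D.s ^ (p.1 : ℕ) * p.2
  invFun g := (⟨D.ι g, D.ι_lt g⟩, ⟨(D.s ^ D.ι g)⁻¹ * g, D.inv_pow_mul_mem g⟩)
  left_inv := by
    rintro ⟨j, h⟩
    have h1 : D.ι (D.s ^ (j : ℕ) * (h : G)) = j := by
      rw [D.ι_mul_of_mem _ h.2, D.ι_pow_of_lt j.2]
    refine Prod.ext (Fin.ext h1) ?_
    apply Subtype.ext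
    simp only
    rw [h1, inv_mul_cancel_left]
  right_inv := by
    intro g
    simp

variable {A : Type*} [AddCommGroup A]

theorem sum_eq [Fintype G] [Fintype H] (F : G → A) :
    ∑ g : G, F g = ∑ j ∈ Finset.range D.n, ∑ h : H, F (D.s ^ j * h) := by
  rw [← Fin.sum_univ_eq_sum_range (fun j => ∑ h : H, F (D.s ^ j * h)) D.n,
    ← Fintype.sum_prod_type']
  exact (Fintype.sum_equiv D.equiv _ _ (fun p => rfl)).symm

end fgF_CycData

section Exists

variable {G : Type*} [Group G]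

/-- A proper normal subgroup with cyclic quotient carries cyclic data. -/
theorem fgF_exists_cycData [Finite G] (H : Subgroup G) [H.Normal] (hc : IsCyclic (G ⧸ H))
    (hH : H ≠ ⊤) : Nonempty (fgF_CycData G H) := by
  classical
  set n := Nat.card (G ⧸ H) with hn
  have hn0 : n ≠ 0 := Nat.card_pos.ne'
  have hn1 : n ≠ 1 := by
    intro h
    apply hH
    rw [← Subgroup.index_eq_one, Subgroup.index_eq_card]
    exact h
  have h1n : 1 < n := by omega
  haveI : NeZero n := ⟨hn0⟩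
  haveI : Fact (1 < n) := ⟨h1n⟩
  let e : Multiplicative (ZMod n) ≃* (G ⧸ H) := zmodCyclicMulEquiv hc
  let χ : G →* Multiplicative (ZMod n) := e.symm.toMonoidHom.comp (QuotientGroup.mk' H)
  obtain ⟨s, hs⟩ := QuotientGroup.mk_surjective (s := H) (e (Multiplicative.ofAdd 1))
  have hχs : χ s = Multiplicative.ofAdd 1 := by
    change e.symm (s : G ⧸ H) = _
    rw [hs, e.symm_apply_apply]
  refine ⟨{ n := n
            ι := fun g => (Multiplicative.toAdd (χ g)).val
            s := s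
            one_lt := h1n
            ι_mul := ?_
            mem_iff := ?_
            ι_s := ?_ }⟩
  · intro g g'
    simp only [map_mul, toAdd_mul]
    exact ZMod.val_add _ _
  · intro g
    rw [ZMod.val_eq_zero]
    change g ∈ H ↔ Multiplicative.toAdd (e.symm (g : G ⧸ H)) = 0
    rw [← QuotientGroup.eq_one_iff]
    constructor
    · intro h
      rw [h, map_one]
      rfl
    · intro h
      have : e.symm (g : G ⧸ H) = 1 := h
      exact (MulEquiv.map_eq_one_iff e.symm).1 this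
  · simp only [hχs, toAdd_ofAdd]
    exact ZMod.val_one n

end Exists

end Fermat.Agent.S55
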