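import Fermat.Agent.S55.FG.DownCyclic

set_option linter.style.haveILetI false
set_option linter.unusedSectionVars false

/-!
# S55 finite-group toolkit: the two cyclic descent steps
-/

namespace Fermat.Agent.S55

open groupCohomology

theorem fgF_carry (n a b : ℕ) (hn : 0 < n) : (a % n + b) / n + a / n = (a + b) / n := by
  conv_rhs => rw [← Nat.div_add_mod a n]
  rw [add_assoc, Nat.mul_add_div hn]
  ring

section Steps

variable {G : Type*} [Group G] {H : Subgroup G} [H.Normal]
  {A : Type*} [AddCommGroup A] [DistribMulAction G A]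

/-- Cyclic step for `Ĥ⁰`. -/
theorem fgF_cyc_H0 [Fintype G] (D : fgF_CycData G H) (h2 : fgF_H2T G A) (h1H : fgF_H1T H A) (h0H : fgF_H0T H A) :
    fgF_H0T G A := by
  classical
  haveI : Fintype H := Fintype.ofFinite H
  intro a ha
  have hn := D.n_pos
  let f : G × G → A := fun p => ((D.ι p.1 + D.ι p.2) / D.n) • a
  have hfa : ∀ g h : G, f (g, h) = ((D.ι g + D.ι h) / D.n) • a := fun g h => rfl
  have hf : IsCocycle₂ f := by
    intro g h j
    rw [hfa, hfa, hfa, hfa, smul_comm g, ha g, ← add_smul, ← add_smul]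
    congr 1
    rw [D.ι_mul g h, D.ι_mul h j, fgF_carry _ _ _ hn, add_comm (D.ι g) ((D.ι h + D.ι j) % D.n),
      add_comm ((D.ι h + D.ι j) / D.n), fgF_carry _ _ _ hn]
    congr 1
    ring
  obtain ⟨φ, hφ⟩ := h2 f hf
  -- `φ` restricted to `H` is a cocycle
  have hφH : IsCocycle₁ (fun h : H => φ h) := by
    intro h h'
    have := hφ h h'
    rw [hfa, D.ι_of_mem h.2, D.ι_of_mem h'.2, add_zero, Nat.zero_div, zero_smul] at this
    have e : φ ((h : G) * (h' : G)) = (h : G) • φ h' + φ h := by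
      have := sub_eq_zero.1 (by rw [← this]; abel :
        (h : G) • φ h' + φ h - φ ((h : G) * (h' : G)) = 0)
      exact this.symm
    exact e
  obtain ⟨x, hx⟩ := h1H _ hφH
  let φ' : G → A := fun g => φ g - (g • x - x)
  have hφ'def : ∀ g, φ' g = φ g - (g • x - x) := fun g => rfl
  have hφ' : ∀ g h : G, g • φ' h - φ' (g * h) + φ' g = f (g, h) := by
    intro g h
    rw [← hφ g h, hφ'def, hφ'def, hφ'def, smul_sub, smul_sub, mul_smul]
    abel
  have hφ'H : ∀ h : G, h ∈ H → φ' h = 0 := by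
    intro h hh
    rw [hφ'def]
    have := hx ⟨h, hh⟩
    simp only at this
    rw [← this]
    exact sub_self _
  have hdiv0 : ∀ g : G, (D.ι g) / D.n = 0 := fun g => Nat.div_eq_of_lt (D.ι_lt g)
  have R1 : ∀ g h : G, h ∈ H → φ' (g * h) = φ' g := by
    intro g h hh
    have := hφ' g h
    rw [hfa, D.ι_of_mem hh, add_zero, hdiv0, zero_smul, hφ'H h hh, smul_zero, zero_sub] at this
    have e := sub_eq_zero.1 (by rw [← this]; abel : φ' g - φ' (g * h) = 0)
    exact e.symm
  have R2 : ∀ g h : G, h ∈ H → φ' (h * g) = h • φ' g := by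
    intro g h hh
    have := hφ' h g
    rw [hfa, D.ι_of_mem hh, zero_add, hdiv0, zero_smul, hφ'H h hh, add_zero] at this
    exact (sub_eq_zero.1 this).symm
  have R3 : ∀ g h : G, h ∈ H → h • φ' g = φ' g := by
    intro g h hh
    rw [← R2 g h hh]
    have e : h * g = g * (g⁻¹ * h * g) := by group
    rw [e]
    exact R1 g _ (Subgroup.Normal.conj_mem' inferInstance h hh g)
  let ψ : ℕ → A := fun j => φ' (D.s ^ j)
  have hψ : ∀ j, ψ j = φ' (D.s ^ j) := fun j => rfl
  have hψ1 : ψ 1 = φ' D.s := by rw [hψ, pow_one]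
  have R4 : ∀ j, j + 1 < D.n → ψ (j + 1) = D.s • ψ j + ψ 1 := by
    intro j hj
    have := hφ' D.s (D.s ^ j)
    rw [hfa, D.ι_s, D.ι_pow_of_lt (by omega : j < D.n), Nat.div_eq_of_lt (by omega), zero_smul,
      ← pow_succ', ← hψ1] at this
    have e := sub_eq_zero.1 (by rw [← this]; abel :
      D.s • φ' (D.s ^ j) + ψ 1 - φ' (D.s ^ (j + 1)) = 0)
    exact e.symm
  have R6 : ∀ j, j < D.n → ψ j = ∑ i ∈ Finset.range j, D.s ^ i • ψ 1 := by
    intro j
    induction j with
    | zero =>
      intro _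
      rw [hψ, pow_zero, Finset.range_zero, Finset.sum_empty]
      exact hφ'H 1 H.one_mem
    | succ j ih =>
      intro hj
      rw [R4 j hj, ih (by omega), Finset.sum_range_succ', Finset.smul_sum, pow_zero, one_smul]
      congr 1
      exact Finset.sum_congr rfl (fun i _ => by rw [pow_succ', mul_smul])
  have R5 : a = ∑ i ∈ Finset.range D.n, D.s ^ i • ψ 1 := by
    obtain ⟨m, hm⟩ : ∃ m, D.n = m + 1 := ⟨D.n - 1, by omega⟩
    have := hφ' D.s (D.s ^ m)
    rw [hfa, D.ι_s, D.ι_pow_of_lt (by omega : m < D.n),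
      show (1 + m) / D.n = 1 from by rw [hm, add_comm]; exact Nat.div_self (by omega),
      one_smul, ← pow_succ', ← hm, hφ'H _ D.pow_n_mem, sub_zero, ← hψ1, ← hψ,
      R6 m (by omega)] at this
    rw [hm, Finset.sum_range_succ', ← this, Finset.smul_sum, pow_zero, one_smul]
    congr 1
    exact Finset.sum_congr rfl (fun i _ => by rw [pow_succ', mul_smul])
  have hinv : ∀ h : H, h • ψ 1 = ψ 1 := by
    intro h
    rw [hψ1]
    exact R3 D.s h h.2
  obtain ⟨y, hy⟩ := h0H (ψ 1) hinv
  rw [finsum_eq_sum_of_fintype] at hy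
  refine ⟨y, ?_⟩
  rw [finsum_eq_sum_of_fintype, D.sum_eq, R5]
  refine Finset.sum_congr rfl (fun j _ => ?_)
  rw [← hy, Finset.smul_sum]
  exact Finset.sum_congr rfl (fun h _ => mul_smul _ _ _)

/-- Cyclic step for `Ĥ⁻¹`. -/
theorem fgF_cyc_Hm1 [Fintype G] (D : fgF_CycData G H) (h1 : fgF_H1T G A) (h0H : fgF_H0T H A)
    (hm1H : fgF_Hm1T H A) : fgF_Hm1T G A := by
  classical
  haveI : Fintype H := Fintype.ofFinite H
  intro a ha
  rw [finsum_eq_sum_of_fintype] at ha
  have hn := D.n_pos
  -- the norm from `H`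
  let NH : A → A := fun w => ∑ h : H, h • w
  have hNH : ∀ w, NH w = ∑ h : H, h • w := fun w => rfl
  have hNH_sub : ∀ w w', NH (w - w') = NH w - NH w' := by
    intro w w'
    simp only [hNH, smul_sub, Finset.sum_sub_distrib]
  have hNH_inv : ∀ (h : G), h ∈ H → ∀ w, h • NH w = NH w := by
    intro h hh w
    rw [hNH, Finset.smul_sum]
    refine Fintype.sum_equiv (Equiv.mulLeft (⟨h, hh⟩ : H)) _ _ (fun k => ?_)
    simp only [Equiv.coe_mulLeft]
    show h • (k : G) • w = (h * (k : G)) • w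
    rw [mul_smul]
  have hNH_conj : ∀ (g : G) w, g • NH w = NH (g • w) := by
    intro g w
    rw [hNH, hNH, Finset.smul_sum]
    refine Fintype.sum_equiv (MulAut.conjNormal g : H ≃* H).toEquiv _ _ (fun k => ?_)
    simp only [MulEquiv.toEquiv_eq_coe, MulEquiv.coe_toEquiv]
    show g • (k : G) • w = ((MulAut.conjNormal g k : H) : G) • g • w
    rw [MulAut.conjNormal_apply, ← mul_smul, ← mul_smul]
    congr 1
    group
  set b : A := NH a with hb
  -- `T m = ∑_{i < m} s^i • b`
  let T : ℕ → A := fun m => ∑ i ∈ Finset.range m, D.s ^ i • b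
  have hT : ∀ m, T m = ∑ i ∈ Finset.range m, D.s ^ i • b := fun m => rfl
  have hTn : T D.n = 0 := by
    rw [hT, ← ha, D.sum_eq]
    refine Finset.sum_congr rfl (fun j _ => ?_)
    rw [hb, hNH, Finset.smul_sum]
    exact Finset.sum_congr rfl (fun h _ => (mul_smul _ _ _).symm)
  have hTadd : ∀ m k, T (m + k) = T m + D.s ^ m • T k := by
    intro m k
    rw [hT, hT, hT, Finset.sum_range_add, Finset.smul_sum]
    congr 1
    exact Finset.sum_congr rfl (fun i _ => by rw [pow_add, mul_smul])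
  have hTinv : ∀ (h : G), h ∈ H → ∀ m, h • T m = T m := by
    intro h hh m
    rw [hT, Finset.smul_sum]
    refine Finset.sum_congr rfl (fun i _ => ?_)
    rw [← mul_smul]
    have e : h * D.s ^ i = D.s ^ i * ((D.s ^ i)⁻¹ * h * D.s ^ i) := by group
    rw [e, mul_smul, hb, hNH_inv _ (Subgroup.Normal.conj_mem' inferInstance h hh _)]
  have hsn : ∀ m, D.s ^ D.n • T m = T m := fun m => hTinv _ D.pow_n_mem m
  have hTmod : ∀ m, T (m % D.n) = T m := by
    intro m
    have key : ∀ q r, T (D.n * q + r) = T r := by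
      intro q
      induction q with
      | zero => intro r; simp
      | succ q ih =>
        intro r
        rw [Nat.mul_succ, add_assoc, ih, hTadd, hTn, zero_add, hsn]
    conv_rhs => rw [← Nat.div_add_mod m D.n]
    exact (key _ _).symm
  -- action of `g` on invariants
  have hact : ∀ (g : G) (m : ℕ), g • T m = D.s ^ D.ι g • T m := by
    intro g m
    have e : g = D.s ^ D.ι g * ((D.s ^ D.ι g)⁻¹ * g) := by group
    conv_lhs => rw [e]
    rw [mul_smul, hTinv _ (D.inv_pow_mul_mem g)]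
  let φ : G → A := fun g => T (D.ι g)
  have hφ : IsCocycle₁ φ := by
    intro g g'
    change T (D.ι (g * g')) = g • T (D.ι g') + T (D.ι g)
    rw [D.ι_mul, hTmod, hTadd, hact g, add_comm]
  obtain ⟨x, hx⟩ := h1 φ hφ
  have hxH : ∀ h : H, h • x = x := by
    intro h
    have := hx h
    change (h : G) • x - x = T (D.ι (h : G)) at this
    rw [D.ι_of_mem h.2, hT, Finset.range_zero, Finset.sum_empty] at this
    exact sub_eq_zero.1 this
  have hxs : D.s • x - x = b := by
    have := hx D.s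
    change D.s • x - x = T (D.ι D.s) at this
    rw [D.ι_s, hT, Finset.sum_range_one, pow_zero, one_smul] at this
    exact this
  obtain ⟨y, hy⟩ := h0H x hxH
  rw [finsum_eq_sum_of_fintype] at hy
  have hy' : NH y = x := hy
  -- `N_H (a - (s • y - y)) = 0`
  have h0 : NH (a - (D.s • y - y)) = 0 := by
    rw [hNH_sub, hNH_sub, ← hNH_conj, hy', hxs]
    exact sub_self _
  have h3 : a - (D.s • y - y) ∈ fgF_augT G A := by
    apply fgF_augT_le H
    apply hm1H
    rw [finsum_eq_sum_of_fintype]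
    exact h0
  have : a = (a - (D.s • y - y)) + (D.s • y - y) := by abel
  rw [this]
  exact AddSubgroup.add_mem _ h3 (fgF_smul_sub_mem_augT _ _)

end Steps

end Fermat.Agent.S55
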