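import Fermat.Agent.S55.FG.H2Card

/-!
# S55 finite-group toolkit: the module of invariants of a normal subgroup

For a normal subgroup `H` of `G` and a `G`-module `A`:

* `fgI_inv H A : AddSubgroup A` — the `H`-invariants `A^H`;
* a `DistribMulAction (G ⧸ H) (fgI_inv H A)` (with `(g H) • b = g • b` by `rfl`);
* `fgI_invData H A : fgI_InfData G (G ⧸ H) A (fgI_inv H A)` — the canonical inflation situation,
  with `fgI_invData_ker : (fgI_invData H A).π.ker = H`.
-/

set_option linter.unusedSectionVars false
set_option linter.unusedVariables false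
set_option linter.style.longLine false

namespace Fermat.Agent.S55

open groupCohomology

section Inv

variable {G : Type*} [Group G] (H : Subgroup G) (A : Type*) [AddCommGroup A]
  [DistribMulAction G A]

/-- The invariants `A^H`. -/
def fgI_inv : AddSubgroup A where
  carrier := {a | ∀ h ∈ H, h • a = a}
  zero_mem' := fun h _ => smul_zero h
  add_mem' := fun {a b} ha hb h hh => by rw [smul_add, ha h hh, hb h hh]
  neg_mem' := fun {a} ha h hh => by rw [smul_neg, ha h hh]

variable {H A}

theorem fgI_mem_inv {a : A} : a ∈ fgI_inv H A ↔ ∀ h ∈ H, h • a = a := Iff.rfl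

theorem fgI_smul_mem_inv [H.Normal] (g : G) {a : A} (ha : a ∈ fgI_inv H A) :
    g • a ∈ fgI_inv H A := by
  intro h hh
  have e : h * g = g * (g⁻¹ * h * g) := by group
  have hc : g⁻¹ * h * g ∈ H := by
    have := (inferInstance : H.Normal).conj_mem h hh g⁻¹
    simpa using this
  rw [← mul_smul, e, mul_smul, ha _ hc]

theorem fgI_smul_eq_of_rel [H.Normal] {g₁ g₂ : G} (h : g₁⁻¹ * g₂ ∈ H) {a : A}
    (ha : a ∈ fgI_inv H A) : g₁ • a = g₂ • a := by
  have e : g₂ = g₁ * (g₁⁻¹ * g₂) := by group
  rw [e, mul_smul, ha _ h]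

variable (H A)

/-- The action of `G ⧸ H` on `A^H`. -/
instance fgI_invSMul [H.Normal] : SMul (G ⧸ H) (fgI_inv H A) where
  smul q b := Quotient.liftOn' q (fun g => (⟨g • (b : A), fgI_smul_mem_inv g b.2⟩ : fgI_inv H A))
    (fun g₁ g₂ h => Subtype.ext (fgI_smul_eq_of_rel (QuotientGroup.leftRel_apply.1 h) b.2))

variable {H A}

theorem fgI_mk_smul [H.Normal] (g : G) (b : fgI_inv H A) :
    ((QuotientGroup.mk g : G ⧸ H) • b) = ⟨g • (b : A), fgI_smul_mem_inv g b.2⟩ := rfl

theorem fgI_coe_mk_smul [H.Normal] (g : G) (b : fgI_inv H A) :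
    (((QuotientGroup.mk g : G ⧸ H) • b : fgI_inv H A) : A) = g • (b : A) := rfl

variable (H A)

instance fgI_invAction [H.Normal] : DistribMulAction (G ⧸ H) (fgI_inv H A) where
  one_smul b := by
    apply Subtype.ext
    show (((QuotientGroup.mk (1 : G) : G ⧸ H) • b : fgI_inv H A) : A) = b
    rw [fgI_coe_mk_smul, one_smul]
  mul_smul q q' b := by
    induction q using QuotientGroup.induction_on with
    | H g =>
    induction q' using QuotientGroup.induction_on with
    | H g' =>
    apply Subtype.ext
    show (((QuotientGroup.mk (g * g') : G ⧸ H) • b : fgI_inv H A) : A) = _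
    rw [fgI_coe_mk_smul, fgI_coe_mk_smul, fgI_coe_mk_smul, mul_smul]
  smul_zero q := by
    induction q using QuotientGroup.induction_on with
    | H g =>
    apply Subtype.ext
    rw [fgI_coe_mk_smul]
    exact smul_zero g
  smul_add q b b' := by
    induction q using QuotientGroup.induction_on with
    | H g =>
    apply Subtype.ext
    rw [fgI_coe_mk_smul]
    show g • ((b : A) + (b' : A)) = g • (b : A) + g • (b' : A)
    exact smul_add g _ _

/-- The canonical inflation situation attached to a normal subgroup. -/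
def fgI_invData [H.Normal] : fgI_InfData G (G ⧸ H) A (fgI_inv H A) where
  π := QuotientGroup.mk' H
  ι := (fgI_inv H A).subtype
  π_surj := QuotientGroup.mk'_surjective H
  ι_inj := Subtype.val_injective
  ι_smul := fun _ _ => rfl
  ι_range := fun a ha => ⟨⟨a, fun h hh => ha h ((QuotientGroup.eq_one_iff h).2 hh)⟩, rfl⟩

theorem fgI_invData_ker [H.Normal] : (fgI_invData H A).π.ker = H :=
  QuotientGroup.ker_mk' H

theorem fgI_invData_π [H.Normal] (g : G) : (fgI_invData H A).π g = QuotientGroup.mk g := rfl

theorem fgI_invData_ι [H.Normal] (b : fgI_inv H A) : (fgI_invData H A).ι b = (b : A) := rfl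

end Inv

section Eq

variable {G : Type*} [Group G] {A : Type*} [AddCommGroup A] [DistribMulAction G A]

theorem fgI_H1Zero_of_eq {K K' : Subgroup G} (h : K = K') (h1 : fg_H1Zero K' A) :
    fg_H1Zero K A := by
  subst h
  exact h1

theorem fgI_H2Zero_of_eq {K K' : Subgroup G} (h : K = K') (h2 : fg_H2Zero K' A) :
    fg_H2Zero K A := by
  subst h
  exact h2

end Eq

end Fermat.Agent.S55
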