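import Fermat.Agent.S55.FG.SplitCoh
import Fermat.Agent.S55.FG.Down

set_option linter.style.haveILetI false
set_option linter.unusedSectionVars false

/-!
# S55 finite-group toolkit: Tate's theorem in degrees `-2 → 0` (abstract reciprocity law)

`fgG_recip : fgG_RecipStatement`: under `fg_TateHyp a` the Nakayama map
`σ ↦ ∑_τ a (τ, σ)` induces an isomorphism `G^ab ≅ A^G / N_G A`.
-/

namespace Fermat.Agent.S55

open groupCohomology

universe u v

section Bridge

variable {G : Type*} [Group G] {A : Type*} [AddCommGroup A] [DistribMulAction G A]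

theorem fgG_norm_top [Fintype G] (w : A) : fg_norm (⊤ : Subgroup G) w = ∑ g : G, g • w := by
  classical
  haveI : Fintype (⊤ : Subgroup G) := Fintype.ofFinite _
  unfold fg_norm
  rw [finsum_eq_sum_of_fintype]
  exact Fintype.sum_equiv (Subgroup.topEquiv (G := G)).toEquiv _ _ (fun k => rfl)

theorem fgG_nak_eq [Fintype G] (a : G × G → A) (σ : G) : fg_nak a σ = ∑ τ : G, a (τ, σ) := by
  unfold fg_nak
  rw [finsum_eq_sum_of_fintype]

end Bridge

section Main

variable {G : Type u} [Group G] [Fintype G] {A : Type v} [AddCommGroup A] [DistribMulAction G A]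
  {a : G × G → A}

/-- Additivity of the Nakayama map modulo norms. -/
theorem fgG_nak_mul (ha : IsCocycle₂ a) (σ σ' : G) :
    (∑ τ : G, a (τ, σ * σ')) =
      (∑ τ : G, a (τ, σ)) + (∑ τ : G, a (τ, σ')) - ∑ τ : G, τ • a (σ, σ') := by
  have h1 : ∑ τ : G, a (τ * σ, σ') = ∑ τ : G, a (τ, σ') :=
    Fintype.sum_equiv (Equiv.mulRight σ) _ _ (fun τ => rfl)
  have h2 : ∑ τ : G, (a (τ * σ, σ') + a (τ, σ)) =
      ∑ τ : G, (τ • a (σ, σ') + a (τ, σ * σ')) :=
    Finset.sum_congr rfl (fun τ _ => ha τ σ σ')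
  rw [Finset.sum_add_distrib, Finset.sum_add_distrib, h1] at h2
  have h3 := eq_sub_of_add_eq' h2.symm
  rw [h3]
  abel

theorem fgG_nak_one (ha : IsCocycle₂ a) :
    (∑ τ : G, a (τ, 1)) = ∑ τ : G, τ • a (1, 1) :=
  Finset.sum_congr rfl (fun τ _ => map_one_snd_of_isCocycle₂ ha τ)

/-- The norm of `x_σ` in the splitting module is the Nakayama element. -/
theorem fgG_norm_xel (ha : IsCocycle₂ a) (σ : G) :
    ∑ τ : G, τ • (fgG_Split.xel σ : fgG_Split a ha) =
      fgG_Split.incl (∑ τ : G, a (τ, σ)) := by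
  have h1 : ∑ τ : G, (fgG_Split.xel (τ * σ) : fgG_Split a ha) = ∑ τ : G, fgG_Split.xel τ :=
    Fintype.sum_equiv (Equiv.mulRight σ) _ _ (fun τ => rfl)
  have h2 : (fgG_Split.incl (∑ τ : G, a (τ, σ)) : fgG_Split a ha) =
      ∑ τ : G, fgG_Split.incl (a (τ, σ)) := by
    have : ∀ s : Finset G, (fgG_Split.incl (∑ τ ∈ s, a (τ, σ)) : fgG_Split a ha) =
        ∑ τ ∈ s, fgG_Split.incl (a (τ, σ)) := by
      intro s
      classical
      induction s using Finset.induction_on with
      | empty =>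
        simp only [Finset.sum_empty]
        rfl
      | insert x s hx ih =>
        rw [Finset.sum_insert hx, Finset.sum_insert hx, fgG_Split.incl_add, ih]
    exact this _
  rw [Finset.sum_congr rfl (fun τ _ => fgG_Split.smul_xel (a := a) (ha := ha) τ σ),
    Finset.sum_add_distrib, Finset.sum_sub_distrib, h1, sub_self, zero_add, h2]

theorem fgG_norm_incl (ha : IsCocycle₂ a) (w : A) :
    ∑ τ : G, τ • (fgG_Split.incl w : fgG_Split a ha) = fgG_Split.incl (∑ τ : G, τ • w) := by
  have : ∀ s : Finset G, (fgG_Split.incl (∑ τ ∈ s, τ • w) : fgG_Split a ha) =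
      ∑ τ ∈ s, fgG_Split.incl (τ • w) := by
    intro s
    classical
    induction s using Finset.induction_on with
    | empty =>
      simp only [Finset.sum_empty]
      rfl
    | insert x s hx ih =>
      rw [Finset.sum_insert hx, Finset.sum_insert hx, fgG_Split.incl_add, ih]
  rw [this]
  exact Finset.sum_congr rfl (fun τ _ => fgG_Split.smul_incl τ w)

theorem fgG_smul_sum_smul {M : Type*} [AddCommGroup M] [DistribMulAction G M] (g : G) (x : M) :
    g • ∑ τ : G, τ • x = ∑ τ : G, τ • x := by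
  rw [Finset.smul_sum]
  exact Fintype.sum_equiv (Equiv.mulLeft g) _ _ (fun τ => (mul_smul g τ x).symm)

/-- The map `(G → ℤ) → G^ab`, `f ↦ ∑_ρ f ρ • [ρ⁻¹]`. -/
noncomputable def fgG_lam (G : Type*) [Group G] [Fintype G] :
    fgG_Fun G ℤ →+ Additive (Abelianization G) where
  toFun f := ∑ ρ : G, f ρ • Additive.ofMul (Abelianization.of ρ⁻¹)
  map_zero' := by simp only [fgG_Fun.zero_apply, zero_smul, Finset.sum_const_zero]
  map_add' f g := by simp only [fgG_Fun.add_apply, add_smul, Finset.sum_add_distrib]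

theorem fgG_lam_apply (f : fgG_Fun G ℤ) :
    fgG_lam G f = ∑ ρ : G, f ρ • Additive.ofMul (Abelianization.of ρ⁻¹) := rfl

theorem fgG_lam_e (τ : G) : fgG_lam G (fgG_e τ) = Additive.ofMul (Abelianization.of τ) := by
  classical
  rw [fgG_lam_apply]
  simp [fgG_e_apply]

theorem fgG_lam_smul (σ : G) (f : fgG_Fun G ℤ) :
    fgG_lam G (σ • f) = fgG_lam G f + fgG_eps G f • Additive.ofMul (Abelianization.of σ) := by
  rw [fgG_lam_apply, fgG_lam_apply, fgG_eps_apply, Finset.sum_smul, ← Finset.sum_add_distrib]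
  refine Fintype.sum_equiv (Equiv.mulRight σ) _ _ (fun ρ => ?_)
  simp only [Equiv.coe_mulRight, fgG_Fun.smul_apply, mul_inv_rev, map_mul, ofMul_mul, smul_add,
    map_inv, ofMul_inv, smul_neg]
  abel

end Main

/-- **Tate's theorem in degrees `-2 → 0`** (abstract reciprocity law). -/
theorem fgG_recip : fgG_RecipStatement.{u, v} := by
  intro G _ _ A _ _ a hT
  classical
  haveI : Fintype G := Fintype.ofFinite G
  obtain ⟨ha, hK⟩ := hT
  -- the splitting module is cohomologically trivial in degrees -1, 0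
  have hyp : ∀ K : Subgroup G, fgF_H1T K (fgG_Split a ha) ∧ fgF_H2T K (fgG_Split a ha) :=
    fun K => ⟨fgG_split_H1 K (hK K).1 (hK K).2.2, fgG_split_H2 K (hK K).2.1⟩
  obtain ⟨h0, hm1⟩ := fgF_down_T (Nat.card G) G (fgG_Split a ha) rfl hyp
  -- the norm subgroup of `A`
  let Nr : AddSubgroup A := (fgF_normHom G A).range
  have hNr : ∀ x : A, x ∈ Nr ↔ ∃ w : A, x = ∑ g : G, g • w := by
    intro x
    constructor
    · rintro ⟨w, hw⟩
      exact ⟨w, by rw [← hw, fgF_normHom_apply]⟩
    · rintro ⟨w, hw⟩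
      exact ⟨w, by rw [hw, fgF_normHom_apply]⟩
  -- the Nakayama homomorphism
  let nak : G → A := fun σ => ∑ τ : G, a (τ, σ)
  have hnak : ∀ σ, fg_nak a σ = nak σ := fun σ => fgG_nak_eq a σ
  let Θ : G →* Multiplicative (A ⧸ Nr) := MonoidHom.mk'
    (fun σ => Multiplicative.ofAdd (QuotientAddGroup.mk (nak σ) : A ⧸ Nr)) (by
      intro σ σ'
      rw [← ofAdd_add]
      congr 1
      rw [← QuotientAddGroup.mk_add, QuotientAddGroup.eq]
      rw [hNr]
      refine ⟨a (σ, σ'), ?_⟩
      show -(∑ τ : G, a (τ, σ * σ')) + ((∑ τ : G, a (τ, σ)) + ∑ τ : G, a (τ, σ')) = _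
      rw [fgG_nak_mul ha]
      abel)
  have hΘ : ∀ σ, Θ σ = Multiplicative.ofAdd (QuotientAddGroup.mk (nak σ) : A ⧸ Nr) :=
    fun σ => rfl
  have hΘ1 : ∀ σ, Θ σ = 1 ↔ ∃ w : A, nak σ = ∑ g : G, g • w := by
    intro σ
    rw [hΘ, ← hNr, ← QuotientAddGroup.eq_zero_iff]
    rfl
  refine ⟨?_, ?_, ?_, ?_⟩
  · -- invariance
    intro σ g
    rw [hnak]
    apply fgG_Split.incl_injective (a := a) (ha := ha)
    rw [← fgG_Split.smul_incl, ← fgG_norm_xel ha, fgG_smul_sum_smul]
  · -- additivity modulo norms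
    intro σ σ'
    refine ⟨-a (σ, σ'), ?_⟩
    rw [hnak, hnak, hnak, fgG_norm_top]
    show (∑ τ : G, a (τ, σ * σ')) = _
    rw [fgG_nak_mul ha]
    simp only [smul_neg, Finset.sum_neg_distrib]
    abel
  · -- kernel
    intro σ
    rw [hnak]
    constructor
    · rintro ⟨w, hw⟩
      rw [fgG_norm_top] at hw
      -- `x_σ - incl w` has norm zero
      have h1 : ∑ᶠ g : G, g • ((fgG_Split.xel σ : fgG_Split a ha) - fgG_Split.incl w) = 0 := by
        rw [finsum_eq_sum_of_fintype]
        simp only [smul_sub, Finset.sum_sub_distrib]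
        rw [fgG_norm_xel ha, fgG_norm_incl ha, ← hw]
        exact sub_self _
      have h2 := hm1 _ h1
      -- apply `λ ∘ snd`
      let L : fgG_Split a ha →+ Additive (Abelianization G) :=
        { toFun := fun x => fgG_lam G (x.snd : fgG_Fun G ℤ)
          map_zero' := by
            show fgG_lam G ((0 : fgG_I G) : fgG_Fun G ℤ) = 0
            rw [AddSubgroup.coe_zero, map_zero]
          map_add' := fun x y => by
            show fgG_lam G ((x.snd + y.snd : fgG_I G) : fgG_Fun G ℤ) = _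
            rw [AddSubgroup.coe_add, map_add] }
      have hL : ∀ x, L x = fgG_lam G (x.snd : fgG_Fun G ℤ) := fun x => rfl
      have h3 : fgF_augT G (fgG_Split a ha) ≤ L.ker := by
        unfold fgF_augT
        rw [AddSubgroup.closure_le]
        rintro x ⟨g, w', rfl⟩
        show L (g • w' - w') = 0
        rw [map_sub, hL, hL, fgG_Split.snd_smul, fgG_I_coe_smul, fgG_lam_smul,
          (fgG_mem_I _).1 w'.snd.2, zero_smul, add_zero, sub_self]
      have h4 : L ((fgG_Split.xel σ : fgG_Split a ha) - fgG_Split.incl w) = 0 := h3 h2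
      rw [hL, fgG_Split.snd_sub, fgG_Split.snd_xel, fgG_Split.snd_incl, sub_zero, fgG_coe_d,
        map_sub, fgG_lam_e, fgG_lam_e, map_one, ofMul_one, sub_zero] at h4
      have h5 : Abelianization.of σ = 1 := h4
      rw [← Abelianization.ker_of]
      exact MonoidHom.mem_ker.2 h5
    · intro hσ
      have := Abelianization.commutator_subset_ker Θ hσ
      rw [MonoidHom.mem_ker, hΘ1] at this
      obtain ⟨w, hw⟩ := this
      exact ⟨w, by rw [fgG_norm_top]; exact hw⟩
  · -- surjectivity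
    intro c hc
    have hinv : ∀ g : G, g • (fgG_Split.incl c : fgG_Split a ha) = fgG_Split.incl c := by
      intro g
      rw [fgG_Split.smul_incl, hc]
    obtain ⟨X, hX⟩ := h0 _ hinv
    rw [finsum_eq_sum_of_fintype] at hX
    -- decompose `X`
    set f : fgG_Fun G ℤ := (X.snd : fgG_Fun G ℤ) with hf
    have hfε : fgG_eps G f = 0 := (fgG_mem_I _).1 X.snd.2
    let X' : fgG_Split a ha := X - ∑ ρ : G, f ρ • (fgG_Split.xel ρ⁻¹ : fgG_Split a ha)
    have hsndsum : ∀ s : Finset G,
        ((∑ ρ ∈ s, f ρ • (fgG_Split.xel ρ⁻¹ : fgG_Split a ha)).snd : fgG_Fun G ℤ) =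
          ∑ ρ ∈ s, f ρ • (fgG_e ρ⁻¹ - fgG_e 1) := by
      intro s
      induction s using Finset.induction_on with
      | empty =>
        simp only [Finset.sum_empty]
        rfl
      | insert x s hx ih =>
        rw [Finset.sum_insert hx, Finset.sum_insert hx, fgG_Split.snd_add, AddSubgroup.coe_add,
          ih, fgG_Split.snd_zsmul, AddSubgroup.coe_zsmul, fgG_Split.snd_xel, fgG_coe_d]
    have hX'snd : X'.snd = 0 := by
      apply Subtype.ext
      show ((X - ∑ ρ : G, f ρ • (fgG_Split.xel ρ⁻¹ : fgG_Split a ha)).snd : fgG_Fun G ℤ) = 0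
      rw [fgG_Split.snd_sub, AddSubgroup.coe_sub, hsndsum]
      simp only [smul_sub, Finset.sum_sub_distrib]
      rw [← fgG_eq_sum_e f, ← Finset.sum_smul, ← fgG_eps_apply, hfε, zero_smul, sub_zero]
      exact sub_self _
    have hX' : X' = fgG_Split.incl X'.fst := fgG_Split.eq_incl_of_snd_eq_zero _ hX'snd
    have hXdec : X = fgG_Split.incl X'.fst +
        ∑ ρ : G, f ρ • (fgG_Split.xel ρ⁻¹ : fgG_Split a ha) := by
      rw [← hX']
      show X = X - _ + _
      abel
    -- take norms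
    have hnorm : (fgG_Split.incl c : fgG_Split a ha) =
        fgG_Split.incl ((∑ g : G, g • X'.fst) + ∑ ρ : G, f ρ • nak ρ⁻¹) := by
      rw [← hX]
      conv_lhs => rw [hXdec]
      simp only [smul_add, Finset.sum_add_distrib, Finset.smul_sum]
      rw [fgG_norm_incl ha, Finset.sum_comm, fgG_Split.incl_add]
      congr 1
      have : ∀ s : Finset G, (fgG_Split.incl (∑ ρ ∈ s, f ρ • nak ρ⁻¹) : fgG_Split a ha) =
          ∑ ρ ∈ s, f ρ • fgG_Split.incl (nak ρ⁻¹) := by
        intro s
        induction s using Finset.induction_on with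
        | empty =>
          simp only [Finset.sum_empty]
          rfl
        | insert x s hx ih =>
          rw [Finset.sum_insert hx, Finset.sum_insert hx, fgG_Split.incl_add, ih,
            fgG_Split.incl_zsmul]
      rw [this]
      refine Finset.sum_congr rfl (fun ρ _ => ?_)
      rw [← fgG_norm_xel ha, Finset.smul_sum]
      exact Finset.sum_congr rfl (fun τ _ => smul_comm τ (f ρ) _)
    have hc' : c = (∑ g : G, g • X'.fst) + ∑ ρ : G, f ρ • nak ρ⁻¹ :=
      fgG_Split.incl_injective hnorm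
    -- the class of `c` lies in the range of `Θ`
    have hrange : Multiplicative.ofAdd (QuotientAddGroup.mk c : A ⧸ Nr) ∈ Θ.range := by
      have e : Multiplicative.ofAdd (QuotientAddGroup.mk c : A ⧸ Nr) =
          ∏ ρ : G, (Θ ρ⁻¹) ^ (f ρ) := by
        have e1 : (QuotientAddGroup.mk c : A ⧸ Nr) =
            ∑ ρ : G, f ρ • (QuotientAddGroup.mk (nak ρ⁻¹) : A ⧸ Nr) := by
          rw [hc', QuotientAddGroup.mk_add]
          have z : (QuotientAddGroup.mk (∑ g : G, g • X'.fst) : A ⧸ Nr) = 0 := by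
            rw [QuotientAddGroup.eq_zero_iff, hNr]
            exact ⟨_, rfl⟩
          rw [z, zero_add]
          rw [← QuotientAddGroup.mk'_apply, map_sum]
          exact Finset.sum_congr rfl (fun ρ _ => by rw [map_zsmul]; rfl)
        rw [e1, ofAdd_sum]
        exact Finset.prod_congr rfl (fun ρ _ => by rw [ofAdd_zsmul, hΘ])
      rw [e]
      exact Subgroup.prod_mem _ (fun ρ _ => Subgroup.zpow_mem _ (MonoidHom.mem_range.2 ⟨_, rfl⟩) _)
    obtain ⟨σ, hσ⟩ := MonoidHom.mem_range.1 hrange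
    rw [hΘ] at hσ
    have hσ' : (QuotientAddGroup.mk (nak σ) : A ⧸ Nr) = QuotientAddGroup.mk c :=
      Multiplicative.ofAdd.injective hσ
    rw [QuotientAddGroup.eq, hNr] at hσ'
    obtain ⟨w, hw⟩ := hσ'
    refine ⟨σ, w, ?_⟩
    rw [hnak, fgG_norm_top, ← hw]
    abel

end Fermat.Agent.S55
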