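import Fermat.Agent.S55.FG.DownBasic

set_option linter.style.haveILetI false
set_option linter.unusedSectionVars false

/-!
# S55 finite-group toolkit: the coinduced module `G → B` and the augmentation ideal

* `fgG_Fun G B` : functions `G → B` with `G` acting by right translation `(σ • f) τ = f (τ * σ)`.
* `fgG_fun_H1`, `fgG_fun_H2` : `H¹(K, G → B) = H²(K, G → B) = 0` for every subgroup `K`
  (explicit contracting homotopy).
* `fgG_eps`, `fgG_I` : augmentation and augmentation ideal of `G → ℤ` (`G` finite).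
* `fgG_I_H1`, `fgG_I_H2` : the first two cohomology groups of the augmentation ideal.
-/

namespace Fermat.Agent.S55

open groupCohomology

/-- Functions `G → B`, with `G` acting by right translation. -/
def fgG_Fun (G : Type*) (B : Type*) : Type _ := G → B

namespace fgG_Fun

variable {G : Type*} {B : Type*}

instance [AddCommGroup B] : AddCommGroup (fgG_Fun G B) :=
  inferInstanceAs (AddCommGroup (G → B))

@[ext] theorem ext {f g : fgG_Fun G B} (h : ∀ x, f x = g x) : f = g := funext h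

instance [Group G] [AddCommGroup B] : DistribMulAction G (fgG_Fun G B) where
  smul σ f := fun τ => f (τ * σ)
  one_smul f := by
    ext τ
    show f (τ * 1) = f τ
    rw [mul_one]
  mul_smul σ σ' f := by
    ext τ
    show f (τ * (σ * σ')) = f (τ * σ * σ')
    rw [mul_assoc]
  smul_zero σ := rfl
  smul_add σ f g := rfl

theorem smul_apply [Group G] [AddCommGroup B] (σ : G) (f : fgG_Fun G B) (τ : G) :
    (σ • f) τ = f (τ * σ) := rfl

theorem add_apply [AddCommGroup B] (f g : fgG_Fun G B) (τ : G) : (f + g) τ = f τ + g τ := rfl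

theorem sub_apply [AddCommGroup B] (f g : fgG_Fun G B) (τ : G) : (f - g) τ = f τ - g τ := rfl

theorem zero_apply [AddCommGroup B] (τ : G) : (0 : fgG_Fun G B) τ = 0 := rfl

theorem neg_apply [AddCommGroup B] (f : fgG_Fun G B) (τ : G) : (-f) τ = -f τ := rfl

end fgG_Fun

section Homotopy

variable {G : Type*} [Group G] {B : Type*} [AddCommGroup B] (K : Subgroup G)

theorem fgG_cosetEquiv_symm_mul (x : G) (g : K) :
    (fgF_cosetEquiv K).symm (x * g) =
      (((fgF_cosetEquiv K).symm x).1, ((fgF_cosetEquiv K).symm x).2 * g) := by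
  rw [Equiv.symm_apply_eq, fgF_cosetEquiv_apply]
  have h := (fgF_cosetEquiv K).apply_symm_apply x
  rw [show (fgF_cosetEquiv K).symm x = (((fgF_cosetEquiv K).symm x).1,
    ((fgF_cosetEquiv K).symm x).2) from rfl, fgF_cosetEquiv_apply] at h
  rw [Subgroup.coe_mul, ← mul_assoc, h]

theorem fgG_smul_apply_sub (k : K) (f : fgG_Fun G B) (x : G) :
    (k • f) x = f (x * (k : G)) := rfl

/-- `H¹(K, G → B) = 0`. -/
theorem fgG_fun_H1 : fgF_H1T K (fgG_Fun G B) := by
  intro φ hφ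
  let z : fgG_Fun G B := fun x =>
    φ ((fgF_cosetEquiv K).symm x).2 (((fgF_cosetEquiv K).symm x).1.out)
  refine ⟨z, fun g => ?_⟩
  ext x
  rw [fgG_Fun.sub_apply, fgG_smul_apply_sub]
  show φ ((fgF_cosetEquiv K).symm (x * g)).2 (((fgF_cosetEquiv K).symm (x * g)).1.out) -
    φ ((fgF_cosetEquiv K).symm x).2 (((fgF_cosetEquiv K).symm x).1.out) = φ g x
  rw [fgG_cosetEquiv_symm_mul]
  simp only
  rw [hφ, fgG_Fun.add_apply, fgG_smul_apply_sub, add_sub_cancel_right]
  congr 1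
  have h := (fgF_cosetEquiv K).apply_symm_apply x
  rw [show (fgF_cosetEquiv K).symm x = (((fgF_cosetEquiv K).symm x).1,
    ((fgF_cosetEquiv K).symm x).2) from rfl, fgF_cosetEquiv_apply] at h
  exact h

/-- `H²(K, G → B) = 0`. -/
theorem fgG_fun_H2 : fgF_H2T K (fgG_Fun G B) := by
  intro F hF
  let ψ : K → fgG_Fun G B := fun h x =>
    F (((fgF_cosetEquiv K).symm x).2, h) (((fgF_cosetEquiv K).symm x).1.out)
  refine ⟨ψ, fun g h => ?_⟩
  ext x
  rw [fgG_Fun.add_apply, fgG_Fun.sub_apply, fgG_smul_apply_sub]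
  show F (((fgF_cosetEquiv K).symm (x * g)).2, h) (((fgF_cosetEquiv K).symm (x * g)).1.out) -
    F (((fgF_cosetEquiv K).symm x).2, g * h) (((fgF_cosetEquiv K).symm x).1.out) +
    F (((fgF_cosetEquiv K).symm x).2, g) (((fgF_cosetEquiv K).symm x).1.out) = F (g, h) x
  rw [fgG_cosetEquiv_symm_mul]
  simp only
  set k := ((fgF_cosetEquiv K).symm x).2 with hk
  set t := ((fgF_cosetEquiv K).symm x).1.out with ht
  have hx : t * (k : G) = x := by
    have h := (fgF_cosetEquiv K).apply_symm_apply x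
    rw [show (fgF_cosetEquiv K).symm x = (((fgF_cosetEquiv K).symm x).1,
      ((fgF_cosetEquiv K).symm x).2) from rfl, fgF_cosetEquiv_apply] at h
    exact h
  have key := congrFun (hF k g h) t
  rw [fgG_Fun.add_apply, fgG_Fun.add_apply, fgG_smul_apply_sub, hx] at key
  have key' := eq_sub_of_add_eq key.symm
  rw [key']
  abel

end Homotopy

section Aug

variable (G : Type*) [Group G] [Fintype G]

/-- The augmentation `(G → ℤ) → ℤ`. -/
def fgG_eps : fgG_Fun G ℤ →+ ℤ where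
  toFun f := ∑ τ : G, f τ
  map_zero' := by simp [fgG_Fun.zero_apply]
  map_add' f g := by simp [fgG_Fun.add_apply, Finset.sum_add_distrib]

variable {G}

theorem fgG_eps_apply (f : fgG_Fun G ℤ) : fgG_eps G f = ∑ τ : G, f τ := rfl

theorem fgG_eps_smul (σ : G) (f : fgG_Fun G ℤ) : fgG_eps G (σ • f) = fgG_eps G f := by
  rw [fgG_eps_apply, fgG_eps_apply]
  exact Fintype.sum_equiv (Equiv.mulRight σ) _ _ (fun τ => rfl)

variable (G)

/-- The augmentation ideal `I_G ⊆ (G → ℤ)`. -/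
def fgG_I : AddSubgroup (fgG_Fun G ℤ) := (fgG_eps G).ker

variable {G}

theorem fgG_mem_I (f : fgG_Fun G ℤ) : f ∈ fgG_I G ↔ fgG_eps G f = 0 := AddMonoidHom.mem_ker

instance : DistribMulAction G (fgG_I G) where
  smul σ f := ⟨σ • (f : fgG_Fun G ℤ), by
    rw [fgG_mem_I, fgG_eps_smul]
    exact (fgG_mem_I _).1 f.2⟩
  one_smul f := Subtype.ext (one_smul G (f : fgG_Fun G ℤ))
  mul_smul σ σ' f := Subtype.ext (mul_smul σ σ' (f : fgG_Fun G ℤ))
  smul_zero σ := Subtype.ext (smul_zero σ)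
  smul_add σ f g := Subtype.ext (smul_add σ (f : fgG_Fun G ℤ) g)

theorem fgG_I_coe_smul (σ : G) (f : fgG_I G) :
    ((σ • f : fgG_I G) : fgG_Fun G ℤ) = σ • (f : fgG_Fun G ℤ) := rfl

theorem fgG_I_coe_smul_sub (K : Subgroup G) (k : K) (f : fgG_I G) :
    ((k • f : fgG_I G) : fgG_Fun G ℤ) = k • (f : fgG_Fun G ℤ) := rfl

/-- The basis element `e τ` of `G → ℤ` (the indicator of `τ⁻¹`), so that `σ • e τ = e (σ τ)`. -/
noncomputable def fgG_e (τ : G) : fgG_Fun G ℤ := by
  classical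
  exact fun ρ => if ρ = τ⁻¹ then 1 else 0

theorem fgG_e_apply (τ ρ : G) [Decidable (ρ = τ⁻¹)] :
    fgG_e τ ρ = if ρ = τ⁻¹ then 1 else 0 := by
  unfold fgG_e
  congr

theorem fgG_smul_e (σ τ : G) : σ • fgG_e τ = fgG_e (σ * τ) := by
  classical
  ext ρ
  rw [fgG_Fun.smul_apply, fgG_e_apply, fgG_e_apply]
  have : ρ * σ = τ⁻¹ ↔ ρ = (σ * τ)⁻¹ := by
    rw [mul_inv_rev, eq_mul_inv_iff_mul_eq]
  simp only [this]

theorem fgG_eps_e (τ : G) : fgG_eps G (fgG_e τ) = 1 := by
  classical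
  rw [fgG_eps_apply]
  simp [fgG_e_apply]

/-- Every `f : G → ℤ` is `∑_ρ f ρ • e ρ⁻¹`. -/
theorem fgG_eq_sum_e (f : fgG_Fun G ℤ) : f = ∑ ρ : G, f ρ • fgG_e ρ⁻¹ := by
  classical
  ext x
  have : (∑ ρ : G, f ρ • fgG_e ρ⁻¹) x = ∑ ρ : G, f ρ * fgG_e ρ⁻¹ x := by
    have h : ∀ (s : Finset G), (∑ ρ ∈ s, f ρ • fgG_e ρ⁻¹) x = ∑ ρ ∈ s, f ρ * fgG_e ρ⁻¹ x := by
      intro s
      induction s using Finset.induction_on with
      | empty => simp [fgG_Fun.zero_apply]
      | insert a s ha ih =>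
        rw [Finset.sum_insert ha, Finset.sum_insert ha, fgG_Fun.add_apply, ih]
        rfl
    exact h _
  rw [this]
  simp [fgG_e_apply]

/-- The element `e τ - e 1` of the augmentation ideal. -/
noncomputable def fgG_d (τ : G) : fgG_I G :=
  ⟨fgG_e τ - fgG_e 1, by rw [fgG_mem_I, map_sub, fgG_eps_e, fgG_eps_e, sub_self]⟩

theorem fgG_coe_d (τ : G) : ((fgG_d τ : fgG_I G) : fgG_Fun G ℤ) = fgG_e τ - fgG_e 1 := rfl

theorem fgG_smul_d (σ τ : G) : σ • fgG_d τ = fgG_d (σ * τ) - fgG_d σ := by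
  apply Subtype.ext
  rw [fgG_I_coe_smul, AddSubgroup.coe_sub, fgG_coe_d, fgG_coe_d, fgG_coe_d, smul_sub, fgG_smul_e,
    fgG_smul_e, mul_one]
  abel

theorem fgG_d_one : fgG_d (1 : G) = 0 := by
  apply Subtype.ext
  rw [fgG_coe_d, sub_self]
  rfl

end Aug

end Fermat.Agent.S55
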