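import Fermat.Agent.S55.FG.Defs3
import Fermat.Agent.S55.FG.SplitFun
import Fermat.Agent.S55.FG.InfRes2

/-!
# S55 finite-group toolkit: dimension shifting by the coinduced module

For a `G`-module `M` we use the exact sequence `0 → M → Fun(G, M) → Sh(M) → 0`, where
`Fun(G, M) = fgG_Fun G M` is coinduced (right translation) and `Sh(M) = fgH_sh G M` is the concrete
model `{f : G → M | f 1 = 0}` of the cokernel, with the action
`(σ • f) τ = f (τ σ) - τ • f σ`.

* `fgH_fun_H3T` : `H³(G, Fun(G, B)) = 0` ; `fgH_fun_H0` : `Ĥ⁰(K, Fun(G, B)) = 0` (`K` finite)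
* `fgH_sh_H0` : `H¹(K, M) = 0 ⇒ Ĥ⁰(K, Sh M) = 0`
* `fgH_sh_H1` : `H²(K, M) = 0 ⇒ H¹(K, Sh M) = 0`
* `fgH_sh_H3` : `H²(G, Sh M) = 0 ⇒ H³(G, M) = 0`
-/

set_option linter.style.haveILetI false
set_option linter.unusedSectionVars false
set_option linter.unusedVariables false
set_option linter.style.longLine false

namespace Fermat.Agent.S55

open groupCohomology

/-- `H³(G, A) = 0` for the whole group. -/
def fgH_H3T (G : Type*) [Group G] (A : Type*) [AddCommGroup A] [DistribMulAction G A] : Prop :=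
  ∀ f : G × G × G → A, fg_IsCocycle₃ f → fg_IsCoboundary₃ f

section Maps

variable {K : Type*} [Group K] {M N : Type*} [AddCommGroup M] [AddCommGroup N]
  [DistribMulAction K M] [DistribMulAction K N]

theorem fgH_isCocycle₁_of_map (φ : M →+ N) (hφ : ∀ (k : K) (m : M), φ (k • m) = k • φ m)
    (hinj : Function.Injective φ) {c : K → M} (h : IsCocycle₁ (fun k => φ (c k))) :
    IsCocycle₁ c := by
  intro g k
  apply hinj
  rw [map_add, hφ]
  exact h g k

theorem fgH_isCocycle₂_map (φ : M →+ N) (hφ : ∀ (k : K) (m : M), φ (k • m) = k • φ m)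
    {F : K × K → M} (h : IsCocycle₂ F) : IsCocycle₂ (fun p => φ (F p)) := by
  intro g k j
  show φ _ + φ _ = g • φ _ + φ _
  rw [← hφ, ← map_add, ← map_add, h g k j]

theorem fgH_isCocycle₂_of_map (φ : M →+ N) (hφ : ∀ (k : K) (m : M), φ (k • m) = k • φ m)
    (hinj : Function.Injective φ) {F : K × K → M} (h : IsCocycle₂ (fun p => φ (F p))) :
    IsCocycle₂ F := by
  intro g k j
  apply hinj
  rw [map_add, map_add, hφ]
  exact h g k j

theorem fgH_isCocycle₃_map (φ : M →+ N) (hφ : ∀ (k : K) (m : M), φ (k • m) = k • φ m)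
    {f : K × K × K → M} (h : fg_IsCocycle₃ f) : fg_IsCocycle₃ (fun p => φ (f p)) := by
  intro g k j l
  show g • φ _ - φ _ + φ _ - φ _ + φ _ = 0
  rw [← hφ, ← map_sub, ← map_add, ← map_sub, ← map_add, h g k j l, map_zero]

/-- The coboundary of a 2-cochain is a 3-cocycle. -/
theorem fgH_isCocycle₃_d (y : K × K → M) :
    fg_IsCocycle₃ (fun p : K × K × K =>
      p.1 • y (p.2.1, p.2.2) - y (p.1 * p.2.1, p.2.2) + y (p.1, p.2.1 * p.2.2)
        - y (p.1, p.2.1)) := by
  intro g h j k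
  simp only [smul_add, smul_sub, mul_smul, mul_assoc]
  abel

/-- A 2-cochain with vanishing coboundary is a 2-cocycle. -/
theorem fgH_isCocycle₂_of_d_eq_zero {y : K × K → M}
    (h : ∀ g k j : K, g • y (k, j) - y (g * k, j) + y (g, k * j) - y (g, k) = 0) :
    IsCocycle₂ y := by
  intro g k j
  have := h g k j
  have e : y (g * k, j) + y (g, k) =
      g • y (k, j) + y (g, k * j) - (g • y (k, j) - y (g * k, j) + y (g, k * j) - y (g, k)) := by
    abel
  rw [e, this, sub_zero]

end Maps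

section Coind

variable {G : Type*} [Group G] {B : Type*} [AddCommGroup B]

/-- Evaluation at a point, as an additive map. -/
def fgH_ev (x : G) : fgG_Fun G B →+ B where
  toFun f := f x
  map_zero' := rfl
  map_add' _ _ := rfl

theorem fgH_ev_apply (x : G) (f : fgG_Fun G B) : fgH_ev x f = f x := rfl

/-- `H³(G, G → B) = 0` (explicit contracting homotopy). -/
theorem fgH_fun_H3T : fgH_H3T G (fgG_Fun G B) := by
  intro f hf
  refine ⟨fun p => fun x => f (x, p.1, p.2) 1, fun g h j => ?_⟩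
  ext x
  have key := congrArg (fun u : fgG_Fun G B => u 1) (hf x g h j)
  simp only [fgG_Fun.add_apply, fgG_Fun.sub_apply, fgG_Fun.smul_apply, fgG_Fun.zero_apply,
    one_mul] at key
  rw [fgG_Fun.sub_apply, fgG_Fun.add_apply, fgG_Fun.sub_apply, fgG_Fun.smul_apply]
  show f (x * g, h, j) 1 - f (x, g * h, j) 1 + f (x, g, h * j) 1 - f (x, g, h) 1 = f (g, h, j) x
  have e : f (g, h, j) x = f (x * g, h, j) 1 - f (x, g * h, j) 1 + f (x, g, h * j) 1
      - f (x, g, h) 1 + (f (g, h, j) x - f (x * g, h, j) 1 + f (x, g * h, j) 1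
        - f (x, g, h * j) 1 + f (x, g, h) 1) := by abel
  rw [e, key, add_zero]

/-- `Ĥ⁰(K, G → B) = 0` for a finite subgroup `K`. -/
theorem fgH_fun_H0 (K : Subgroup G) [Finite K] : fgF_H0T K (fgG_Fun G B) := by
  classical
  haveI : Fintype K := Fintype.ofFinite K
  intro f hf
  have hf' : ∀ (k : K) (x : G), f (x * (k : G)) = f x := by
    intro k x
    have := congrArg (fun u : fgG_Fun G B => u x) (hf k)
    exact this
  let w : fgG_Fun G B := fun x => if ((fgF_cosetEquiv K).symm x).2 = 1 then f x else 0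
  refine ⟨w, ?_⟩
  rw [finsum_eq_sum_of_fintype]
  ext x
  have e1 : (∑ k : K, k • w) x = ∑ k : K, (k • w) x := map_sum (fgH_ev x) _ _
  rw [e1]
  have e2 : ∀ k : K, (k • w) x = if ((fgF_cosetEquiv K).symm x).2 * k = 1 then f x else 0 := by
    intro k
    show w (x * (k : G)) = _
    show (if ((fgF_cosetEquiv K).symm (x * (k : G))).2 = 1 then f (x * (k : G)) else 0) = _
    rw [fgG_cosetEquiv_symm_mul, hf']
  simp only [e2]
  rw [Finset.sum_eq_single (((fgF_cosetEquiv K).symm x).2)⁻¹]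
  · rw [if_pos (mul_inv_cancel _)]
  · intro k _ hk
    rw [if_neg]
    intro h
    exact hk (eq_inv_of_mul_eq_one_right h)
  · intro h
    exact absurd (Finset.mem_univ _) h

end Coind

section Shift

variable (G : Type*) [Group G] (M : Type*) [AddCommGroup M] [DistribMulAction G M]

/-- The shifted module `Sh(M) = Fun(G, M) / M`, in the concrete model `{f | f 1 = 0}`. -/
def fgH_sh : AddSubgroup (fgG_Fun G M) where
  carrier := {f | f 1 = 0}
  zero_mem' := rfl
  add_mem' := fun {f f'} hf hf' => by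
    show f 1 + f' 1 = 0
    rw [show f 1 = 0 from hf, show f' 1 = 0 from hf', add_zero]
  neg_mem' := fun {f} hf => by
    show -(f 1) = 0
    rw [show f 1 = 0 from hf, neg_zero]

variable {G M}

theorem fgH_sh_one (x : fgH_sh G M) : (x : fgG_Fun G M) 1 = 0 := x.2

instance fgH_shSMul : SMul G (fgH_sh G M) where
  smul σ x := ⟨fun τ => (x : fgG_Fun G M) (τ * σ) - τ • (x : fgG_Fun G M) σ, by
    show (x : fgG_Fun G M) (1 * σ) - (1 : G) • (x : fgG_Fun G M) σ = 0
    rw [one_mul, one_smul, sub_self]⟩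

theorem fgH_sh_smul_apply (σ : G) (x : fgH_sh G M) (τ : G) :
    ((σ • x : fgH_sh G M) : fgG_Fun G M) τ
      = (x : fgG_Fun G M) (τ * σ) - τ • (x : fgG_Fun G M) σ := rfl

instance fgH_shAction : DistribMulAction G (fgH_sh G M) where
  one_smul x := by
    apply Subtype.ext
    ext τ
    rw [fgH_sh_smul_apply, mul_one, fgH_sh_one, smul_zero, sub_zero]
  mul_smul σ σ' x := by
    apply Subtype.ext
    ext τ
    rw [fgH_sh_smul_apply, fgH_sh_smul_apply, fgH_sh_smul_apply, fgH_sh_smul_apply, smul_sub,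
      mul_smul, mul_assoc]
    abel
  smul_zero σ := by
    apply Subtype.ext
    ext τ
    rw [fgH_sh_smul_apply]
    show (0 : M) - τ • (0 : M) = 0
    rw [smul_zero, sub_zero]
  smul_add σ x y := by
    apply Subtype.ext
    ext τ
    rw [fgH_sh_smul_apply]
    show ((x : fgG_Fun G M) (τ * σ) + (y : fgG_Fun G M) (τ * σ))
      - τ • ((x : fgG_Fun G M) σ + (y : fgG_Fun G M) σ)
      = ((σ • x : fgH_sh G M) : fgG_Fun G M) τ + ((σ • y : fgH_sh G M) : fgG_Fun G M) τ
    rw [fgH_sh_smul_apply, fgH_sh_smul_apply, smul_add]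
    abel

variable (G M)

/-- The embedding `M → Fun(G, M)`, `m ↦ (τ ↦ τ • m)`. -/
def fgH_phi : M →+ fgG_Fun G M where
  toFun m := fun τ => τ • m
  map_zero' := by
    ext τ
    exact smul_zero τ
  map_add' m m' := by
    ext τ
    exact smul_add τ m m'

/-- The projection `Fun(G, M) → Sh(M)`, `f ↦ (τ ↦ f τ - τ • f 1)`. -/
def fgH_p : fgG_Fun G M →+ fgH_sh G M where
  toFun f := ⟨fun τ => f τ - τ • f 1, by
    show f 1 - (1 : G) • f 1 = 0
    rw [one_smul, sub_self]⟩
  map_zero' := by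
    apply Subtype.ext
    ext τ
    show (0 : M) - τ • (0 : M) = 0
    rw [smul_zero, sub_zero]
  map_add' f f' := by
    apply Subtype.ext
    ext τ
    show (f τ + f' τ) - τ • (f 1 + f' 1) = (f τ - τ • f 1) + (f' τ - τ • f' 1)
    rw [smul_add]
    abel

variable {G M}

theorem fgH_phi_apply (m : M) (τ : G) : fgH_phi G M m τ = τ • m := rfl

theorem fgH_p_apply (f : fgG_Fun G M) (τ : G) :
    ((fgH_p G M f : fgH_sh G M) : fgG_Fun G M) τ = f τ - τ • f 1 := rfl

theorem fgH_phi_smul (σ : G) (m : M) : fgH_phi G M (σ • m) = σ • fgH_phi G M m := by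
  ext τ
  rw [fgG_Fun.smul_apply, fgH_phi_apply, fgH_phi_apply, mul_smul]

theorem fgH_phi_injective : Function.Injective (fgH_phi G M) := by
  intro m m' h
  have := congrArg (fun u : fgG_Fun G M => u 1) h
  simpa [fgH_phi_apply] using this

theorem fgH_p_smul (σ : G) (f : fgG_Fun G M) : fgH_p G M (σ • f) = σ • fgH_p G M f := by
  apply Subtype.ext
  ext τ
  rw [fgH_sh_smul_apply, fgH_p_apply, fgH_p_apply, fgH_p_apply, fgG_Fun.smul_apply,
    fgG_Fun.smul_apply, one_mul, smul_sub, mul_smul]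
  abel

theorem fgH_p_coe (x : fgH_sh G M) : fgH_p G M (x : fgG_Fun G M) = x := by
  apply Subtype.ext
  ext τ
  rw [fgH_p_apply, fgH_sh_one, smul_zero, sub_zero]

theorem fgH_p_phi (m : M) : fgH_p G M (fgH_phi G M m) = 0 := by
  apply Subtype.ext
  ext τ
  rw [fgH_p_apply, fgH_phi_apply, fgH_phi_apply, one_smul, sub_self]
  rfl

theorem fgH_eq_phi_of_p_eq_zero (f : fgG_Fun G M) (h : fgH_p G M f = 0) :
    f = fgH_phi G M (f 1) := by
  ext τ
  have := congrArg (fun u : fgH_sh G M => (u : fgG_Fun G M) τ) h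
  simp only [fgH_p_apply] at this
  rw [fgH_phi_apply]
  exact sub_eq_zero.1 this

theorem fgH_smul_coe (σ : G) (x : fgH_sh G M) :
    σ • (x : fgG_Fun G M) = ((σ • x : fgH_sh G M) : fgG_Fun G M)
      + fgH_phi G M ((x : fgG_Fun G M) σ) := by
  ext τ
  rw [fgG_Fun.add_apply, fgH_sh_smul_apply, fgG_Fun.smul_apply, fgH_phi_apply]
  abel

end Shift

section ShiftLemmas

variable {G : Type*} [Group G] {M : Type*} [AddCommGroup M] [DistribMulAction G M]

/-- (a) `H¹(K, M) = 0 ⇒ Ĥ⁰(K, Sh M) = 0`. -/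
theorem fgH_sh_H0 (K : Subgroup G) [Finite K] (h1 : fgF_H1T K M) :
    fgF_H0T K (fgH_sh G M) := by
  classical
  haveI : Fintype K := Fintype.ofFinite K
  intro x hx
  -- `x (τ k) = x τ + τ • x k`
  have hx' : ∀ (k : K) (τ : G), (x : fgG_Fun G M) (τ * (k : G))
      = (x : fgG_Fun G M) τ + τ • (x : fgG_Fun G M) (k : G) := by
    intro k τ
    have := congrArg (fun u : fgH_sh G M => (u : fgG_Fun G M) τ) (hx k)
    have e : (x : fgG_Fun G M) (τ * (k : G)) - τ • (x : fgG_Fun G M) (k : G)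
        = (x : fgG_Fun G M) τ := this
    rw [← e]
    abel
  have hc : IsCocycle₁ (fun k : K => (x : fgG_Fun G M) (k : G)) := by
    intro k k'
    show (x : fgG_Fun G M) (((k * k' : K)) : G) = (k : G) • _ + _
    rw [Subgroup.coe_mul, hx' k' (k : G)]
    abel
  obtain ⟨m, hm⟩ := h1 _ hc
  have hm' : ∀ k : K, (k : G) • m - m = (x : fgG_Fun G M) (k : G) := hm
  -- the invariant lift
  set y : fgG_Fun G M := (x : fgG_Fun G M) - fgH_phi G M m with hy
  have hyinv : ∀ k : K, k • y = y := by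
    intro k
    ext τ
    show y (τ * (k : G)) = y τ
    rw [hy, fgG_Fun.sub_apply, fgG_Fun.sub_apply, fgH_phi_apply, fgH_phi_apply, hx' k τ,
      ← hm' k, smul_sub, mul_smul]
    abel
  obtain ⟨w, hw⟩ := fgH_fun_H0 K y hyinv
  rw [finsum_eq_sum_of_fintype] at hw
  refine ⟨fgH_p G M w, ?_⟩
  rw [finsum_eq_sum_of_fintype]
  have e1 : ∑ k : K, k • fgH_p G M w = fgH_p G M (∑ k : K, k • w) := by
    rw [map_sum]
    exact Finset.sum_congr rfl (fun k _ => (fgH_p_smul (k : G) w).symm)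
  rw [e1, hw, hy, map_sub, fgH_p_coe, fgH_p_phi, sub_zero]

/-- (b) `H²(K, M) = 0 ⇒ H¹(K, Sh M) = 0`. -/
theorem fgH_sh_H1 (K : Subgroup G) (h2 : fgF_H2T K M) : fgF_H1T K (fgH_sh G M) := by
  intro c hc
  -- the 2-cocycle `F (k, k') = c k' k`
  have hd : ∀ k k' : K, k • ((c k' : fgH_sh G M) : fgG_Fun G M)
      - ((c (k * k') : fgH_sh G M) : fgG_Fun G M) + ((c k : fgH_sh G M) : fgG_Fun G M)
      = fgH_phi G M (((c k' : fgH_sh G M) : fgG_Fun G M) (k : G)) := by
    intro k k'
    have e1 : k • ((c k' : fgH_sh G M) : fgG_Fun G M)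
        = (((k : G) • c k' : fgH_sh G M) : fgG_Fun G M)
          + fgH_phi G M (((c k' : fgH_sh G M) : fgG_Fun G M) (k : G)) :=
      fgH_smul_coe (k : G) (c k')
    have e2 : ((c (k * k') : fgH_sh G M) : fgG_Fun G M)
        = (((k : G) • c k' : fgH_sh G M) : fgG_Fun G M) + ((c k : fgH_sh G M) : fgG_Fun G M) := by
      rw [hc k k']
      rfl
    rw [e1, e2]
    abel
  have hF : IsCocycle₂ (fun p : K × K => ((c p.2 : fgH_sh G M) : fgG_Fun G M) (p.1 : G)) := by
    refine fgH_isCocycle₂_of_map (K := K)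
      (F := fun p : K × K => ((c p.2 : fgH_sh G M) : fgG_Fun G M) (p.1 : G)) (fgH_phi G M)
      (fun k m => fgH_phi_smul (k : G) m) fgH_phi_injective ?_
    have := fgI_isCocycle₂_dd (fun k : K => ((c k : fgH_sh G M) : fgG_Fun G M))
    have e : (fun p : K × K => fgH_phi G M (((c p.2 : fgH_sh G M) : fgG_Fun G M) (p.1 : G)))
        = fgI_dd (fun k : K => ((c k : fgH_sh G M) : fgG_Fun G M)) := by
      funext p
      rw [fgI_dd_apply]
      exact (hd p.1 p.2).symm
    rw [e]
    exact this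
  obtain ⟨ψ, hψ⟩ := h2 _ hF
  -- the corrected cochain is a 1-cocycle with values in the coinduced module
  have hc1 : IsCocycle₁ (fun k : K => ((c k : fgH_sh G M) : fgG_Fun G M) - fgH_phi G M (ψ k)) := by
    intro k k'
    have e1 := hd k k'
    have e2 := hψ k k'
    simp only at e2
    have hφK : ∀ (k : K) (m : M), fgH_phi G M (k • m) = k • fgH_phi G M m :=
      fun k m => fgH_phi_smul (k : G) m
    rw [← e2, map_add, map_sub, hφK] at e1
    show ((c (k * k') : fgH_sh G M) : fgG_Fun G M) - fgH_phi G M (ψ (k * k'))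
      = k • (((c k' : fgH_sh G M) : fgG_Fun G M) - fgH_phi G M (ψ k'))
        + (((c k : fgH_sh G M) : fgG_Fun G M) - fgH_phi G M (ψ k))
    rw [smul_sub]
    have e3 : ((c (k * k') : fgH_sh G M) : fgG_Fun G M) =
        k • ((c k' : fgH_sh G M) : fgG_Fun G M) + ((c k : fgH_sh G M) : fgG_Fun G M)
        - (k • ((c k' : fgH_sh G M) : fgG_Fun G M)
          - ((c (k * k') : fgH_sh G M) : fgG_Fun G M) + ((c k : fgH_sh G M) : fgG_Fun G M)) := by
      abel
    rw [e3, e1]
    abel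
  obtain ⟨z, hz⟩ := fgG_fun_H1 K _ hc1
  refine ⟨fgH_p G M z, fun k => ?_⟩
  have := congrArg (fgH_p G M) (hz k)
  simp only at this
  rw [map_sub, map_sub, fgH_p_coe, fgH_p_phi, sub_zero] at this
  rw [← this]
  show (k : G) • fgH_p G M z - fgH_p G M z = fgH_p G M ((k : G) • z) - fgH_p G M z
  rw [fgH_p_smul]

/-- (c) `H²(G, Sh M) = 0 ⇒ H³(G, M) = 0`. -/
theorem fgH_sh_H3 (h2 : fgF_H2T G (fgH_sh G M)) : fgH_H3T G M := by
  intro f hf
  have hφf : fg_IsCocycle₃ (fun p : G × G × G => fgH_phi G M (f p)) :=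
    fgH_isCocycle₃_map (fgH_phi G M) (fun k m => fgH_phi_smul k m) hf
  obtain ⟨y, hy⟩ := fgH_fun_H3T _ hφf
  -- the image of `y` in `Sh M` is a 2-cocycle
  have hyb : IsCocycle₂ (fun p : G × G => fgH_p G M (y p)) := by
    apply fgH_isCocycle₂_of_d_eq_zero
    intro g k j
    have := congrArg (fgH_p G M) (hy g k j)
    rw [fgH_p_phi, map_sub, map_add, map_sub, fgH_p_smul] at this
    exact this
  obtain ⟨zb, hzb⟩ := h2 _ hyb
  -- corrected 2-cochain with values in `M`
  set y' : G × G → fgG_Fun G M := fun p =>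
    y p - (p.1 • ((zb p.2 : fgH_sh G M) : fgG_Fun G M)
      - ((zb (p.1 * p.2) : fgH_sh G M) : fgG_Fun G M) + ((zb p.1 : fgH_sh G M) : fgG_Fun G M))
    with hy'
  have hpy' : ∀ g k : G, fgH_p G M (y' (g, k)) = 0 := by
    intro g k
    have e := hzb g k
    simp only at e
    rw [hy']
    simp only
    rw [map_sub, map_add, map_sub, fgH_p_smul, fgH_p_coe, fgH_p_coe, fgH_p_coe, e, sub_self]
  have hy'φ : ∀ g k : G, y' (g, k) = fgH_phi G M (y' (g, k) 1) :=
    fun g k => fgH_eq_phi_of_p_eq_zero _ (hpy' g k)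
  refine ⟨fun p => y' p 1, fun g k j => ?_⟩
  apply fgH_phi_injective (G := G)
  have hyg := hy g k j
  simp only at hyg
  rw [map_sub, map_add, map_sub, fgH_phi_smul, ← hy'φ, ← hy'φ, ← hy'φ, ← hy'φ, ← hyg]
  -- `d (y - d z) = d y`
  have hdd := fgI_isCocycle₂_dd (fun g : G => ((zb g : fgH_sh G M) : fgG_Fun G M)) g k j
  simp only [fgI_dd_apply] at hdd
  simp only [hy', smul_sub]
  have e : ∀ a b c d a' b' c' d' : fgG_Fun G M, b' + d' = a' + c' →
      (a - a') - (b - b') + (c - c') - (d - d') = a - b + c - d := by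
    intro a b c d a' b' c' d' h
    have : a' = b' + d' - c' := by rw [h]; abel
    rw [this]
    abel
  apply e
  rw [smul_add, smul_sub] at hdd
  exact hdd

end ShiftLemmas

end Fermat.Agent.S55
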