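import Fermat.Agent.S55.FG.SplitAug

set_option linter.style.haveILetI false
set_option linter.unusedSectionVars false

/-!
# S55 finite-group toolkit: the splitting module of a 2-cocycle

For a 2-cocycle `a : G × G → A` of the finite group `G`, the splitting module is
`fgG_Split a ha = A × I_G` with the twisted action
`σ • (c, f) = (σ • c + ∑_ρ f ρ • a (σ, ρ⁻¹), σ • f)`.
It contains `A` (via `fgG_Split.incl`), maps onto `I_G` (via `snd`), and contains elements
`fgG_Split.xel σ` with `g • xel h = xel (g * h) - xel g + incl (a (g, h))`, so that the class of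
`a` dies in it.
-/

namespace Fermat.Agent.S55

open groupCohomology

section Tw

variable {G : Type*} [Group G] [Fintype G] {A : Type*} [AddCommGroup A] [DistribMulAction G A]

/-- The twisting term `f ↦ ∑_ρ f ρ • a (σ, ρ⁻¹)`. -/
noncomputable def fgG_tw (a : G × G → A) (σ : G) : fgG_Fun G ℤ →+ A where
  toFun f := ∑ ρ : G, f ρ • a (σ, ρ⁻¹)
  map_zero' := by simp [fgG_Fun.zero_apply]
  map_add' f g := by simp [fgG_Fun.add_apply, add_smul, Finset.sum_add_distrib]

theorem fgG_tw_apply (a : G × G → A) (σ : G) (f : fgG_Fun G ℤ) :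
    fgG_tw a σ f = ∑ ρ : G, f ρ • a (σ, ρ⁻¹) := rfl

theorem fgG_tw_e (a : G × G → A) (σ τ : G) : fgG_tw a σ (fgG_e τ) = a (σ, τ) := by
  classical
  rw [fgG_tw_apply]
  simp [fgG_e_apply]

theorem fgG_tw_smul {a : G × G → A} (ha : IsCocycle₂ a) (σ σ' : G) (f : fgG_Fun G ℤ) :
    fgG_tw a σ (σ' • f) + σ • fgG_tw a σ' f =
      fgG_tw a (σ * σ') f + fgG_eps G f • a (σ, σ') := by
  have h1 : ∑ ρ : G, (σ' • f) ρ • a (σ, ρ⁻¹) = ∑ ρ : G, f ρ • a (σ, σ' * ρ⁻¹) := by
    refine Fintype.sum_equiv (Equiv.mulRight σ') _ _ (fun ρ => ?_)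
    simp only [Equiv.coe_mulRight, fgG_Fun.smul_apply, mul_inv_rev, mul_inv_cancel_left]
  rw [fgG_tw_apply, fgG_tw_apply, fgG_tw_apply, fgG_eps_apply, Finset.sum_smul,
    Finset.smul_sum, h1, ← Finset.sum_add_distrib, ← Finset.sum_add_distrib]
  refine Finset.sum_congr rfl (fun ρ _ => ?_)
  rw [smul_comm σ (f ρ), ← smul_add, ← smul_add, ha σ σ' ρ⁻¹, add_comm]

theorem fgG_tw_one {a : G × G → A} (ha : IsCocycle₂ a) (f : fgG_Fun G ℤ) :
    fgG_tw a 1 f = fgG_eps G f • a (1, 1) := by
  rw [fgG_tw_apply, fgG_eps_apply, Finset.sum_smul]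
  refine Finset.sum_congr rfl (fun ρ _ => ?_)
  rw [map_one_fst_of_isCocycle₂ ha]

end Tw

/-- The splitting module of the 2-cocycle `a`. -/
def fgG_Split {G : Type*} [Group G] [Fintype G] {A : Type*} [AddCommGroup A]
    [DistribMulAction G A] (a : G × G → A) (_ha : IsCocycle₂ a) : Type _ := A × fgG_I G

namespace fgG_Split

variable {G : Type*} [Group G] [Fintype G] {A : Type*} [AddCommGroup A] [DistribMulAction G A]
  {a : G × G → A} {ha : IsCocycle₂ a}

/-- constructor -/
def mk (c : A) (f : fgG_I G) : fgG_Split a ha := (c, f)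

/-- first component -/
def fst (x : fgG_Split a ha) : A := Prod.fst (show A × fgG_I G from x)

/-- second component -/
def snd (x : fgG_Split a ha) : fgG_I G := Prod.snd (show A × fgG_I G from x)

instance : AddCommGroup (fgG_Split a ha) := inferInstanceAs (AddCommGroup (A × fgG_I G))

theorem ext' {x y : fgG_Split a ha} (h1 : x.fst = y.fst) (h2 : x.snd = y.snd) : x = y :=
  Prod.ext h1 h2

@[simp] theorem fst_mk (c : A) (f : fgG_I G) : (mk c f : fgG_Split a ha).fst = c := rfl
@[simp] theorem snd_mk (c : A) (f : fgG_I G) : (mk c f : fgG_Split a ha).snd = f := rfl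
@[simp] theorem fst_add (x y : fgG_Split a ha) : (x + y).fst = x.fst + y.fst := rfl
@[simp] theorem snd_add (x y : fgG_Split a ha) : (x + y).snd = x.snd + y.snd := rfl
@[simp] theorem fst_sub (x y : fgG_Split a ha) : (x - y).fst = x.fst - y.fst := rfl
@[simp] theorem snd_sub (x y : fgG_Split a ha) : (x - y).snd = x.snd - y.snd := rfl
@[simp] theorem fst_zero : (0 : fgG_Split a ha).fst = 0 := rfl
@[simp] theorem snd_zero : (0 : fgG_Split a ha).snd = 0 := rfl
@[simp] theorem fst_neg (x : fgG_Split a ha) : (-x).fst = -x.fst := rfl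
@[simp] theorem snd_neg (x : fgG_Split a ha) : (-x).snd = -x.snd := rfl
@[simp] theorem fst_zsmul (m : ℤ) (x : fgG_Split a ha) : (m • x).fst = m • x.fst := rfl
@[simp] theorem snd_zsmul (m : ℤ) (x : fgG_Split a ha) : (m • x).snd = m • x.snd := rfl

noncomputable instance : DistribMulAction G (fgG_Split a ha) where
  smul σ x := mk (σ • x.fst + fgG_tw a σ (x.snd : fgG_Fun G ℤ)) (σ • x.snd)
  one_smul x := by
    apply ext'
    · show (1 : G) • x.fst + fgG_tw a 1 (x.snd : fgG_Fun G ℤ) = x.fst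
      rw [one_smul, fgG_tw_one ha, (fgG_mem_I _).1 x.snd.2, zero_smul, add_zero]
    · show (1 : G) • x.snd = x.snd
      rw [one_smul]
  mul_smul σ σ' x := by
    apply ext'
    · show (σ * σ') • x.fst + fgG_tw a (σ * σ') (x.snd : fgG_Fun G ℤ) =
        σ • (σ' • x.fst + fgG_tw a σ' (x.snd : fgG_Fun G ℤ)) +
          fgG_tw a σ ((σ' • x.snd : fgG_I G) : fgG_Fun G ℤ)
      have := fgG_tw_smul ha σ σ' (x.snd : fgG_Fun G ℤ)
      rw [(fgG_mem_I _).1 x.snd.2, zero_smul, add_zero] at this
      rw [fgG_I_coe_smul, ← this, mul_smul, smul_add]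
      abel
    · show (σ * σ') • x.snd = σ • σ' • x.snd
      rw [mul_smul]
  smul_zero σ := by
    apply ext'
    · show σ • (0 : A) + fgG_tw a σ ((0 : fgG_I G) : fgG_Fun G ℤ) = 0
      rw [smul_zero, AddSubgroup.coe_zero, map_zero, add_zero]
    · show σ • (0 : fgG_I G) = 0
      rw [smul_zero]
  smul_add σ x y := by
    apply ext'
    · show σ • (x.fst + y.fst) + fgG_tw a σ ((x.snd + y.snd : fgG_I G) : fgG_Fun G ℤ) =
        (σ • x.fst + fgG_tw a σ (x.snd : fgG_Fun G ℤ)) +
          (σ • y.fst + fgG_tw a σ (y.snd : fgG_Fun G ℤ))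
      rw [smul_add, AddSubgroup.coe_add, map_add]
      abel
    · show σ • (x.snd + y.snd) = σ • x.snd + σ • y.snd
      rw [smul_add]

theorem fst_smul (σ : G) (x : fgG_Split a ha) :
    (σ • x).fst = σ • x.fst + fgG_tw a σ (x.snd : fgG_Fun G ℤ) := rfl

theorem snd_smul (σ : G) (x : fgG_Split a ha) : (σ • x).snd = σ • x.snd := rfl

/-- The inclusion `A → A(a)`. -/
def incl (c : A) : fgG_Split a ha := mk c 0

@[simp] theorem fst_incl (c : A) : (incl c : fgG_Split a ha).fst = c := rfl
@[simp] theorem snd_incl (c : A) : (incl c : fgG_Split a ha).snd = 0 := rfl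

theorem incl_add (c c' : A) : (incl (c + c') : fgG_Split a ha) = incl c + incl c' := by
  apply ext' <;> simp

theorem incl_sub (c c' : A) : (incl (c - c') : fgG_Split a ha) = incl c - incl c' := by
  apply ext' <;> simp

theorem incl_zsmul (m : ℤ) (c : A) : (incl (m • c) : fgG_Split a ha) = m • incl c := by
  apply ext' <;> simp

theorem incl_injective : Function.Injective (incl : A → fgG_Split a ha) := by
  intro c c' h
  have := congrArg fst h
  simpa using this

theorem smul_incl (σ : G) (c : A) : σ • (incl c : fgG_Split a ha) = incl (σ • c) := by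
  apply ext'
  · rw [fst_smul, fst_incl, snd_incl, AddSubgroup.coe_zero, map_zero, add_zero, fst_incl]
  · rw [snd_smul, snd_incl, smul_zero, snd_incl]

theorem eq_incl_of_snd_eq_zero (x : fgG_Split a ha) (h : x.snd = 0) : x = incl x.fst := by
  apply ext'
  · simp
  · simp [h]

/-- The element `x_σ` of the splitting module. -/
noncomputable def xel (σ : G) : fgG_Split a ha := mk (a (1, 1)) (fgG_d σ)

@[simp] theorem fst_xel (σ : G) : (xel σ : fgG_Split a ha).fst = a (1, 1) := rfl
@[simp] theorem snd_xel (σ : G) : (xel σ : fgG_Split a ha).snd = fgG_d σ := rfl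

theorem smul_xel (g h : G) :
    g • (xel h : fgG_Split a ha) = xel (g * h) - xel g + incl (a (g, h)) := by
  apply ext'
  · rw [fst_smul, fst_xel, snd_xel, fgG_coe_d, map_sub, fgG_tw_e, fgG_tw_e,
      map_one_snd_of_isCocycle₂ ha g]
    simp
  · rw [snd_smul, snd_xel, fgG_smul_d]
    simp

end fgG_Split

end Fermat.Agent.S55
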