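import Fermat.Agent.S55.FG.SplitFun

set_option linter.style.haveILetI false
set_option linter.unusedSectionVars false

/-!
# S55 finite-group toolkit: cohomology of the augmentation ideal

For a subgroup `K` of the finite group `G` acting on the augmentation ideal `I_G`:
* `fgG_I_H1` : every 1-cocycle `K → I_G` is `m • (k ↦ e k - e 1)` plus a coboundary;
* `fgG_I_H2` : `H²(K, I_G) = 0`;
* `fgG_u` : the element `|K| • e 1 - ∑_{k ∈ K} e k` with `k • u - u = |K| • (e k - e 1)`.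
-/

namespace Fermat.Agent.S55

open groupCohomology

variable {G : Type*} [Group G] [Fintype G] (K : Subgroup G)

/-- Every 1-cocycle `K → I_G` is an integer multiple of `k ↦ e k - e 1` plus a coboundary. -/
theorem fgG_I_H1 (φ : K → fgG_I G) (hφ : IsCocycle₁ φ) :
    ∃ (m : ℤ) (y : fgG_I G), ∀ k : K, φ k = m • fgG_d (k : G) + (k • y - y) := by
  have hφ' : IsCocycle₁ (fun k : K => ((φ k : fgG_I G) : fgG_Fun G ℤ)) := by
    intro g h
    show ((φ (g * h) : fgG_I G) : fgG_Fun G ℤ) = g • ((φ h : fgG_I G) : fgG_Fun G ℤ) + φ g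
    rw [hφ g h]
    rfl
  obtain ⟨z, hz⟩ := fgG_fun_H1 K _ hφ'
  refine ⟨fgG_eps G z, ⟨z - fgG_eps G z • fgG_e 1, ?_⟩, fun k => ?_⟩
  · rw [fgG_mem_I, map_sub, map_zsmul, fgG_eps_e]
    simp
  · apply Subtype.ext
    have h1 := hz k
    simp only at h1
    rw [← h1]
    show k • z - z = fgG_eps G z • (fgG_e (k : G) - fgG_e 1) +
      ((k : G) • (z - fgG_eps G z • fgG_e 1) - (z - fgG_eps G z • fgG_e 1))
    have e1 : (k : G) • (z - fgG_eps G z • fgG_e 1) =
        (k : G) • z - fgG_eps G z • fgG_e (k : G) := by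
      rw [smul_sub, smul_comm (k : G) (fgG_eps G z), fgG_smul_e, mul_one]
    have e2 : fgG_eps G z • (fgG_e (k : G) - fgG_e 1) =
        fgG_eps G z • fgG_e (k : G) - fgG_eps G z • fgG_e 1 := smul_sub _ _ _
    rw [e1, e2]
    show (k : G) • z - z = _
    abel

/-- `H²(K, I_G) = 0`. -/
theorem fgG_I_H2 : fgF_H2T K (fgG_I G) := by
  intro F hF
  have hF' : IsCocycle₂ (fun p : K × K => ((F p : fgG_I G) : fgG_Fun G ℤ)) := by
    intro g h j
    have := congrArg (fun x : fgG_I G => (x : fgG_Fun G ℤ)) (hF g h j)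
    exact this
  obtain ⟨ψ', hψ'⟩ := fgG_fun_H2 K _ hF'
  let u : K → ℤ := fun k => fgG_eps G (ψ' k)
  have hu : ∀ g h : K, u (g * h) = u g + u h := by
    intro g h
    have := congrArg (fgG_eps G) (hψ' g h)
    simp only at this
    rw [(fgG_mem_I _).1 (F (g, h)).2, map_add, map_sub] at this
    have e : fgG_eps G (g • ψ' h) = fgG_eps G (ψ' h) := fgG_eps_smul (g : G) (ψ' h)
    rw [e] at this
    show fgG_eps G (ψ' (g * h)) = fgG_eps G (ψ' g) + fgG_eps G (ψ' h)
    linarith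
  have hu1 : u 1 = 0 := by
    have := hu 1 1
    rw [mul_one] at this
    linarith
  have hupow : ∀ (k : K) (n : ℕ), u (k ^ n) = n * u k := by
    intro k n
    induction n with
    | zero => simp [hu1]
    | succ n ih =>
      rw [pow_succ, hu, ih]
      push_cast
      ring
  have hu0 : ∀ k : K, u k = 0 := by
    intro k
    have h1 := hupow k (Nat.card K)
    rw [pow_card_eq_one', hu1] at h1
    have h2 : (Nat.card K : ℤ) ≠ 0 := by
      exact_mod_cast (Nat.card_pos (α := K)).ne'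
    rcases mul_eq_zero.1 h1.symm with h | h
    · exact absurd h h2
    · exact h
  refine ⟨fun k => ⟨ψ' k, (fgG_mem_I _).2 (hu0 k)⟩, fun g h => ?_⟩
  apply Subtype.ext
  exact hψ' g h

/-- The element `|K| • e 1 - ∑_{k ∈ K} e k` of the augmentation ideal. -/
noncomputable def fgG_u : fgG_I G :=
  ⟨(Nat.card K : ℤ) • fgG_e 1 - ∑ᶠ k : K, fgG_e (k : G), by
    haveI : Fintype K := Fintype.ofFinite K
    rw [finsum_eq_sum_of_fintype, fgG_mem_I, map_sub, map_zsmul, map_sum, fgG_eps_e]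
    simp [fgG_eps_e, Nat.card_eq_fintype_card]⟩

theorem fgG_coe_u : ((fgG_u K : fgG_I G) : fgG_Fun G ℤ) =
    (Nat.card K : ℤ) • fgG_e 1 - ∑ᶠ k : K, fgG_e (k : G) := rfl

theorem fgG_smul_u (k : K) : k • fgG_u K - fgG_u K = (Nat.card K : ℤ) • fgG_d (k : G) := by
  haveI : Fintype K := Fintype.ofFinite K
  apply Subtype.ext
  rw [AddSubgroup.coe_sub, fgG_I_coe_smul_sub, AddSubgroup.coe_zsmul, fgG_coe_d, fgG_coe_u,
    finsum_eq_sum_of_fintype]
  have h1 : k • ∑ k' : K, fgG_e (k' : G) = ∑ k' : K, fgG_e (k' : G) := by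
    rw [Finset.smul_sum]
    refine Fintype.sum_equiv (Equiv.mulLeft k) _ _ (fun k' => ?_)
    show (k : G) • fgG_e (k' : G) = _
    rw [fgG_smul_e]
    rfl
  have h2 : k • ((Nat.card K : ℤ) • fgG_e (1 : G)) = (Nat.card K : ℤ) • fgG_e (k : G) := by
    show (k : G) • ((Nat.card K : ℤ) • fgG_e (1 : G)) = _
    rw [smul_comm (k : G) (Nat.card K : ℤ), fgG_smul_e, mul_one]
  have h3 : (Nat.card K : ℤ) • (fgG_e (k : G) - fgG_e 1) =
      (Nat.card K : ℤ) • fgG_e (k : G) - (Nat.card K : ℤ) • fgG_e 1 := smul_sub _ _ _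
  rw [smul_sub, h1, h2, h3]
  abel

end Fermat.Agent.S55
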